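import Mathlib.Analysis.Complex.Polynomial.Basic
import Mathlib.Data.Nat.Prime.Int
import Mathlib.RingTheory.DedekindDomain.Dvr

/-!
# Reduction of algebraic integers modulo a prime

The ring of complex algebraic integers has, for every prime `l`, a residue field of characteristic
`l`.
-/

noncomputable section

namespace Fermat.Agent.Eisenstein

/-- The ring of complex algebraic integers. -/
abbrev AlgInt : Type := ↥(integralClosure ℤ ℂ)

/-- The inclusion in `ℂ`. -/
def algIntVal : AlgInt →+* ℂ := (integralClosure ℤ ℂ).val.toRingHom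

/-- The embedding of the algebraic integers in `ℂ` is injective. -/
theorem algIntVal_injective : Function.Injective algIntVal := Subtype.val_injective

@[simp] theorem algIntVal_apply (x : AlgInt) : algIntVal x = (x : ℂ) := rfl

/-- A prime number is not a unit among the algebraic integers. -/
theorem natCast_not_isUnit {l : ℕ} (hl : l.Prime) : ¬ IsUnit ((l : ℕ) : AlgInt) := by
  rintro ⟨u, hu⟩
  set x : AlgInt := ((u⁻¹ : AlgIntˣ) : AlgInt)
  have hx : ((l : ℕ) : AlgInt) * x = 1 := by rw [← hu]; exact u.mul_inv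
  have hxC : (l : ℂ) * (x : ℂ) = 1 := by simpa using! congrArg algIntVal hx
  have hlC : (l : ℂ) ≠ 0 := by exact_mod_cast hl.ne_zero
  have hq : (x : ℂ) = algebraMap ℚ ℂ ((l : ℚ)⁻¹) := by
    rw [map_inv₀, map_natCast]
    exact eq_inv_of_mul_eq_one_right hxC
  have hint : IsIntegral ℤ ((l : ℚ)⁻¹) := by
    rw [← isIntegral_algebraMap_iff (B := ℂ) (algebraMap ℚ ℂ).injective, ← hq]
    exact x.2
  obtain ⟨z, hz⟩ := IsIntegrallyClosed.isIntegral_iff.mp hint
  have h1 : (l : ℤ) * z = 1 := by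
    have hlQ : (l : ℚ) ≠ 0 := by exact_mod_cast hl.ne_zero
    have : ((l : ℤ) : ℚ) * (z : ℚ) = 1 := by
      rw [show (z : ℚ) = (l : ℚ)⁻¹ from hz]
      push_cast
      rw [mul_inv_cancel₀ hlQ]
    exact_mod_cast this
  exact hl.ne_one (Nat.dvd_one.mp (Int.natCast_dvd_natCast.mp ⟨z, by simpa using h1.symm⟩))

/-- A residue field of the algebraic integers in characteristic `l`. -/
theorem exists_residue {l : ℕ} (hl : l.Prime) :
    ∃ (K : Type) (_ : Field K) (π : AlgInt →+* K), ∀ z : ℤ, π z = 0 ↔ (l : ℤ) ∣ z := by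
  have hne : Ideal.span {((l : ℕ) : AlgInt)} ≠ ⊤ := fun h =>
    natCast_not_isUnit hl (Ideal.span_singleton_eq_top.mp h)
  obtain ⟨𝔪, h𝔪, hle⟩ := Ideal.exists_le_maximal _ hne
  refine ⟨AlgInt ⧸ 𝔪, Ideal.Quotient.field 𝔪, Ideal.Quotient.mk 𝔪, fun z => ?_⟩
  rw [Ideal.Quotient.eq_zero_iff_mem]
  have hlm : ((l : ℕ) : AlgInt) ∈ 𝔪 := hle (Ideal.mem_span_singleton_self _)
  constructor
  · intro hz
    by_contra hnd
    have hc : IsCoprime (l : ℤ) z :=
      (Nat.prime_iff_prime_int.mp hl).coprime_iff_not_dvd.mpr hnd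
    obtain ⟨a, b, hab⟩ := hc
    refine h𝔪.ne_top ((Ideal.eq_top_iff_one _).mpr ?_)
    have h1 : ((a * (l : ℤ) + b * z : ℤ) : AlgInt) = 1 := by rw [hab, Int.cast_one]
    rw [← h1]
    push_cast
    exact 𝔪.add_mem (𝔪.mul_mem_left _ hlm) (𝔪.mul_mem_left _ hz)
  · rintro ⟨w, rfl⟩
    push_cast
    exact 𝔪.mul_mem_right _ hlm

/-- A root of unity as an algebraic integer. -/
def rootAlgInt (z : ℂ) {n : ℕ} (hn : n ≠ 0) (h : z ^ n = 1) : AlgInt :=
  ⟨z, IsIntegral.of_pow (Nat.pos_of_ne_zero hn) (by rw [h]; exact isIntegral_one)⟩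

@[simp] theorem coe_rootAlgInt (z : ℂ) {n : ℕ} (hn : n ≠ 0) (h : z ^ n = 1) :
    ((rootAlgInt z hn h : AlgInt) : ℂ) = z := rfl

end Fermat.Agent.Eisenstein
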