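import Fermat.Agent.Eisenstein.Hecke

/-!
# A congruence form from the Eisenstein quotient

The pairing `(f, t) ↦ a₁ (t f)` between integral cusp forms and the Hecke algebra identifies each
with the dual of the other up to finite index.  Lifting the Eisenstein eigencharacter modulo a
divisor `m` of the index of the Eisenstein ideal to a functional gives an integral cusp form
congruent to the Eisenstein series modulo `m`.
-/

noncomputable section

open CuspForm ModularCurve CongruenceSubgroup ModularFormClass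

namespace Fermat.Agent.Eisenstein

variable (p : ℕ) [Fact p.Prime]

/-- The integers in the Eisenstein ideal are divisible by every divisor of its index. -/
theorem natCast_dvd_of_intCast_mem {m : ℕ}
    (hm : m ∣ Nat.card (↥(heckeLatticeAlgebra p ∅) ⧸ eisIdeal p)) {a : ℤ}
    (ha : (a : ↥(heckeLatticeAlgebra p ∅)) ∈ eisIdeal p) : (m : ℤ) ∣ a := by
  set f : ℤ →+* ↥(heckeLatticeAlgebra p ∅) ⧸ eisIdeal p :=
    (Ideal.Quotient.mk (eisIdeal p)).comp (Int.castRingHom ↥(heckeLatticeAlgebra p ∅))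
  have hf : Function.Surjective f := by
    intro x
    obtain ⟨t, rfl⟩ := Ideal.Quotient.mk_surjective x
    obtain ⟨P, rfl⟩ := heckePsi_surjective p t
    exact ⟨eisEps p P, (mk_heckePsi p P).symm⟩
  obtain ⟨d, hd⟩ := (IsPrincipalIdealRing.principal (RingHom.ker f)).principal
  rw [Ideal.submodule_span_eq] at hd
  have hcard : Nat.card (↥(heckeLatticeAlgebra p ∅) ⧸ eisIdeal p) = d.natAbs := by
    rw [← Nat.card_congr ((Ideal.quotEquivOfEq hd.symm).trans
        (RingHom.quotientKerEquivOfSurjective hf)).toEquiv,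
      Nat.card_congr (Int.quotientSpanEquivZMod d).toEquiv, Nat.card_zmod]
  have hda : d ∣ a := by
    rw [← Ideal.mem_span_singleton, ← hd, RingHom.mem_ker]
    exact Ideal.Quotient.eq_zero_iff_mem.mpr (by simpa using ha)
  rw [hcard] at hm
  exact (Int.natCast_dvd.mpr hm).trans hda

/-- Abstract form of the lifting of a character. -/
theorem exists_lift_abstract {R T : Type*} [CommRing R] [CommRing T] [Module.Free ℤ T]
    [Module.Finite ℤ T] (ψ : R →+* T) (hψ : Function.Surjective ψ) (ε : R →+* ℤ) (J : Ideal T)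
    (hJ : ∀ P, ψ P - (ε P : T) ∈ J) (m : ℤ) (hm : ∀ a : ℤ, (a : T) ∈ J → m ∣ a) :
    ∃ z : T →ₗ[ℤ] ℤ, ∀ P : R, m ∣ z (ψ P) - ε P := by
  set b := Module.Free.chooseBasis ℤ T
  choose B hB using fun i => hψ (b i)
  refine ⟨b.constr ℤ fun i => ε (B i), fun P => ?_⟩
  set Q : R := ∑ i, (b.repr (ψ P) i : R) * B i with hQ
  have hQP : ψ Q = ψ P := by
    conv_rhs => rw [← b.sum_repr (ψ P)]
    simp [hQ, hB, zsmul_eq_mul]
  have hz : b.constr ℤ (fun i => ε (B i)) (ψ P) = ε Q := by
    simp [hQ, Module.Basis.constr_apply_fintype, Module.Basis.equivFun_apply]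
  rw [hz]
  refine hm _ ?_
  have h := J.sub_mem (hJ P) (hJ Q)
  rw [hQP] at h
  rw [Int.cast_sub]
  convert h using 1
  ring

/-- A lift to `ℤ` of the Eisenstein eigencharacter modulo a divisor of the index. -/
theorem exists_lift {m : ℕ} (hm : m ∣ Nat.card (↥(heckeLatticeAlgebra p ∅) ⧸ eisIdeal p)) :
    ∃ z : ↥(heckeLatticeAlgebra p ∅) →ₗ[ℤ] ℤ,
      ∀ P : HeckeAlg, (m : ℤ) ∣ z (heckePsi p P) - eisEps p P :=
  exists_lift_abstract (heckePsi p) (heckePsi_surjective p) (eisEps p).toRingHom (eisIdeal p)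
    (fun P => Ideal.Quotient.eq.mp (mk_heckePsi p P)) (m : ℤ)
    (fun _ ha => natCast_dvd_of_intCast_mem p hm ha)

/-- A lattice form whose coefficients all vanish is zero. -/
theorem lattice_eq_zero_of_intCoeff (f : ↥(intLattice p 2)) (h : ∀ n, intCoeff p f n = 0) :
    f = 0 := by
  have : NeZero p := ⟨prime_ne_zero⟩
  exact Subtype.ext (HeckeLift.eq_zero_of_qCoeff _ fun n => by simp [qCoeff_eq_intCoeff, h n])

/-- Lattice forms have no constant coefficient. -/
theorem intCoeff_zero_index (f : ↥(intLattice p 2)) : intCoeff p f 0 = 0 := by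
  have : NeZero p := ⟨prime_ne_zero⟩
  rw [intCoeff_eq_iff, HeckeLift.qCoeff_at_zero, Int.cast_zero]

/-- The pairing `(f, t) ↦ a₁ (t f)`. -/
def pairing : ↥(intLattice p 2) →ₗ[ℤ] ↥(heckeLatticeAlgebra p ∅) →ₗ[ℤ] ℤ :=
  ((LinearMap.compr₂ (LinearMap.id (R := ℤ) (M := Module.End ℤ ↥(intLattice p 2)))
    (coeffLin p 1)).comp (heckeLatticeAlgebra p ∅).val.toLinearMap).flip

theorem pairing_apply (f : ↥(intLattice p 2)) (t : ↥(heckeLatticeAlgebra p ∅)) :
    pairing p f t = intCoeff p ((t : Module.End ℤ ↥(intLattice p 2)) f) 1 := rfl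

/-- A form is determined by the first coefficients of its Hecke translates. -/
theorem pairing_injective : Function.Injective (pairing p) := by
  rw [← LinearMap.ker_eq_bot, LinearMap.ker_eq_bot']
  refine fun f hf => lattice_eq_zero_of_intCoeff p f fun n => ?_
  rcases eq_or_ne n 0 with rfl | hn
  · exact intCoeff_zero_index p f
  obtain ⟨P, hP, -⟩ := exists_heckeIndex p n hn
  rw [← hP f]
  exact LinearMap.congr_fun hf (heckePsi p P)

/-- A Hecke operator is determined by the pairing with all forms. -/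
theorem pairing_flip_injective : Function.Injective (pairing p).flip := by
  rw [← LinearMap.ker_eq_bot, LinearMap.ker_eq_bot']
  intro t ht
  refine Subtype.ext (LinearMap.ext fun f => lattice_eq_zero_of_intCoeff p _ fun n => ?_)
  rcases eq_or_ne n 0 with rfl | hn
  · exact intCoeff_zero_index p _
  obtain ⟨P, hP, -⟩ := exists_heckeIndex p n hn
  rw [← hP]
  have h := LinearMap.congr_fun ht (actL p P f)
  rw [LinearMap.flip_apply, pairing_apply, LinearMap.zero_apply] at h
  rw [← h]
  congr 1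
  obtain ⟨Q, rfl⟩ := heckePsi_surjective p t
  have := congrArg (fun g : Module.End ℤ ↥(intLattice p 2) => g f)
    (show actL p P * actL p Q = actL p Q * actL p P by rw [← actL_mul, ← actL_mul, mul_comm])
  simpa using! this

/-- The duality `T ↔ integral forms` up to finite index. -/
theorem exists_smul_mem_range_pairing (z : ↥(heckeLatticeAlgebra p ∅) →ₗ[ℤ] ℤ) :
    ∃ N : ℤ, N ≠ 0 ∧ ∃ f, pairing p f = N • z := by
  have : NeZero p := ⟨prime_ne_zero⟩
  have := intLattice.moduleFinite p
  have := intLattice.moduleFree p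
  have e1 : Module.finrank ℤ ↥(intLattice p 2) ≤ Module.finrank ℤ ↥(heckeLatticeAlgebra p ∅) := by
    have := LinearMap.finrank_le_finrank_of_injective (pairing_injective p)
    rwa [Module.finrank_linearMap_self] at this
  have e2 : Module.finrank ℤ ↥(heckeLatticeAlgebra p ∅) ≤ Module.finrank ℤ ↥(intLattice p 2) := by
    have := LinearMap.finrank_le_finrank_of_injective (pairing_flip_injective p)
    rwa [Module.finrank_linearMap_self] at this
  have h1 : Module.finrank ℤ (LinearMap.range (pairing p)) =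
      Module.finrank ℤ (↥(heckeLatticeAlgebra p ∅) →ₗ[ℤ] ℤ) := by
    rw [LinearMap.finrank_range_of_inj (pairing_injective p), Module.finrank_linearMap_self]
    omega
  have h2 := Submodule.finrank_quotient_add_finrank (LinearMap.range (pairing p))
  have h3 : Module.finrank ℤ
      ((↥(heckeLatticeAlgebra p ∅) →ₗ[ℤ] ℤ) ⧸ LinearMap.range (pairing p)) = 0 := by omega
  obtain ⟨N, hN, hN'⟩ := Module.finrank_eq_zero_iff.mp h3 (Submodule.Quotient.mk z)
  refine ⟨N, hN, LinearMap.mem_range.mp ?_⟩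
  rwa [← Submodule.Quotient.mk_smul, Submodule.Quotient.mk_eq_zero] at hN'

/-- A divisor of the index gives an integral cusp form congruent to the Eisenstein series. -/
theorem exists_congruence_of_dvd_card {m : ℕ}
    (hm : m ∣ Nat.card (↥(heckeLatticeAlgebra p ∅) ⧸ eisIdeal p)) :
    ∃ f : ↥(intLattice p 2), ∀ n, n ≠ 0 → (m : ℤ) ∣ intCoeff p f n - sigmaP p n := by
  have : NeZero p := ⟨prime_ne_zero⟩
  obtain ⟨z, hz⟩ := exists_lift p hm
  obtain ⟨N, hN, f, hf⟩ := exists_smul_mem_range_pairing p z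
  have hval : ∀ n, n ≠ 0 → ∃ P : HeckeAlg, intCoeff p f n = N * z (heckePsi p P) ∧
      eisEps p P = sigmaP p n := by
    intro n hn
    obtain ⟨P, hP, hE⟩ := exists_heckeIndex p n hn
    refine ⟨P, ?_, hE⟩
    rw [← hP f]
    exact LinearMap.congr_fun hf (heckePsi p P)
  set g : CuspForm (Gamma0 p) 2 := ((N : ℂ)⁻¹) • (f : CuspForm (Gamma0 p) 2)
  have hg : ∀ n, ∃ a : ℤ, qCoeff (⇑g) n = (a : ℂ) ∧ intCoeff p f n = N * a := by
    intro n
    rw [HeckeLift.qCoeff_smul, qCoeff_eq_intCoeff]
    rcases eq_or_ne n 0 with rfl | hn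
    · exact ⟨0, by simp [intCoeff_zero_index], by simp [intCoeff_zero_index]⟩
    obtain ⟨P, hP, -⟩ := hval n hn
    refine ⟨z (heckePsi p P), ?_, hP⟩
    rw [hP, Int.cast_mul, inv_mul_cancel_left₀ (Int.cast_ne_zero.mpr hN)]
  have hmem : g ∈ intLattice p 2 :=
    HeckeLift.mem_intLattice_of_int_qCoeff fun n => ⟨_, (hg n).choose_spec.1⟩
  refine ⟨⟨g, hmem⟩, fun n hn => ?_⟩
  obtain ⟨a, ha, ha'⟩ := hg n
  obtain ⟨P, hP, hE⟩ := hval n hn
  rw [show intCoeff p ⟨g, hmem⟩ n = a from (intCoeff_eq_iff p ⟨g, hmem⟩ n a).mpr ha,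
    mul_left_cancel₀ hN (ha'.symm.trans hP), ← hE]
  exact hz P

end Fermat.Agent.Eisenstein
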