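import Fermat.Agent.Eisenstein.WeightTwo

/-!
# The weight two Eisenstein series of prime level

`E = (p E₂(p τ) - E₂(τ)) / 24` is a modular form for `Γ₀(p)` with constant term `(p - 1) / 24` and
`n`-th coefficient the sum of the divisors of `n` prime to `p`.
-/

noncomputable section

open UpperHalfPlane CongruenceSubgroup Matrix.SpecialLinearGroup Function EisensteinSeries
open scoped MatrixGroups ModularForm Manifold ArithmeticFunction.sigma

namespace Fermat.Agent.Eisenstein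

/-- The weight of a divisor in `sigmaP`. -/
def divWeight (p d : ℕ) : ℤ := if p ∣ d then 0 else d

/-- Sum of the divisors prime to `p`. -/
def sigmaP (p n : ℕ) : ℤ := ∑ d ∈ n.divisors, divWeight p d

/-- The divisor sum prime to `p` is one at `1`. -/
theorem sigmaP_one {p : ℕ} (hp : p.Prime) : sigmaP p 1 = 1 := by
  simp [sigmaP, divWeight, hp.not_dvd_one]

theorem divWeight_mul {p : ℕ} (hp : p.Prime) (a b : ℕ) :
    divWeight p (a * b) = divWeight p a * divWeight p b := by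
  simp only [divWeight, hp.dvd_mul]
  split_ifs <;> simp_all

theorem image_divisors_div {l n : ℕ} (hl : l ≠ 0) (hn : n ≠ 0) (h : l ∣ n) :
    n.divisors.filter (l ∣ ·) = (n / l).divisors.image (l * ·) := by
  obtain ⟨m, rfl⟩ := h
  rw [Nat.mul_div_cancel_left m (Nat.pos_of_ne_zero hl)]
  have hm : m ≠ 0 := right_ne_zero_of_mul hn
  ext d
  simp only [Finset.mem_filter, Nat.mem_divisors, Finset.mem_image]
  constructor
  · rintro ⟨⟨hd, -⟩, e, rfl⟩
    exact ⟨e, ⟨(mul_dvd_mul_iff_left hl).mp hd, hm⟩, rfl⟩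
  · rintro ⟨e, ⟨he, -⟩, rfl⟩
    exact ⟨⟨mul_dvd_mul_left l he, hn⟩, dvd_mul_right l e⟩

/-- Sum over the divisors of `n` which are multiples of `l`. -/
theorem sum_filter_dvd {M : Type*} [AddCommMonoid M] (f : ℕ → M) {l n : ℕ} (hl : l ≠ 0)
    (hn : n ≠ 0) :
    ∑ d ∈ n.divisors.filter (l ∣ ·), f d =
      if l ∣ n then ∑ e ∈ (n / l).divisors, f (l * e) else 0 := by
  split_ifs with h
  · rw [image_divisors_div hl hn h,
      Finset.sum_image fun a _ b _ hab => mul_left_cancel₀ hl hab]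
  · rw [Finset.sum_eq_zero]
    intro d hd
    simp only [Finset.mem_filter, Nat.mem_divisors] at hd
    exact absurd (hd.2.trans hd.1.1) h

/-- The Hecke recursion for `sigmaP`. -/
theorem sigmaP_mul_prime {p : ℕ} (hp : p.Prime) {l n : ℕ} (hl : l.Prime) (hn : n ≠ 0) :
    sigmaP p (n * l) + (if l ∣ n then divWeight p l * sigmaP p (n / l) else 0) =
      (1 + divWeight p l) * sigmaP p n := by
  classical
  have hU : (n * l).divisors = n.divisors ∪ n.divisors.image (l * ·) := by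
    ext d
    simp only [Nat.mem_divisors, Finset.mem_union, Finset.mem_image]
    constructor
    · rintro ⟨hd, -⟩
      by_cases h : l ∣ d
      · obtain ⟨e, rfl⟩ := h
        rw [mul_comm n l, mul_dvd_mul_iff_left hl.ne_zero] at hd
        exact Or.inr ⟨e, ⟨hd, hn⟩, rfl⟩
      · exact Or.inl ⟨((hl.coprime_iff_not_dvd.mpr h).symm).dvd_of_dvd_mul_right hd, hn⟩
    · rintro (⟨hd, -⟩ | ⟨e, ⟨he, -⟩, rfl⟩)
      · exact ⟨hd.mul_right l, mul_ne_zero hn hl.ne_zero⟩
      · exact ⟨by rw [mul_comm n l]; exact mul_dvd_mul_left l he, mul_ne_zero hn hl.ne_zero⟩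
  have hI : n.divisors ∩ n.divisors.image (l * ·) = n.divisors.filter (l ∣ ·) := by
    ext d
    simp only [Finset.mem_inter, Finset.mem_image, Finset.mem_filter, Nat.mem_divisors]
    constructor
    · rintro ⟨hd, e, -, rfl⟩
      exact ⟨hd, dvd_mul_right l e⟩
    · rintro ⟨hd, e, rfl⟩
      exact ⟨hd, e, ⟨(dvd_mul_left e l).trans hd.1, hd.2⟩, rfl⟩
  have h := Finset.sum_union_inter (s₁ := n.divisors) (s₂ := n.divisors.image (l * ·))
    (f := divWeight p)
  rw [← hU, hI, sum_filter_dvd _ hl.ne_zero hn,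
    Finset.sum_image fun a _ b _ hab => mul_left_cancel₀ hl.ne_zero hab] at h
  simp only [divWeight_mul hp, ← Finset.mul_sum] at h
  rw [add_mul, one_mul]
  exact h

/-- The divisor sum prime to `p` does not see a factor `p`. -/
theorem sigmaP_mul_self {p : ℕ} (hp : p.Prime) (n : ℕ) : sigmaP p (n * p) = sigmaP p n := by
  rcases eq_or_ne n 0 with rfl | hn
  · simp
  simpa [divWeight] using sigmaP_mul_prime hp hp hn

/-- `sigmaP` is the `p`-stabilisation of `σ₁`. -/
theorem sigmaP_eq {p : ℕ} (hp : p.Prime) {n : ℕ} (hn : n ≠ 0) :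
    (sigmaP p n : ℂ) =
      (σ 1 n : ℂ) - if p ∣ n then (p : ℂ) * (σ 1 (n / p) : ℂ) else 0 := by
  have h1 : ∀ d, (divWeight p d : ℂ) = (d : ℂ) - if p ∣ d then (d : ℂ) else 0 := by
    intro d; simp only [divWeight]; split_ifs <;> simp
  rw [sigmaP, Int.cast_sum, Finset.sum_congr rfl fun d _ => h1 d, Finset.sum_sub_distrib,
    ← Finset.sum_filter, sum_filter_dvd _ hp.ne_zero hn]
  split_ifs <;> simp [ArithmeticFunction.sigma_apply, Finset.mul_sum]

variable (p : ℕ) [Fact p.Prime]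

/-- The `q`-series of the Eisenstein series of level `p`. -/
def eisSeries : PowerSeries ℂ :=
  PowerSeries.mk fun n => if n = 0 then ((p : ℂ) - 1) / 24 else (sigmaP p n : ℂ)

/-- The series of `E2`. -/
def e2Series : PowerSeries ℂ :=
  PowerSeries.mk fun n => if n = 0 then 1 else -24 * (σ 1 n : ℂ)

theorem hasQ_E2 : HasQ 1 E2 e2Series := fun τ => by
  simpa [e2Series, Periodic.qParam] using EisensteinSeries.hasSum_qExpansion_E2 τ

/-- The weight two Eisenstein series of level `p` (normalised at the first coefficient). -/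
def eisFun : ℍ → ℂ :=
  (1 / 24 : ℂ) • (E2 ∣[(2 : ℤ)] ModularForm.heckeDiagMatrix p - E2)

theorem eisFun_apply (τ w : ℍ) (h : (w : ℂ) = (p : ℂ) * τ) :
    eisFun p τ = (1 / 24 : ℂ) * ((p : ℂ) * E2 w - E2 τ) := by
  rw [eisFun, Pi.smul_apply, smul_eq_mul, Pi.sub_apply,
    ModularForm.slash_heckeDiagMatrix_apply 2 prime_ne_zero,
    show ModularForm.heckeDiagMatrix p • τ = w from UpperHalfPlane.ext
      (by rw [ModularForm.coe_heckeDiagMatrix_smul prime_ne_zero, h])]
  norm_num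

/-- The expansion of the Eisenstein series at `∞`. -/
theorem hasQ_eisFun : HasQ 1 (eisFun p) (eisSeries p) := by
  have hp : p ≠ 0 := prime_ne_zero
  have hV := hasQ_E2.comp_mul hp (g := fun τ => E2 (⟨(p : ℂ) * τ, by
    simpa using mul_pos (Nat.cast_pos.mpr (Nat.pos_of_ne_zero hp)) τ.im_pos⟩ : ℍ))
    fun τ w h => by congr 1; exact UpperHalfPlane.ext h.symm
  have h := ((hV.smul (p : ℂ)).sub hasQ_E2).smul (1 / 24 : ℂ)
  have hf := h.congr (g := eisFun p) fun τ => by
    rw [eisFun_apply p τ ⟨(p : ℂ) * τ, _⟩ rfl]; rfl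
  convert hf using 1
  ext n
  rw [eisSeries, PowerSeries.coeff_mk, PowerSeries.coeff_smul, map_sub, PowerSeries.coeff_smul,
    PowerSeries.coeff_expand]
  rcases eq_or_ne n 0 with rfl | hn
  · simp [e2Series, div_eq_inv_mul]
  rw [if_neg hn, sigmaP_eq (Fact.out : p.Prime) hn]
  split_ifs with hd
  · have : n / p ≠ 0 := Nat.div_ne_zero_iff.mpr
      ⟨hp, Nat.le_of_dvd (Nat.pos_of_ne_zero hn) hd⟩
    simp [e2Series, hn, this]; ring
  · simp [e2Series, hn]

/-- The series of the Eisenstein series at the cusp `0`. -/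
def eisSeriesZero : PowerSeries ℂ :=
  (1 / 24 : ℂ) • ((p : ℂ)⁻¹ • e2Series - PowerSeries.expand p prime_ne_zero e2Series)

/-- The expansion of the Eisenstein series at `0`. -/
theorem hasQ_eisFun_S : HasQ p (eisFun p ∣[(2 : ℤ)] ModularGroup.S) (eisSeriesZero p) := by
  have hp : p ≠ 0 := prime_ne_zero
  have hV := hasQ_E2.comp_div hp (g := fun τ => E2 (⟨(τ : ℂ) / p, by
    rw [Complex.div_natCast_im]
    exact div_pos τ.im_pos (Nat.cast_pos.mpr (Nat.pos_of_ne_zero hp))⟩ : ℍ))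
    fun τ w h => by congr 1; exact UpperHalfPlane.ext h.symm
  have hW := hasQ_E2.scale hp
  rw [one_mul] at hV hW
  refine (((hV.smul (p : ℂ)⁻¹).sub hW).smul (1 / 24 : ℂ)).congr fun τ => ?_
  set ρ : ℍ := ⟨(τ : ℂ) / p, _⟩ with hρ
  have hpC : (p : ℂ) ≠ 0 := by exact_mod_cast hp
  have ht : (τ : ℂ) ≠ 0 := ne_zero τ
  have hσ : ((ModularGroup.S • ρ : ℍ) : ℂ) = (p : ℂ) * ((ModularGroup.S • τ : ℍ) : ℂ) := by
    rw [coe_S_smul, coe_S_smul, show (ρ : ℂ) = (τ : ℂ) / p from rfl]
    field_simp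
  have e1 := congrFun (E2_slash_action ModularGroup.S) ρ
  have e2 := congrFun (E2_slash_action ModularGroup.S) τ
  rw [slash_S_apply] at e1 e2
  simp only [Pi.sub_apply, Pi.smul_apply, smul_eq_mul, D2_S] at e1 e2
  rw [slash_S_apply, eisFun_apply p _ (ModularGroup.S • ρ) hσ]
  simp only [Pi.smul_apply, Pi.sub_apply, smul_eq_mul]
  rw [show (ρ : ℂ) = (τ : ℂ) / p from rfl] at e1
  simp only [zpow_neg, zpow_two] at e1 e2 ⊢
  field_simp at e1 e2 ⊢
  linear_combination e1 - (p : ℂ) * e2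

/-- The Eisenstein series is invariant under `Γ₀(p)`. -/
theorem eisFun_invariant (γ : SL(2, ℤ)) (hγ : γ ∈ Gamma0 p) :
    eisFun p ∣[(2 : ℤ)] γ = eisFun p := by
  have hp : p ≠ 0 := prime_ne_zero
  have hd : (p : ℤ) ∣ γ 1 0 := (ZMod.intCast_zmod_eq_zero_iff_dvd _ _).mp (Gamma0_mem.mp hγ)
  have hc : ((γ 1 0 / p : ℤ) : ℂ) * (p : ℂ) = ((γ 1 0 : ℤ) : ℂ) := by
    exact_mod_cast Int.ediv_mul_cancel hd
  have key : (E2 ∣[(2 : ℤ)] ModularForm.heckeDiagMatrix p) ∣[(2 : ℤ)] γ =
      E2 ∣[(2 : ℤ)] ModularForm.heckeDiagMatrix p - (1 / (2 * riemannZeta 2)) • D2 γ := by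
    change (E2 ∣[(2 : ℤ)] ModularForm.heckeDiagMatrix p) ∣[(2 : ℤ)] (mapGL ℝ γ) = _
    rw [← SlashAction.slash_mul, heckeDiag_mul γ hγ, SlashAction.slash_mul]
    change (E2 ∣[(2 : ℤ)] conjDiag γ hγ) ∣[(2 : ℤ)] ModularForm.heckeDiagMatrix p = _
    rw [E2_slash_action]
    ext τ
    simp only [ModularForm.slash_heckeDiagMatrix_apply 2 hp, Pi.sub_apply, Pi.smul_apply,
      smul_eq_mul, D2, ModularGroup.denom_apply, ModularForm.coe_heckeDiagMatrix_smul hp,
      coe_conjDiag, Matrix.of_apply, Matrix.cons_val', Matrix.cons_val_zero, Matrix.cons_val_one,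
      Matrix.cons_val_fin_one, Matrix.empty_val']
    rw [show (2 : ℤ) - 1 = 1 from rfl, zpow_one, mul_sub]
    congr 1
    simp only [denom, ← hc]
    simp [coe_conjDiag]
    ring
  rw [eisFun, ModularForm.SL_smul_slash, sub_eq_add_neg, SlashAction.add_slash,
    SlashAction.neg_slash, key, E2_slash_action]
  abel_nf

theorem isP1Family_eis : IsP1Family 2 (translates (p := p) 2 (eisFun p)) :=
  isP1Family_translates (eisFun_invariant p)

/-- The Eisenstein series of level `p` as a modular form. -/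
def eisForm : ModularForm (Gamma0 p) 2 :=
  have : NeZero p := ⟨prime_ne_zero⟩
  formOfFamily (isP1Family_eis p) (hasQ_translates (hasQ_eisFun p) (hasQ_eisFun_S p))

@[simp] theorem coe_eisForm : ⇑(eisForm p) = eisFun p := by
  simp [eisForm]

theorem qExpansion_eisForm : qExpansion 1 (⇑(eisForm p)) = eisSeries p := by
  have : NeZero p := ⟨prime_ne_zero⟩
  rw [coe_eisForm]
  simpa using (hasQ_eisFun p).qExpansion_eq

/-- The coefficients of the Eisenstein series at `∞`. -/
theorem coeffInfty_eisForm (n : ℕ) :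
    coeffInfty (eisForm p) n = if n = 0 then ((p : ℂ) - 1) / 24 else (sigmaP p n : ℂ) := by
  rw [coeffInfty, qExpansion_eisForm, eisSeries, PowerSeries.coeff_mk]

end Fermat.Agent.Eisenstein
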