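import Mathlib.LinearAlgebra.Complex.FiniteDimensional
import Mathlib.NumberTheory.ModularForms.QExpansion
import Mathlib.RingTheory.PowerSeries.Expand

/-!
# Functions on the upper half plane given by a convergent series in `exp (2 π i τ / L)`

`HasQ L f P` says that the power series `P`, evaluated at `exp (2 π i τ / L)`, converges to `f τ`
for every `τ`.  Such functions are holomorphic, `L`-periodic and bounded at infinity, and the
relation is compatible with sums, products, translations and rescalings.
-/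

noncomputable section

open UpperHalfPlane Filter Function
open scoped Topology Manifold

namespace Fermat.Agent.Eisenstein

/-- `f` is the sum of the series `P` in the parameter `exp (2 π i τ / L)`. -/
def HasQ (L : ℕ) (f : ℍ → ℂ) (P : PowerSeries ℂ) : Prop :=
  ∀ τ : ℍ, HasSum (fun n => PowerSeries.coeff n P * Periodic.qParam (L : ℝ) τ ^ n) (f τ)

namespace HasQ

variable {L : ℕ} {f g : ℍ → ℂ} {P Q : PowerSeries ℂ}

/-- `HasQ` only depends on the values of the function. -/
theorem congr (hf : HasQ L f P) (h : ∀ τ, g τ = f τ) : HasQ L g P := fun τ => by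
  rw [h τ]; exact hf τ

/-- The zero function has the zero expansion. -/
theorem zero (L : ℕ) : HasQ L 0 0 := fun τ => by simp

/-- A constant has a constant expansion. -/
theorem const (L : ℕ) (c : ℂ) : HasQ L (fun _ => c) (PowerSeries.C c) := fun τ => by
  convert hasSum_ite_eq 0 c using 1
  funext n
  rcases eq_or_ne n 0 with rfl | hn <;> simp [PowerSeries.coeff_C, *]

/-- The constant one has expansion one. -/
theorem one (L : ℕ) : HasQ L 1 1 := by
  have := const L 1
  rwa [map_one] at this

/-- Expansions add. -/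
theorem add (hf : HasQ L f P) (hg : HasQ L g Q) : HasQ L (f + g) (P + Q) := fun τ => by
  simpa [add_mul] using (hf τ).add (hg τ)

/-- Expansions are compatible with negation. -/
theorem neg (hf : HasQ L f P) : HasQ L (-f) (-P) := fun τ => by simpa using (hf τ).neg

/-- Expansions subtract. -/
theorem sub (hf : HasQ L f P) (hg : HasQ L g Q) : HasQ L (f - g) (P - Q) := by
  simpa [sub_eq_add_neg] using hf.add hg.neg

/-- Expansions are compatible with scalars. -/
theorem smul (c : ℂ) (hf : HasQ L f P) : HasQ L (c • f) (c • P) := fun τ => by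
  simpa [mul_assoc] using (hf τ).mul_left c

theorem summable_norm (hf : HasQ L f P) (τ : ℍ) :
    Summable fun n => ‖PowerSeries.coeff n P * Periodic.qParam (L : ℝ) τ ^ n‖ :=
  summable_norm_iff.mpr (hf τ).summable

/-- Expansions multiply. -/
theorem mul (hf : HasQ L f P) (hg : HasQ L g Q) : HasQ L (f * g) (P * Q) := fun τ => by
  set z := Periodic.qParam (L : ℝ) τ
  have e : (fun n => PowerSeries.coeff n (P * Q) * z ^ n) = fun n =>
      ∑ kl ∈ Finset.HasAntidiagonal.antidiagonal n,
        (PowerSeries.coeff kl.1 P * z ^ kl.1) * (PowerSeries.coeff kl.2 Q * z ^ kl.2) := by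
    funext n
    rw [PowerSeries.coeff_mul, Finset.sum_mul]
    refine Finset.sum_congr rfl fun kl hkl => ?_
    rw [← Finset.HasAntidiagonal.mem_antidiagonal.mp hkl, pow_add]
    ring
  rw [e, Pi.mul_apply, ← (hf τ).tsum_eq, ← (hg τ).tsum_eq,
    tsum_mul_tsum_eq_tsum_sum_antidiagonal_of_summable_norm (hf.summable_norm τ)
      (hg.summable_norm τ)]
  exact (summable_norm_sum_mul_antidiagonal_of_summable_norm (hf.summable_norm τ)
    (hg.summable_norm τ)).of_norm.hasSum

/-- Expansions of finite sums. -/
theorem sum {ι : Type*} (s : Finset ι) {f : ι → ℍ → ℂ} {P : ι → PowerSeries ℂ}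
    (h : ∀ i ∈ s, HasQ L (f i) (P i)) : HasQ L (∑ i ∈ s, f i) (∑ i ∈ s, P i) := by
  classical
  induction s using Finset.induction_on with
  | empty => simpa using zero L
  | insert a s ha ih =>
    rw [Finset.sum_insert ha, Finset.sum_insert ha]
    exact (h a (Finset.mem_insert_self a s)).add
      (ih fun i hi => h i (Finset.mem_insert_of_mem hi))

/-- Expansions of finite products. -/
theorem prod {ι : Type*} (s : Finset ι) {f : ι → ℍ → ℂ} {P : ι → PowerSeries ℂ}
    (h : ∀ i ∈ s, HasQ L (f i) (P i)) : HasQ L (∏ i ∈ s, f i) (∏ i ∈ s, P i) := by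
  classical
  induction s using Finset.induction_on with
  | empty => simpa using one L
  | insert a s ha ih =>
    rw [Finset.prod_insert ha, Finset.prod_insert ha]
    exact (h a (Finset.mem_insert_self a s)).mul
      (ih fun i hi => h i (Finset.mem_insert_of_mem hi))

/-- The function of `q` defined by the series. -/
def germ (P : PowerSeries ℂ) : ℂ → ℂ :=
  (FormalMultilinearSeries.ofScalars ℂ fun n => PowerSeries.coeff n P).sum

theorem germ_eq_tsum (P : PowerSeries ℂ) (z : ℂ) :
    germ P z = ∑' n, PowerSeries.coeff n P * z ^ n := by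
  simp [germ, FormalMultilinearSeries.sum, mul_comm]

theorem germ_qParam (hf : HasQ L f P) (τ : ℍ) :
    germ P (Periodic.qParam (L : ℝ) τ) = f τ := by
  rw [germ_eq_tsum, (hf τ).tsum_eq]

variable [NeZero L]

theorem L_pos : (0 : ℝ) < (L : ℝ) := Nat.cast_pos.mpr (Nat.pos_of_ne_zero (NeZero.ne L))

theorem summable_of_norm_lt (hf : HasQ L f P) {r : ℝ} (h0 : 0 < r) (h1 : r < 1) :
    Summable fun n => ‖PowerSeries.coeff n P‖ * r ^ n := by
  have hne : (r : ℂ) ≠ 0 := by exact_mod_cast h0.ne'
  have hlt : ‖(r : ℂ)‖ < 1 := by simpa [abs_of_pos h0] using h1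
  have him := Periodic.im_invQParam_pos_of_norm_lt_one (L_pos (L := L)) hlt hne
  have := hf.summable_norm ⟨_, him⟩
  simpa [Periodic.qParam_right_inv (L_pos (L := L)).ne' hne, abs_of_pos h0] using this

theorem one_le_radius (hf : HasQ L f P) :
    1 ≤ (FormalMultilinearSeries.ofScalars ℂ fun n => PowerSeries.coeff n P).radius := by
  refine le_of_forall_lt_imp_le_of_dense fun r hr => ?_
  lift r to NNReal using hr.ne_top
  rcases eq_or_ne r 0 with rfl | hr0
  · simp
  refine FormalMultilinearSeries.le_radius_of_summable _ ?_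
  simpa using hf.summable_of_norm_lt (r := r) (by exact_mod_cast pos_iff_ne_zero.mpr hr0)
    (by exact_mod_cast hr)

/-- The germ is analytic on the open unit disc with the given coefficients. -/
theorem hasFPowerSeriesOnBall_germ (hf : HasQ L f P) :
    HasFPowerSeriesOnBall (germ P)
      (FormalMultilinearSeries.ofScalars ℂ fun n => PowerSeries.coeff n P) 0 1 :=
  ((FormalMultilinearSeries.hasFPowerSeriesOnBall _
    (lt_of_lt_of_le zero_lt_one hf.one_le_radius)).mono zero_lt_one hf.one_le_radius)

/-- A function with a `q`-expansion of width `L` is `L`-periodic. -/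
theorem periodic (hf : HasQ L f P) : Periodic (f ∘ ofComplex) (L : ℝ) := by
  intro w
  by_cases hw : 0 < w.im
  · have hw' : 0 < (w + ((L : ℝ) : ℂ)).im := by simpa using hw
    simp only [comp_apply, ofComplex_apply_of_im_pos hw', ofComplex_apply_of_im_pos hw]
    rw [← hf.germ_qParam, ← hf.germ_qParam]
    congr 1
    simp only [Periodic.qParam]
    have hL : ((L : ℝ) : ℂ) ≠ 0 := by exact_mod_cast (L_pos (L := L)).ne'
    rw [mul_add, add_div, Complex.exp_add, mul_div_cancel_right₀ _ hL, Complex.exp_two_pi_mul_I,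
      mul_one]
  · have hw' : (w + ((L : ℝ) : ℂ)).im ≤ 0 := by simpa using not_lt.mp hw
    simp only [comp_apply]
    rw [ofComplex_apply_of_im_nonpos hw', ofComplex_apply_of_im_nonpos (not_lt.mp hw)]

theorem differentiableAt_germ (hf : HasQ L f P) {z : ℂ} (hz : ‖z‖ < 1) :
    DifferentiableAt ℂ (germ P) z :=
  (hf.hasFPowerSeriesOnBall_germ.analyticAt_of_mem
    (by rw [← ENNReal.coe_one, Metric.eball_coe]; simpa using hz)).differentiableAt

/-- A function given by a series is holomorphic. -/
theorem mdifferentiable (hf : HasQ L f P) : MDifferentiable 𝓘(ℂ) 𝓘(ℂ) f := by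
  rw [UpperHalfPlane.mdifferentiable_iff]
  intro z hz
  have h1 : DifferentiableAt ℂ (fun w => germ P (Periodic.qParam (L : ℝ) w)) z :=
    (hf.differentiableAt_germ (Periodic.norm_qParam_lt_one (L_pos (L := L)) hz)).comp z
      (Periodic.differentiable_qParam z)
  refine h1.differentiableWithinAt.congr (fun w hw => ?_) ?_
  · rw [Function.comp_apply, ← hf.germ_qParam, ofComplex_apply_of_im_pos hw]
  · rw [Function.comp_apply, ← hf.germ_qParam, ofComplex_apply_of_im_pos hz]

/-- A function given by a series tends to the constant term at `i ∞`. -/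
theorem tendsto_atImInfty (hf : HasQ L f P) :
    Tendsto f atImInfty (𝓝 (PowerSeries.constantCoeff P)) := by
  have h0 : germ P 0 = PowerSeries.constantCoeff P := by
    rw [germ_eq_tsum, tsum_eq_single 0 (fun n hn => by simp [zero_pow hn])]
    simp
  have := (hf.differentiableAt_germ (z := 0) (by simp)).continuousAt.tendsto.comp
    (qParam_tendsto_atImInfty (L_pos (L := L)))
  rw [h0] at this
  exact this.congr fun τ => hf.germ_qParam τ

/-- A function with a `q`-expansion is bounded at `i∞`. -/
theorem isBoundedAtImInfty (hf : HasQ L f P) : IsBoundedAtImInfty f :=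
  hf.tendsto_atImInfty.isBigO_one ℝ

/-- A `q`-expansion without constant term gives vanishing at `i∞`. -/
theorem isZeroAtImInfty (hf : HasQ L f P) (h0 : PowerSeries.constantCoeff P = 0) :
    IsZeroAtImInfty f := by
  have := hf.tendsto_atImInfty
  rwa [h0] at this

/-- The series is the `q`-expansion. -/
theorem qExpansion_eq (hf : HasQ L f P) : qExpansion (L : ℝ) f = P := by
  have ha := analyticAt_cuspFunction_zero (L_pos (L := L)) hf.periodic hf.mdifferentiable
    hf.isBoundedAtImInfty
  have h1 := (hasFPowerSeriesOnBall_cuspFunction (L_pos (L := L)) ha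
    (c := fun n => PowerSeries.coeff n P) (fun τ => by simpa using hf τ)).hasFPowerSeriesAt
  have h2 := ha.hasFPowerSeriesAt
  refine PowerSeries.ext fun n => ?_
  have h3 := congrArg (FormalMultilinearSeries.coeff · n) (h1.eq_formalMultilinearSeries h2)
  simp only [FormalMultilinearSeries.coeff_ofScalars] at h3
  rw [qExpansion_coeff, h3, div_eq_inv_mul]

/-- The series is determined by the function. -/
theorem unique (hf : HasQ L f P) (hg : HasQ L f Q) : P = Q :=
  hf.qExpansion_eq.symm.trans hg.qExpansion_eq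

end HasQ

theorem qParam_pow_rescale {L m : ℕ} (hm : m ≠ 0) (z : ℂ) :
    Periodic.qParam ((L * m : ℕ) : ℝ) z ^ m = Periodic.qParam (L : ℝ) z := by
  rw [Periodic.qParam, Periodic.qParam, ← Complex.exp_nat_mul]
  congr 1
  have : (m : ℂ) ≠ 0 := by exact_mod_cast hm
  push_cast
  field_simp

namespace HasQ

variable {L : ℕ} {f : ℍ → ℂ} {P : PowerSeries ℂ}

/-- Change of parameter from `q_L` to `q_(L m)`. -/
theorem scale (hf : HasQ L f P) {m : ℕ} (hm : m ≠ 0) :
    HasQ (L * m) f (PowerSeries.expand m hm P) := fun τ => by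
  have hinj : Function.Injective (fun n : ℕ => m * n) :=
    mul_right_injective₀ hm
  rw [← hinj.hasSum_iff]
  · convert hf τ using 1
    funext n
    simp only [comp_apply, PowerSeries.coeff_expand_mul, pow_mul, qParam_pow_rescale hm]
  · intro n hn
    rw [PowerSeries.coeff_expand_of_not_dvd _ _ _ fun ⟨k, hk⟩ => hn ⟨k, hk.symm⟩, zero_mul]

/-- Translation by an integer. -/
theorem translate (hf : HasQ L f P) (j : ℤ) :
    HasQ L (fun τ => f ((j : ℝ) +ᵥ τ))
      (PowerSeries.rescale (Periodic.qParam (L : ℝ) j) P) := fun τ => by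
  convert hf ((j : ℝ) +ᵥ τ) using 1
  funext n
  rw [PowerSeries.coeff_rescale]
  simp only [UpperHalfPlane.coe_vadd, Periodic.qParam, mul_add, add_div, Complex.exp_add,
    Complex.ofReal_intCast, mul_pow]
  ring

/-- Substituting `m τ` for `τ`. -/
theorem comp_mul (hf : HasQ L f P) {m : ℕ} (hm : m ≠ 0) {g : ℍ → ℂ}
    (hg : ∀ τ σ : ℍ, (σ : ℂ) = (m : ℂ) * τ → g τ = f σ) :
    HasQ L g (PowerSeries.expand m hm P) := fun τ => by
  have him : 0 < ((m : ℂ) * (τ : ℂ)).im := by
    simpa using mul_pos (Nat.cast_pos.mpr (Nat.pos_of_ne_zero hm)) τ.im_pos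
  rw [hg τ ⟨_, him⟩ rfl]
  have hinj : Function.Injective (fun n : ℕ => m * n) :=
    mul_right_injective₀ hm
  rw [← hinj.hasSum_iff]
  · convert hf ⟨_, him⟩ using 1
    funext n
    simp only [comp_apply, PowerSeries.coeff_expand_mul]
    congr 1
    simp only [Periodic.qParam, ← Complex.exp_nat_mul]
    congr 1
    push_cast
    ring
  · intro n hn
    rw [PowerSeries.coeff_expand_of_not_dvd _ _ _ fun ⟨k, hk⟩ => hn ⟨k, hk.symm⟩, zero_mul]

/-- Substituting `m τ` for `τ`, lowering the period. -/
theorem comp_mul_descend {L m : ℕ} {f : ℍ → ℂ} {P : PowerSeries ℂ} (hf : HasQ (L * m) f P)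
    (hm : m ≠ 0) {g : ℍ → ℂ} (hg : ∀ τ σ : ℍ, (σ : ℂ) = (m : ℂ) * τ → g τ = f σ) :
    HasQ L g P := fun τ => by
  have him : 0 < ((m : ℂ) * (τ : ℂ)).im := by
    simpa using mul_pos (Nat.cast_pos.mpr (Nat.pos_of_ne_zero hm)) τ.im_pos
  rw [hg τ ⟨_, him⟩ rfl]
  convert hf ⟨_, him⟩ using 1
  funext n
  congr 2
  simp only [Periodic.qParam]
  congr 1
  push_cast
  field_simp

/-- Substituting `τ / m` for `τ`. -/
theorem comp_div (hf : HasQ L f P) {m : ℕ} (hm : m ≠ 0) {g : ℍ → ℂ}
    (hg : ∀ τ σ : ℍ, (σ : ℂ) = (τ : ℂ) / m → g τ = f σ) :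
    HasQ (L * m) g P := fun τ => by
  have him : 0 < ((τ : ℂ) / (m : ℂ)).im := by
    rw [Complex.div_natCast_im]
    exact div_pos τ.im_pos (Nat.cast_pos.mpr (Nat.pos_of_ne_zero hm))
  rw [hg τ ⟨_, him⟩ rfl]
  convert hf ⟨_, him⟩ using 1
  funext n
  congr 2
  simp only [Periodic.qParam]
  congr 1
  push_cast
  field_simp

end HasQ

end Fermat.Agent.Eisenstein
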