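import Mathlib.Algebra.Field.ZMod
import Mathlib.NumberTheory.ModularForms.CongruenceSubgroups
import Mathlib.NumberTheory.ModularForms.SlashActions
import Fermat.Agent.Eisenstein.QSeries

/-!
# Families of functions indexed by the projective line over `ZMod p`

A weight `k` family is a map `R : Option (ZMod p) → ℍ → ℂ` permuted by the slash action of
`SL(2, ℤ)` as the points of the projective line are permuted by right multiplication.
-/

noncomputable section

open UpperHalfPlane CongruenceSubgroup Matrix.SpecialLinearGroup Function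
open scoped MatrixGroups ModularForm Manifold

namespace Fermat.Agent.Eisenstein

variable {p : ℕ} [Fact p.Prime]

/-- The point of the projective line with homogeneous coordinates `(c : d)`. -/
def toP1 (c d : ZMod p) : Option (ZMod p) := if c = 0 then none else some (d / c)

/-- Chosen homogeneous coordinates: first entry. -/
def rowC : Option (ZMod p) → ZMod p
  | none => 0
  | some _ => 1

/-- Chosen homogeneous coordinates: second entry. -/
def rowD : Option (ZMod p) → ZMod p
  | none => 1
  | some i => i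

@[simp] theorem rowC_none : rowC (none : Option (ZMod p)) = 0 := rfl
@[simp] theorem rowC_some (i : ZMod p) : rowC (some i) = 1 := rfl
@[simp] theorem rowD_none : rowD (none : Option (ZMod p)) = 1 := rfl
@[simp] theorem rowD_some (i : ZMod p) : rowD (some i) = i := rfl

theorem toP1_row (x : Option (ZMod p)) : toP1 (rowC x) (rowD x) = x := by
  cases x <;> simp [toP1]

theorem toP1_smul {u : ZMod p} (hu : u ≠ 0) (c d : ZMod p) :
    toP1 (u * c) (u * d) = toP1 c d := by
  by_cases hc : c = 0
  · simp [toP1, hc]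
  · simp only [toP1, mul_eq_zero, hu, hc, or_self, if_false]
    congr 1
    field_simp

theorem exists_row_toP1 (c d : ZMod p) (h : c ≠ 0 ∨ d ≠ 0) :
    ∃ u : ZMod p, u ≠ 0 ∧ c = u * rowC (toP1 c d) ∧ d = u * rowD (toP1 c d) := by
  by_cases hc : c = 0
  · exact ⟨d, by tauto, by simp [toP1, hc], by simp [toP1, hc]⟩
  · exact ⟨c, hc, by simp [toP1, hc], by simp [toP1, hc]; field_simp⟩

/-- First coordinate of the row `x` times `γ`. -/
def imgC (x : Option (ZMod p)) (γ : SL(2, ℤ)) : ZMod p :=
  rowC x * (γ 0 0 : ℤ) + rowD x * (γ 1 0 : ℤ)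

/-- Second coordinate of the row `x` times `γ`. -/
def imgD (x : Option (ZMod p)) (γ : SL(2, ℤ)) : ZMod p :=
  rowC x * (γ 0 1 : ℤ) + rowD x * (γ 1 1 : ℤ)

/-- The right action of `SL(2, ℤ)` on the projective line. -/
def act (x : Option (ZMod p)) (γ : SL(2, ℤ)) : Option (ZMod p) := toP1 (imgC x γ) (imgD x γ)

theorem det_cast (γ : SL(2, ℤ)) :
    ((γ 0 0 : ℤ) : ZMod p) * (γ 1 1 : ℤ) - ((γ 0 1 : ℤ) : ZMod p) * (γ 1 0 : ℤ) = 1 := by
  have h := γ.det_coe
  rw [Matrix.det_fin_two] at h
  exact_mod_cast congrArg (fun z : ℤ => (z : ZMod p)) h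

theorem img_ne_zero (x : Option (ZMod p)) (γ : SL(2, ℤ)) : imgC x γ ≠ 0 ∨ imgD x γ ≠ 0 := by
  by_contra h
  push Not at h
  obtain ⟨h1, h2⟩ := h
  simp only [imgC, imgD] at h1 h2
  have hd := det_cast (p := p) γ
  have hc : rowC x = 0 := by
    linear_combination ((γ 1 1 : ℤ) : ZMod p) * h1 - ((γ 1 0 : ℤ) : ZMod p) * h2 - rowC x * hd
  have hd' : rowD x = 0 := by
    linear_combination ((γ 0 0 : ℤ) : ZMod p) * h2 - ((γ 0 1 : ℤ) : ZMod p) * h1 - rowD x * hd
  cases x <;> simp at hc hd'

/-- The identity acts trivially on the projective line. -/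
@[simp] theorem act_one (x : Option (ZMod p)) : act x 1 = x := by
  simp [act, imgC, imgD, toP1_row]

/-- `act` is a right action of `SL(2, ℤ)`. -/
theorem act_mul (x : Option (ZMod p)) (γ δ : SL(2, ℤ)) : act x (γ * δ) = act (act x γ) δ := by
  obtain ⟨u, hu, hc, hd⟩ := exists_row_toP1 _ _ (img_ne_zero x γ)
  have e00 : (γ * δ) 0 0 = γ 0 0 * δ 0 0 + γ 0 1 * δ 1 0 := by
    simp [Matrix.mul_apply, Fin.sum_univ_two]
  have e01 : (γ * δ) 0 1 = γ 0 0 * δ 0 1 + γ 0 1 * δ 1 1 := by
    simp [Matrix.mul_apply, Fin.sum_univ_two]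
  have e10 : (γ * δ) 1 0 = γ 1 0 * δ 0 0 + γ 1 1 * δ 1 0 := by
    simp [Matrix.mul_apply, Fin.sum_univ_two]
  have e11 : (γ * δ) 1 1 = γ 1 0 * δ 0 1 + γ 1 1 * δ 1 1 := by
    simp [Matrix.mul_apply, Fin.sum_univ_two]
  have h1 : imgC x (γ * δ) = u * imgC (act x γ) δ := by
    rw [imgC, e00, e10, imgC, act, mul_add, ← mul_assoc, ← mul_assoc, ← hc, ← hd, imgC, imgD]
    push_cast; ring
  have h2 : imgD x (γ * δ) = u * imgD (act x γ) δ := by
    rw [imgD, e01, e11, imgD, act, mul_add, ← mul_assoc, ← mul_assoc, ← hc, ← hd, imgC, imgD]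
    push_cast; ring
  rw [act, h1, h2, toP1_smul hu]
  rfl

/-- The permutation of the projective line given by `γ`. -/
def actPerm (γ : SL(2, ℤ)) : Equiv.Perm (Option (ZMod p)) where
  toFun x := act x γ
  invFun x := act x γ⁻¹
  left_inv x := by simp [← act_mul]
  right_inv x := by simp [← act_mul]

/-- `Γ₀(p)` is the stabiliser of `∞`. -/
theorem act_none_eq_none_iff (γ : SL(2, ℤ)) :
    act (none : Option (ZMod p)) γ = none ↔ γ ∈ Gamma0 p := by
  simp only [act, imgC, rowC_none, rowD_none, zero_mul, zero_add, one_mul, toP1, Gamma0_mem]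
  split_ifs with h <;> simp [h]

/-- `R` is permuted by `SL(2, ℤ)` like the projective line. -/
def IsP1Family (k : ℤ) (R : Option (ZMod p) → ℍ → ℂ) : Prop :=
  ∀ (γ : SL(2, ℤ)) (x : Option (ZMod p)), (R x) ∣[k] γ = R (act x γ)

/-- `R` is permuted by `SL(2, ℤ)` in some way. -/
def IsPermutedFamily (k : ℤ) {ι : Type*} (R : ι → ℍ → ℂ) : Prop :=
  ∀ γ : SL(2, ℤ), ∃ σ : Equiv.Perm ι, ∀ i, (R i) ∣[k] γ = R (σ i)

namespace IsP1Family

variable {k : ℤ} {R : Option (ZMod p) → ℍ → ℂ}

theorem permuted (h : IsP1Family k R) : IsPermutedFamily k R :=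
  fun γ => ⟨actPerm γ, fun x => h γ x⟩

/-- The member at `∞` is invariant under `Γ₀(p)`. -/
theorem slash_of_mem (h : IsP1Family k R) {γ : SL(2, ℤ)} (hγ : γ ∈ Gamma0 p) :
    (R none) ∣[k] γ = R none := by
  rw [h γ none, (act_none_eq_none_iff γ).mpr hγ]

/-- A product of families is a family in the sum of the weights. -/
theorem mul (h : IsP1Family k R) {k' : ℤ} {R' : Option (ZMod p) → ℍ → ℂ}
    (h' : IsP1Family k' R') : IsP1Family (k + k') (fun x => R x * R' x) := fun γ x => by
  rw [ModularForm.mul_slash_SL2, h γ x, h' γ x]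

/-- A multiple of a family is a family. -/
theorem smul (h : IsP1Family k R) (c : ℂ) : IsP1Family k (fun x => c • R x) := fun γ x => by
  rw [ModularForm.SL_smul_slash, h γ x]

/-- A sum of families is a family. -/
theorem add (h : IsP1Family k R) {R' : Option (ZMod p) → ℍ → ℂ}
    (h' : IsP1Family k R') : IsP1Family k (fun x => R x + R' x) := fun γ x => by
  rw [SlashAction.add_slash, h γ x, h' γ x]

end IsP1Family

namespace IsPermutedFamily

variable {k : ℤ} {ι : Type*} [Fintype ι] {R : ι → ℍ → ℂ}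

/-- The sum of a permuted family is invariant. -/
theorem sum_slash (h : IsPermutedFamily k R) (γ : SL(2, ℤ)) :
    (∑ i, R i) ∣[k] γ = ∑ i, R i := by
  obtain ⟨σ, hσ⟩ := h γ
  rw [SlashAction.sum_slash, Finset.sum_congr rfl fun i _ => hσ i]
  exact Equiv.sum_comp σ R

/-- The product of a permuted family is invariant in the product weight. -/
theorem prod_slash (h : IsPermutedFamily k R) (γ : SL(2, ℤ)) :
    (∏ i, R i) ∣[k * (Fintype.card ι : ℤ)] γ = ∏ i, R i := by
  obtain ⟨σ, hσ⟩ := h γ
  rw [ModularForm.SL_slash, ← Finset.card_univ, ModularForm.prod_slash]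
  simp only [← ModularForm.SL_slash]
  rw [Finset.prod_congr rfl fun i _ => hσ i, Equiv.prod_comp σ R]
  simp

end IsPermutedFamily

/-- The coset representative attached to a point of the projective line. -/
def delta : Option (ZMod p) → SL(2, ℤ)
  | none => 1
  | some i => ModularGroup.S * ModularGroup.T ^ (i.val : ℤ)

omit [Fact p.Prime] in
@[simp] theorem delta_none : delta (none : Option (ZMod p)) = 1 := rfl

theorem delta_row (x : Option (ZMod p)) :
    ((delta x 1 0 : ℤ) : ZMod p) = rowC x ∧ ((delta x 1 1 : ℤ) : ZMod p) = rowD x := by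
  cases x with
  | none => simp [delta]
  | some i =>
    simp [delta, ModularGroup.coe_S, ModularGroup.coe_T_zpow, Matrix.mul_apply,
      Fin.sum_univ_two]

/-- The coset representatives are permuted modulo `Γ₀(p)` like the projective line. -/
theorem delta_mul_inv_mem (x : Option (ZMod p)) (γ : SL(2, ℤ)) :
    delta x * γ * (delta (act x γ))⁻¹ ∈ Gamma0 p := by
  obtain ⟨u, _, hu1, hu2⟩ := exists_row_toP1 _ _ (img_ne_zero x γ)
  obtain ⟨h1, h2⟩ := delta_row (act x γ)
  obtain ⟨g1, g2⟩ := delta_row x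
  rw [Gamma0_mem]
  simp only [coe_mul, coe_inv, Matrix.adjugate_fin_two, Matrix.mul_apply, Fin.sum_univ_two,
    Matrix.of_apply, Matrix.cons_val_zero, Matrix.cons_val_one, Matrix.cons_val_fin_one,
    Matrix.cons_val', Matrix.empty_val', Int.cast_add, Int.cast_mul, Int.cast_neg]
  rw [g1, g2, h1, h2]
  change imgC x γ = u * rowC (act x γ) at hu1
  change imgD x γ = u * rowD (act x γ) at hu2
  generalize act x γ = y at hu1 hu2 ⊢
  simp only [imgC, imgD] at hu1 hu2
  linear_combination rowD y * hu1 - rowC y * hu2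

/-- The translates of a `Γ₀(p)`-invariant function. -/
def translates (k : ℤ) (F : ℍ → ℂ) (x : Option (ZMod p)) : ℍ → ℂ := F ∣[k] delta x

omit [Fact p.Prime] in
/-- The translate at `∞` is the function itself. -/
@[simp] theorem translates_none (k : ℤ) (F : ℍ → ℂ) :
    translates k F (none : Option (ZMod p)) = F := by
  simp [translates, SlashAction.slash_one]

/-- The translates of an invariant function form a family. -/
theorem isP1Family_translates {k : ℤ} {F : ℍ → ℂ}
    (hF : ∀ γ : SL(2, ℤ), γ ∈ Gamma0 p → F ∣[k] γ = F) :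
    IsP1Family k (translates (p := p) k F) := fun γ x => by
  have h := hF _ (delta_mul_inv_mem x γ)
  simp only [translates]
  rw [← SlashAction.slash_mul]
  conv_lhs => rw [← inv_mul_cancel_right (delta x * γ) (delta (act x γ))]
  rw [SlashAction.slash_mul, h]

/-- Powers of `T` act by translation. -/
theorem slash_T_zpow_apply (k : ℤ) (f : ℍ → ℂ) (j : ℤ) (τ : ℍ) :
    (f ∣[k] (ModularGroup.T ^ j)) τ = f ((j : ℝ) +ᵥ τ) := by
  rw [ModularForm.SL_slash_apply, modular_T_zpow_smul, ModularGroup.denom_apply]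
  simp [ModularGroup.coe_T_zpow]

omit [Fact p.Prime] in
/-- The other translates are translations of the `S`-translate. -/
theorem translates_some_apply (k : ℤ) (F : ℍ → ℂ) (i : ZMod p) (τ : ℍ) :
    translates k F (some i) τ = (F ∣[k] ModularGroup.S) (((i.val : ℤ) : ℝ) +ᵥ τ) := by
  rw [translates, delta, SlashAction.slash_mul, slash_T_zpow_apply]

end Fermat.Agent.Eisenstein
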