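import Fermat.Prelude.Thm_CongruenceSubgroup_one_mem_strictPeriods_Gamma0
import Fermat.Agent.Eisenstein.QSeries
import Fermat.Agent.Eisenstein.P1Family

/-!
# Building modular forms from permuted families of series

A function invariant under `Γ₀(N)`, holomorphic and bounded after every slash is a modular form; in
particular so is the member at `∞` of a permuted family of series, and a level one form of weight
two vanishes.
-/

noncomputable section

open UpperHalfPlane CongruenceSubgroup Matrix.SpecialLinearGroup Function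
open scoped MatrixGroups ModularForm Manifold

namespace Fermat.Agent.Eisenstein

/-- A form for `Γ₀(N)` from an invariant function bounded after every slash. -/
def formOfFun (N : ℕ) [NeZero N] (k : ℤ) (F : ℍ → ℂ)
    (hinv : ∀ γ : SL(2, ℤ), γ ∈ Gamma0 N → F ∣[k] γ = F)
    (hholo : MDifferentiable 𝓘(ℂ) 𝓘(ℂ) F)
    (hbdd : ∀ γ : SL(2, ℤ), IsBoundedAtImInfty (F ∣[k] γ)) :
    ModularForm (Gamma0 N) k where
  toFun := F
  slash_action_eq' g hg := by
    obtain ⟨γ, hγ, rfl⟩ := Subgroup.mem_map.mp hg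
    exact hinv γ hγ
  holo' := hholo
  bdd_at_cusps' {c} hc := by
    rw [Subgroup.IsArithmetic.isCusp_iff_isCusp_SL2Z] at hc
    rw [OnePoint.isBoundedAt_iff_forall_SL2Z hc]
    exact fun γ _ => hbdd γ

@[simp] theorem coe_formOfFun (N : ℕ) [NeZero N] (k : ℤ) (F : ℍ → ℂ) h1 h2 h3 :
    ⇑(formOfFun N k F h1 h2 h3) = F := rfl

/-- A cusp form for `Γ₀(N)` from a form vanishing after every slash. -/
def cuspOfForm (N : ℕ) [NeZero N] {k : ℤ} (F : ModularForm (Gamma0 N) k)
    (hzero : ∀ γ : SL(2, ℤ), IsZeroAtImInfty (⇑F ∣[k] γ)) :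
    CuspForm (Gamma0 N) k where
  toFun := ⇑F
  slash_action_eq' g hg := SlashInvariantFormClass.slash_action_eq F g hg
  holo' := ModularFormClass.holo F
  zero_at_cusps' {c} hc := by
    rw [Subgroup.IsArithmetic.isCusp_iff_isCusp_SL2Z] at hc
    rw [OnePoint.isZeroAt_iff_forall_SL2Z hc]
    exact fun γ _ => hzero γ

@[simp] theorem coe_cuspOfForm (N : ℕ) [NeZero N] {k : ℤ} (F : ModularForm (Gamma0 N) k) h :
    ⇑(cuspOfForm N F h) = ⇑F := rfl

/-- A form of level `N` is invariant under `Γ₀(N)`. -/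
theorem slash_eq_of_mem {N : ℕ} {k : ℤ} (F : ModularForm (Gamma0 N) k)
    {γ : SL(2, ℤ)} (hγ : γ ∈ Gamma0 N) : ⇑F ∣[k] γ = ⇑F :=
  SlashInvariantFormClass.slash_action_eq F _ (Subgroup.mem_map_of_mem _ hγ)

/-- A form of level `N` has its `q`-expansion in width one. -/
theorem hasQ_qExpansion_Gamma0 {N : ℕ} [NeZero N] {k : ℤ} (F : ModularForm (Gamma0 N) k) :
    HasQ 1 (⇑F) (qExpansion 1 (⇑F)) := fun τ => by
  have h1 := one_mem_strictPeriods_Gamma0 N
  have : Fact (IsCusp OnePoint.infty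
      (Subgroup.map (Matrix.SpecialLinearGroup.mapGL ℝ) (Gamma0 N))) :=
    ⟨Subgroup.isCusp_of_mem_strictPeriods one_pos h1⟩
  simpa using ModularForm.hasSum_qExpansion F one_pos h1 τ

theorem hasQ_qExpansion_one {k : ℤ} (F : ModularForm 𝒮ℒ k) :
    HasQ 1 (⇑F) (qExpansion 1 (⇑F)) := fun τ => by
  simpa using ModularForm.hasSum_qExpansion F one_pos one_mem_strictPeriods_SL τ

/-- A level one form from an invariant series. -/
def levelOneForm (k : ℤ) (F : ℍ → ℂ) (hinv : ∀ γ : SL(2, ℤ), F ∣[k] γ = F)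
    {L : ℕ} [NeZero L] {P : PowerSeries ℂ} (hq : HasQ L F P) : ModularForm 𝒮ℒ k where
  toFun := F
  slash_action_eq' g hg := by
    obtain ⟨γ, rfl⟩ := hg
    exact hinv γ
  holo' := hq.mdifferentiable
  bdd_at_cusps' {c} hc := by
    rw [OnePoint.isBoundedAt_iff_forall_SL2Z hc]
    intro γ _
    rw [hinv γ]
    exact hq.isBoundedAtImInfty

@[simp] theorem coe_levelOneForm (k : ℤ) (F : ℍ → ℂ) (hinv) {L : ℕ} [NeZero L]
    {P : PowerSeries ℂ} (hq : HasQ L F P) : ⇑(levelOneForm k F hinv hq) = F := rfl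

/-- A series in `exp (2 π i τ / L)` of a level one form is a series in `q`. -/
theorem expand_qExpansion_levelOneForm (k : ℤ) (F : ℍ → ℂ) (hinv) {L : ℕ} [NeZero L]
    {P : PowerSeries ℂ} (hq : HasQ L F P) :
    P = PowerSeries.expand L (NeZero.ne L) (qExpansion 1 (⇑(levelOneForm k F hinv hq))) := by
  have h := (hasQ_qExpansion_one (levelOneForm k F hinv hq)).scale (NeZero.ne L)
  rw [one_mul] at h
  exact hq.unique h

/-- A level one form of weight two vanishes. -/
theorem levelOne_weight_two_eq_zero (F : ℍ → ℂ) (hinv : ∀ γ : SL(2, ℤ), F ∣[(2 : ℤ)] γ = F)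
    {L : ℕ} [NeZero L] {P : PowerSeries ℂ} (hq : HasQ L F P) : F = 0 := by
  have := rank_zero_iff_forall_zero.mp ModularForm.levelOne_weight_two_rank_zero
    (levelOneForm 2 F hinv hq)
  exact congrArg (fun G : ModularForm 𝒮ℒ 2 => ⇑G) this

section Family

variable {p : ℕ} [Fact p.Prime] {k : ℤ} {R : Option (ZMod p) → ℍ → ℂ}

/-- The `Γ₀(p)` form at the point `∞` of a family given by series. -/
def formOfFamily (hR : IsP1Family k R) {L : ℕ} [NeZero L] {P : Option (ZMod p) → PowerSeries ℂ}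
    (hq : ∀ x, HasQ L (R x) (P x)) : ModularForm (Gamma0 p) k :=
  haveI : NeZero p := ⟨(Fact.out : p.Prime).ne_zero⟩
  formOfFun p k (R none) (fun _ hγ => hR.slash_of_mem hγ) (hq none).mdifferentiable
    (fun γ => by rw [hR γ none]; exact (hq _).isBoundedAtImInfty)

@[simp] theorem coe_formOfFamily (hR : IsP1Family k R) {L : ℕ} [NeZero L]
    {P : Option (ZMod p) → PowerSeries ℂ} (hq : ∀ x, HasQ L (R x) (P x)) :
    ⇑(formOfFamily hR hq) = R none := rfl

end Family

end Fermat.Agent.Eisenstein
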