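import Mathlib.NumberTheory.ModularForms.JacobiTheta.TwoVariable

/-!
# One- and four-variable Gaussian sums and their inversion formula

Poisson summation for `∑ exp (2 π i α k) exp (2 π i w k² τ)` and its product over four variables
with diagonal weights.
-/

noncomputable section

open Complex
open scoped Real

namespace Fermat.Agent.Eisenstein

/-- The Gaussian `exp (2 π i w k² τ)`. -/
def gauss1 (w : ℝ) (τ : ℂ) (k : ℂ) : ℂ := cexp (2 * π * I * τ * (w * k ^ 2))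

/-- The Gaussian sum converges absolutely. -/
theorem summable_norm_gauss1 {w : ℝ} (hw : 0 < w) {τ : ℂ} (hτ : 0 < τ.im) :
    Summable fun k : ℤ => ‖gauss1 w τ (k : ℂ)‖ := by
  have him : 0 < (((2 * w : ℝ) : ℂ) * τ).im := by
    rw [Complex.im_ofReal_mul]; positivity
  refine ((summable_jacobiTheta₂_term_iff 0 (((2 * w : ℝ) : ℂ) * τ)).mpr him).norm.congr fun k => ?_
  rw [jacobiTheta₂_term, gauss1]
  congr 2
  push_cast
  ring

/-- A phase does not change the norm of a Gaussian term. -/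
theorem norm_twist_gauss1 (w α : ℝ) (τ : ℂ) (k : ℤ) :
    ‖cexp (2 * π * I * α * k) * gauss1 w τ (k : ℂ)‖ = ‖gauss1 w τ (k : ℂ)‖ := by
  rw [norm_mul, show (2 * π * I * α * k : ℂ) = ((2 * π * α * k : ℝ) : ℂ) * I by push_cast; ring,
    Complex.norm_exp_ofReal_mul_I, one_mul]

/-- `τ ↦ -1 / τ` preserves the upper half plane. -/
theorem neg_inv_im_pos {τ : ℂ} (hτ : 0 < τ.im) : 0 < (-1 / τ).im := by
  rw [neg_div, neg_im, one_div, inv_im, neg_div, neg_neg]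
  exact div_pos hτ (normSq_pos.mpr fun h => by simp [h] at hτ)

/-- The shifted sum on the dual side. -/
def dualSum (w α : ℝ) (τ : ℂ) : ℂ := ∑' n : ℤ, gauss1 (1 / (4 * w)) τ ((n : ℂ) - α)

/-- The prefactor of the inversion formula. -/
def invFactor (w : ℝ) (τ : ℂ) : ℂ := ((Real.sqrt (2 * w) : ℂ) * (I / τ) ^ (1 / 2 : ℂ))⁻¹

/-- The dual Gaussian sum converges absolutely. -/
theorem summable_dual {w : ℝ} (hw : 0 < w) (α : ℝ) {τ : ℂ} (hτ : 0 < τ.im) :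
    Summable fun n : ℤ => ‖gauss1 (1 / (4 * w)) τ ((n : ℂ) - α)‖ := by
  set T : ℂ := ((1 / (2 * w) : ℝ) : ℂ) * τ with hT
  have him : 0 < T.im := by rw [hT, Complex.im_ofReal_mul]; positivity
  have h := ((summable_jacobiTheta₂_term_iff (-(α : ℂ) * T) T).mpr him).norm.mul_right
    ‖cexp (π * I * (α : ℂ) ^ 2 * T)‖
  refine h.congr fun n => ?_
  rw [← norm_mul, jacobiTheta₂_term, gauss1, ← Complex.exp_add, hT]
  congr 2
  have hw' : (w : ℂ) ≠ 0 := by exact_mod_cast hw.ne'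
  push_cast
  field_simp
  ring

/-- The inversion formula in one variable. -/
theorem hasSum_gauss1_inversion {w : ℝ} (hw : 0 < w) (α : ℝ) {τ : ℂ} (hτ : 0 < τ.im) :
    HasSum (fun k : ℤ => cexp (2 * π * I * α * k) * gauss1 w (-1 / τ) (k : ℂ))
      (invFactor w τ * dualSum w α τ) := by
  have hτ0 : τ ≠ 0 := fun h => by simp [h] at hτ
  have hw' : (w : ℂ) ≠ 0 := by exact_mod_cast hw.ne'
  set T : ℂ := ((2 * w : ℝ) : ℂ) * (-1 / τ) with hT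
  have him : 0 < T.im := by
    rw [hT, Complex.im_ofReal_mul]
    exact mul_pos (by positivity) (neg_inv_im_pos hτ)
  have h := hasSum_jacobiTheta₂_term (α : ℂ) him
  convert h using 1
  · funext k
    rw [jacobiTheta₂_term, gauss1, ← Complex.exp_add, hT]
    congr 1
    push_cast
    ring
  have hT0 : T ≠ 0 := fun h0 => by simp [h0] at him
  have hpre : invFactor w τ = 1 / (-I * T) ^ (1 / 2 : ℂ) := by
    have hz : I / τ ≠ 0 := div_ne_zero I_ne_zero hτ0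
    have e : -I * T = ((2 * w : ℝ) : ℂ) * (I / τ) := by rw [hT]; ring
    have hpos : (0 : ℝ) < 2 * w := by positivity
    have hne : ((2 * w : ℝ) : ℂ) ≠ 0 := by exact_mod_cast hpos.ne'
    rw [invFactor, e, Complex.cpow_def_of_ne_zero (mul_ne_zero hne hz),
      Complex.log_ofReal_mul hpos hz, add_mul, Complex.exp_add,
      ← Complex.cpow_def_of_ne_zero hz, Real.sqrt_eq_rpow, Complex.ofReal_cpow hpos.le,
      Complex.cpow_def_of_ne_zero hne, Complex.ofReal_log hpos.le, one_div]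
    push_cast
    norm_num
  rw [jacobiTheta₂_functional_equation (α : ℂ) T, ← hpre, mul_assoc]
  congr 1
  rw [dualSum, jacobiTheta₂, ← tsum_mul_left]
  congr 1
  funext n
  rw [jacobiTheta₂_term, gauss1, ← Complex.exp_add]
  congr 1
  rw [hT]
  push_cast
  field_simp
  ring

/-- Quadruples of integers. -/
abbrev V4 : Type := ℤ × ℤ × ℤ × ℤ

theorem summable_norm_mul4 {f0 f1 f2 f3 : ℤ → ℂ} (h0 : Summable fun k => ‖f0 k‖)
    (h1 : Summable fun k => ‖f1 k‖) (h2 : Summable fun k => ‖f2 k‖)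
    (h3 : Summable fun k => ‖f3 k‖) :
    Summable fun k : V4 => ‖f0 k.1 * (f1 k.2.1 * (f2 k.2.2.1 * f3 k.2.2.2))‖ :=
  Summable.mul_norm (f := f0) (g := fun k : ℤ × ℤ × ℤ => f1 k.1 * (f2 k.2.1 * f3 k.2.2)) h0
    (Summable.mul_norm (f := f1) (g := fun k : ℤ × ℤ => f2 k.1 * f3 k.2) h1
      (Summable.mul_norm (f := f2) (g := f3) h2 h3))

theorem tsum_mul4 {f0 f1 f2 f3 : ℤ → ℂ} (h0 : Summable fun k => ‖f0 k‖)
    (h1 : Summable fun k => ‖f1 k‖) (h2 : Summable fun k => ‖f2 k‖)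
    (h3 : Summable fun k => ‖f3 k‖) :
    ∑' k : V4, f0 k.1 * (f1 k.2.1 * (f2 k.2.2.1 * f3 k.2.2.2)) =
      (∑' k, f0 k) * ((∑' k, f1 k) * ((∑' k, f2 k) * ∑' k, f3 k)) := by
  rw [tsum_mul_tsum_of_summable_norm h2 h3,
    tsum_mul_tsum_of_summable_norm h1 (Summable.mul_norm h2 h3),
    tsum_mul_tsum_of_summable_norm h0
      (Summable.mul_norm (f := f1) (g := fun k : ℤ × ℤ => f2 k.1 * f3 k.2) h1
        (Summable.mul_norm h2 h3))]

/-- The four-variable Gaussian with diagonal weights. -/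
def gauss4 (w : ℝ × ℝ × ℝ × ℝ) (τ : ℂ) (k : ℂ × ℂ × ℂ × ℂ) : ℂ :=
  gauss1 w.1 τ k.1 *
    (gauss1 w.2.1 τ k.2.1 * (gauss1 w.2.2.1 τ k.2.2.1 * gauss1 w.2.2.2 τ k.2.2.2))

/-- The twist by a linear character. -/
def phase4 (α : ℝ × ℝ × ℝ × ℝ) (k : V4) : ℂ :=
  cexp (2 * π * I * (α.1 * k.1 + α.2.1 * k.2.1 + α.2.2.1 * k.2.2.1 + α.2.2.2 * k.2.2.2))

/-- Embedding of integer quadruples. -/
def castV4 (k : V4) : ℂ × ℂ × ℂ × ℂ := ((k.1 : ℂ), (k.2.1 : ℂ), (k.2.2.1 : ℂ), (k.2.2.2 : ℂ))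

/-- Shift of an integer quadruple. -/
def shiftV4 (α : ℝ × ℝ × ℝ × ℝ) (k : V4) : ℂ × ℂ × ℂ × ℂ :=
  ((k.1 : ℂ) - α.1, (k.2.1 : ℂ) - α.2.1, (k.2.2.1 : ℂ) - α.2.2.1, (k.2.2.2 : ℂ) - α.2.2.2)

/-- The dual weights. -/
def dualWeight (w : ℝ × ℝ × ℝ × ℝ) : ℝ × ℝ × ℝ × ℝ :=
  (1 / (4 * w.1), 1 / (4 * w.2.1), 1 / (4 * w.2.2.1), 1 / (4 * w.2.2.2))

/-- Positivity of weights. -/
def PosWeight (w : ℝ × ℝ × ℝ × ℝ) : Prop :=
  0 < w.1 ∧ 0 < w.2.1 ∧ 0 < w.2.2.1 ∧ 0 < w.2.2.2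

/-- The quaternary Gaussian sum converges absolutely. -/
theorem summable_norm_gauss4 {w : ℝ × ℝ × ℝ × ℝ} (hw : PosWeight w) {τ : ℂ} (hτ : 0 < τ.im) :
    Summable fun k : V4 => ‖gauss4 w τ (castV4 k)‖ :=
  summable_norm_mul4 (f0 := fun k => gauss1 w.1 τ (k : ℂ)) (f1 := fun k => gauss1 w.2.1 τ (k : ℂ))
    (f2 := fun k => gauss1 w.2.2.1 τ (k : ℂ)) (f3 := fun k => gauss1 w.2.2.2 τ (k : ℂ))
    (summable_norm_gauss1 hw.1 hτ) (summable_norm_gauss1 hw.2.1 hτ)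
    (summable_norm_gauss1 hw.2.2.1 hτ) (summable_norm_gauss1 hw.2.2.2 hτ)

/-- The twisted quaternary Gaussian sum converges absolutely. -/
theorem summable_norm_phase_gauss4 {w : ℝ × ℝ × ℝ × ℝ} (hw : PosWeight w)
    (α : ℝ × ℝ × ℝ × ℝ) {τ : ℂ} (hτ : 0 < τ.im) :
    Summable fun k : V4 => ‖phase4 α k * gauss4 w τ (castV4 k)‖ := by
  refine (summable_norm_gauss4 hw hτ).congr fun k => ?_
  rw [norm_mul (phase4 α k), phase4, show (2 * π * I * (α.1 * k.1 + α.2.1 * k.2.1 +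
      α.2.2.1 * k.2.2.1 + α.2.2.2 * k.2.2.2) : ℂ) = ((2 * π * (α.1 * k.1 + α.2.1 * k.2.1 +
      α.2.2.1 * k.2.2.1 + α.2.2.2 * k.2.2.2) : ℝ) : ℂ) * I by push_cast; ring,
    Complex.norm_exp_ofReal_mul_I, one_mul]

/-- The product of the four prefactors is rational in `τ` for weights of square determinant. -/
theorem invFactor4 {w : ℝ × ℝ × ℝ × ℝ} (hw : PosWeight w) {c : ℝ} (hc : 0 < c)
    (h : 16 * (w.1 * w.2.1 * w.2.2.1 * w.2.2.2) = 1 / c ^ 2) {τ : ℂ} (hτ : τ ≠ 0) :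
    invFactor w.1 τ * (invFactor w.2.1 τ * (invFactor w.2.2.1 τ * invFactor w.2.2.2 τ)) =
      -((c : ℂ) * τ ^ 2) := by
  have hz : I / τ ≠ 0 := div_ne_zero I_ne_zero hτ
  obtain ⟨h0, h1, h2, h3⟩ := hw
  have hs : Real.sqrt (2 * w.1) * (Real.sqrt (2 * w.2.1) *
      (Real.sqrt (2 * w.2.2.1) * Real.sqrt (2 * w.2.2.2))) = 1 / c := by
    rw [← Real.sqrt_mul (by positivity), ← Real.sqrt_mul (by positivity),
      ← Real.sqrt_mul (by positivity),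
      show 2 * w.1 * (2 * w.2.1 * (2 * w.2.2.1 * (2 * w.2.2.2))) = (1 / c) ^ 2 by
        rw [div_pow, one_pow, ← h]; ring,
      Real.sqrt_sq (by positivity)]
  have hsC : (Real.sqrt (2 * w.1) : ℂ) * ((Real.sqrt (2 * w.2.1) : ℂ) *
      ((Real.sqrt (2 * w.2.2.1) : ℂ) * (Real.sqrt (2 * w.2.2.2) : ℂ))) = 1 / (c : ℂ) := by
    exact_mod_cast congrArg (fun x : ℝ => (x : ℂ)) hs
  set s : ℂ := (I / τ) ^ (1 / 2 : ℂ) with hsdef
  have hs2 : s ^ 2 = I / τ := by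
    rw [hsdef, ← Complex.cpow_nat_mul]
    norm_num
  simp only [invFactor, ← hsdef, ← mul_inv]
  rw [show (Real.sqrt (2 * w.1) : ℂ) * s * ((Real.sqrt (2 * w.2.1) : ℂ) * s *
      ((Real.sqrt (2 * w.2.2.1) : ℂ) * s * ((Real.sqrt (2 * w.2.2.2) : ℂ) * s))) =
      ((Real.sqrt (2 * w.1) : ℂ) * ((Real.sqrt (2 * w.2.1) : ℂ) *
      ((Real.sqrt (2 * w.2.2.1) : ℂ) * (Real.sqrt (2 * w.2.2.2) : ℂ)))) * (s ^ 2) ^ 2 by ring,
    hsC, hs2, div_pow, Complex.I_sq]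
  have hc' : (c : ℂ) ≠ 0 := by exact_mod_cast hc.ne'
  field_simp

/-- The inversion formula in four variables. -/
theorem tsum_gauss4_inversion {w : ℝ × ℝ × ℝ × ℝ} (hw : PosWeight w) {c : ℝ} (hc : 0 < c)
    (h : 16 * (w.1 * w.2.1 * w.2.2.1 * w.2.2.2) = 1 / c ^ 2) (α : ℝ × ℝ × ℝ × ℝ) {τ : ℂ}
    (hτ : 0 < τ.im) :
    ∑' k : V4, phase4 α k * gauss4 w (-1 / τ) (castV4 k) =
      -((c : ℂ) * τ ^ 2) * ∑' n : V4, gauss4 (dualWeight w) τ (shiftV4 α n) := by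
  have hτ0 : τ ≠ 0 := fun h0 => by simp [h0] at hτ
  have hσ := neg_inv_im_pos hτ
  have hterm : ∀ k : V4, phase4 α k * gauss4 w (-1 / τ) (castV4 k) =
      (cexp (2 * π * I * α.1 * k.1) * gauss1 w.1 (-1 / τ) k.1) *
      ((cexp (2 * π * I * α.2.1 * k.2.1) * gauss1 w.2.1 (-1 / τ) k.2.1) *
      ((cexp (2 * π * I * α.2.2.1 * k.2.2.1) * gauss1 w.2.2.1 (-1 / τ) k.2.2.1) *
      (cexp (2 * π * I * α.2.2.2 * k.2.2.2) * gauss1 w.2.2.2 (-1 / τ) k.2.2.2))) := by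
    intro k
    simp only [phase4, gauss4, castV4]
    rw [mul_add (2 * π * I : ℂ), mul_add (2 * π * I : ℂ), mul_add (2 * π * I : ℂ), Complex.exp_add,
      Complex.exp_add, Complex.exp_add]
    ring_nf
  have hnorm : ∀ {v : ℝ}, 0 < v → ∀ β : ℝ,
      Summable fun k : ℤ => ‖cexp (2 * π * I * β * k) * gauss1 v (-1 / τ) (k : ℂ)‖ :=
    fun {v} hv β => by simp only [norm_twist_gauss1]; exact summable_norm_gauss1 hv hσ
  rw [tsum_congr hterm, tsum_mul4 (hnorm hw.1 α.1) (hnorm hw.2.1 α.2.1) (hnorm hw.2.2.1 α.2.2.1)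
      (hnorm hw.2.2.2 α.2.2.2), (hasSum_gauss1_inversion hw.1 α.1 hτ).tsum_eq,
    (hasSum_gauss1_inversion hw.2.1 α.2.1 hτ).tsum_eq,
    (hasSum_gauss1_inversion hw.2.2.1 α.2.2.1 hτ).tsum_eq,
    (hasSum_gauss1_inversion hw.2.2.2 α.2.2.2 hτ).tsum_eq, ← invFactor4 hw hc h hτ0]
  simp only [gauss4, dualWeight, shiftV4]
  rw [tsum_mul4 (summable_dual hw.1 α.1 hτ) (summable_dual hw.2.1 α.2.1 hτ)
      (summable_dual hw.2.2.1 α.2.2.1 hτ) (summable_dual hw.2.2.2 α.2.2.2 hτ)]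
  simp only [dualSum]
  ring

end Fermat.Agent.Eisenstein
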