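import Fermat.Prelude.Def_CuspForm_HeckeLocal
import Fermat.Prelude.Def_CuspForm_HeckeEvalForms
import Fermat.Prelude.Def_HeckeGalois_EichlerShimura
import Fermat.Agent.HeckeLift.Basic
import Fermat.Agent.Eisenstein.EisensteinP

/-!
# The Eisenstein quotient of the Hecke algebra and congruences with Eisenstein series

The quotient of the Hecke algebra by the Eisenstein ideal is cyclic; its order is governed by the
integral cusp forms congruent to the Eisenstein series.
-/

noncomputable section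

open CuspForm ModularCurve CongruenceSubgroup ModularFormClass

namespace Fermat.Agent.Eisenstein

variable (p : ℕ) [Fact p.Prime]

/-- The map from the formal Hecke algebra to the lattice Hecke algebra. -/
def heckePsi : HeckeAlg →+* ↥(heckeLatticeAlgebra p ∅) :=
  (latticeRestrictHom p ∅).toRingHom.comp (heckeEvalForms p 2)

/-- The Eisenstein eigencharacter. -/
def eisEps : HeckeAlg →ₐ[ℤ] ℤ := MvPolynomial.aeval (eisensteinSystem p)

/-- The image of the Eisenstein ideal. -/
def eisIdeal : Ideal ↥(heckeLatticeAlgebra p ∅) := Ideal.map (heckePsi p) (eisensteinIdeal p)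

/-- The Eisenstein eigenvalue at a prime `l`. -/
theorem eisensteinSystem_eq (l : Nat.Primes) :
    eisensteinSystem p l = 1 + divWeight p l := by
  by_cases h : (l : ℕ) ∣ p
  · have hl : (l : ℕ) = p := (Nat.prime_dvd_prime_iff_eq l.2 Fact.out).mp h
    simp [divWeight, hl]
  · have hl : ¬ p ∣ (l : ℕ) := fun h' =>
      h (((Nat.prime_dvd_prime_iff_eq Fact.out l.2).mp h') ▸ dvd_rfl)
    simp [eisensteinSystem_of_not_dvd h, divWeight, hl]

/-- Divisibility transfers along an equality. -/
theorem dvd_of_dvd_of_eq {N a b : ℤ} (h : N ∣ a) (e : b = a) : N ∣ b := e ▸ h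

theorem eisEps_X (l : Nat.Primes) : eisEps p (MvPolynomial.X l) = 1 + divWeight p l := by
  rw [eisEps, MvPolynomial.aeval_X, eisensteinSystem_eq]

/-- The Hecke algebra on forms is the image of the formal one. -/
theorem heckeEvalForms_surjective : Function.Surjective (heckeEvalForms p (2 : ℤ)) := by
  have hle : heckeAlgebra p 2 ∅ ≤
      (((heckeAlgebra p 2 ∅).val).comp (MvPolynomial.aeval (heckeFormsGen p 2))).range := by
    refine Algebra.adjoin_le ?_
    rintro T (⟨l, hl, hlN, -, rfl⟩ | ⟨q, hqN, hq, -, rfl⟩)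
    · exact ⟨MvPolynomial.X ⟨l, hl⟩, congrArg Subtype.val
        (heckeEvalForms_heckeGen_of_not_dvd (N := p) (k := 2) (ℓ := (⟨l, hl⟩ : Nat.Primes)) hlN)⟩
    · exact ⟨MvPolynomial.X ⟨q, hq⟩, congrArg Subtype.val
        (heckeEvalForms_heckeGen_of_dvd (N := p) (k := 2) (q := (⟨q, hq⟩ : Nat.Primes)) hqN)⟩
  rintro ⟨t, ht⟩
  obtain ⟨P, hP⟩ := hle ht
  exact ⟨P, Subtype.ext hP⟩

/-- The lattice Hecke algebra is the image of the formal one. -/
theorem heckePsi_surjective : Function.Surjective (heckePsi p) :=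
  (latticeRestrictHom_surjective p ∅).comp (heckeEvalForms_surjective p)

omit [Fact p.Prime] in
theorem sub_C_mem_eisensteinIdeal (P : HeckeAlg) :
    P - MvPolynomial.C (eisEps p P) ∈ eisensteinIdeal p := by
  rw [eisensteinIdeal, mem_eigenIdeal_iff, map_sub, MvPolynomial.aeval_C]
  simp [eisEps]

theorem heckePsi_C (a : ℤ) :
    heckePsi p (MvPolynomial.C a) = (a : ↥(heckeLatticeAlgebra p ∅)) := by
  rw [← eq_intCast ((heckePsi p).comp MvPolynomial.C) a, RingHom.comp_apply]

/-- Modulo the Eisenstein ideal every operator is its Eisenstein eigenvalue. -/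
theorem mk_heckePsi (P : HeckeAlg) :
    Ideal.Quotient.mk (eisIdeal p) (heckePsi p P) =
      Ideal.Quotient.mk (eisIdeal p) ((eisEps p P : ℤ) : ↥(heckeLatticeAlgebra p ∅)) := by
  rw [Ideal.Quotient.eq, ← heckePsi_C, ← map_sub]
  exact Ideal.mem_map_of_mem (heckePsi p) (sub_C_mem_eisensteinIdeal p P)

/-- The integral coefficient of a lattice form. -/
def intCoeff (f : ↥(intLattice p 2)) (n : ℕ) : ℤ :=
  (HeckeLift.exists_int_qCoeff_of_mem_intLattice f.2 n).choose

omit [Fact p.Prime] in
/-- The complex coefficient is the image of the integral one. -/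
theorem qCoeff_eq_intCoeff (f : ↥(intLattice p 2)) (n : ℕ) :
    qCoeff (⇑(f : CuspForm (Gamma0 p) 2)) n = (intCoeff p f n : ℂ) :=
  (HeckeLift.exists_int_qCoeff_of_mem_intLattice f.2 n).choose_spec

omit [Fact p.Prime] in
/-- An integral coefficient is determined by the complex one. -/
theorem intCoeff_eq_iff (f : ↥(intLattice p 2)) (n : ℕ) (z : ℤ) :
    intCoeff p f n = z ↔ qCoeff (⇑(f : CuspForm (Gamma0 p) 2)) n = (z : ℂ) := by
  rw [qCoeff_eq_intCoeff, Int.cast_inj]

omit [Fact p.Prime] in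
theorem intCoeff_add (f g : ↥(intLattice p 2)) (n : ℕ) :
    intCoeff p (f + g) n = intCoeff p f n + intCoeff p g n := by
  rw [intCoeff_eq_iff, Submodule.coe_add, HeckeLift.qCoeff_add, qCoeff_eq_intCoeff,
    qCoeff_eq_intCoeff, Int.cast_add]

/-- The coefficient as a linear map. -/
def coeffLin (n : ℕ) : ↥(intLattice p 2) →ₗ[ℤ] ℤ :=
  (AddMonoidHom.mk' (fun f => intCoeff p f n) fun f g => intCoeff_add p f g n).toIntLinearMap

omit [Fact p.Prime] in
/-- The value of `coeffLin` is the integral coefficient. -/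
@[simp] theorem coeffLin_apply (n : ℕ) (f : ↥(intLattice p 2)) :
    coeffLin p n f = intCoeff p f n := rfl

/-- The action of the formal Hecke algebra on the lattice. -/
def actL (P : HeckeAlg) : Module.End ℤ ↥(intLattice p 2) :=
  ((heckePsi p P : ↥(heckeLatticeAlgebra p ∅)) : Module.End ℤ ↥(intLattice p 2))

theorem actL_add (P Q : HeckeAlg) : actL p (P + Q) = actL p P + actL p Q := by
  simp [actL, map_add]

/-- The action on the lattice is multiplicative. -/
theorem actL_mul (P Q : HeckeAlg) : actL p (P * Q) = actL p P * actL p Q := by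
  simp [actL, map_mul]

theorem actL_C (a : ℤ) (f : ↥(intLattice p 2)) : actL p (MvPolynomial.C a) f = a • f := by
  rw [← MvPolynomial.algebraMap_eq, actL, eq_intCast (algebraMap ℤ HeckeAlg), map_intCast]
  simp

theorem coe_actL_X (l : Nat.Primes) (f : ↥(intLattice p 2)) :
    ((actL p (MvPolynomial.X l) f : ↥(intLattice p 2)) : CuspForm (Gamma0 p) 2) =
      (heckeFormsGen p 2 l : Module.End ℂ (CuspForm (Gamma0 p) 2)) (f : CuspForm (Gamma0 p) 2) := by
  rw [← heckeEvalForms_heckeGen]
  rfl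

/-- The coefficient recursion of `T_l` and `U_p` on the lattice. -/
theorem intCoeff_actL_X (l : Nat.Primes) (f : ↥(intLattice p 2)) (n : ℕ) :
    intCoeff p (actL p (MvPolynomial.X l) f) n =
      intCoeff p f (n * l) + if (l : ℕ) ∣ n then divWeight p l * intCoeff p f (n / l) else 0 := by
  rw [intCoeff_eq_iff, coe_actL_X]
  by_cases h : (l : ℕ) ∣ p
  · have hl : (l : ℕ) = p := (Nat.prime_dvd_prime_iff_eq l.2 Fact.out).mp h
    have hw : divWeight p l = 0 := by simp [divWeight, hl]
    rw [heckeFormsGen_of_dvd h, heckeAlgebra.coe_U,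
      HeckeLift.qCoeff_heckeULin l.2 h, qCoeff_eq_intCoeff]
    simp [hw]
  · have hl : ¬ p ∣ (l : ℕ) := fun h' =>
      h (((Nat.prime_dvd_prime_iff_eq Fact.out l.2).mp h') ▸ dvd_rfl)
    rw [heckeFormsGen_of_not_dvd h, heckeAlgebra.coe_T,
      HeckeLift.qCoeff_heckeTLin l.2 h, qCoeff_eq_intCoeff, qCoeff_eq_intCoeff]
    split_ifs <;> simp [divWeight, hl]

/-- Every coefficient is the first coefficient after a Hecke operator. -/
theorem exists_heckeIndex (n : ℕ) (hn : n ≠ 0) : ∃ P : HeckeAlg,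
    (∀ f, intCoeff p (actL p P f) 1 = intCoeff p f n) ∧ eisEps p P = sigmaP p n := by
  induction n using Nat.strong_induction_on with | _ n ih =>
  by_cases h1 : n = 1
  · subst h1
    refine ⟨1, fun f => ?_, by rw [map_one, sigmaP_one Fact.out]⟩
    simp [actL]
  obtain ⟨l, hl, r, rfl⟩ : ∃ l, l.Prime ∧ ∃ r, n = r * l :=
    ⟨n.minFac, Nat.minFac_prime h1, n / n.minFac, (Nat.div_mul_cancel n.minFac_dvd).symm⟩
  have hr : r ≠ 0 := left_ne_zero_of_mul hn
  have hlt : r < r * l := lt_mul_of_one_lt_right (Nat.pos_of_ne_zero hr) hl.one_lt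
  obtain ⟨P1, hP1, hE1⟩ := ih r hlt hr
  obtain ⟨G, hG, hGE⟩ : ∃ G : HeckeAlg, (∀ f m, intCoeff p (actL p G f) m =
      intCoeff p f (m * l) + if l ∣ m then divWeight p l * intCoeff p f (m / l) else 0) ∧
      eisEps p G = 1 + divWeight p l :=
    ⟨heckeGen ⟨l, hl⟩, fun f m => intCoeff_actL_X p ⟨l, hl⟩ f m, eisEps_X p ⟨l, hl⟩⟩
  have hs := sigmaP_mul_prime (p := p) Fact.out hl hr
  by_cases hd : l ∣ r
  · have hr' : r / l ≠ 0 := Nat.div_ne_zero_iff.mpr
      ⟨hl.ne_zero, Nat.le_of_dvd (Nat.pos_of_ne_zero hr) hd⟩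
    obtain ⟨P2, hP2, hE2⟩ := ih (r / l) ((Nat.div_le_self r l).trans_lt hlt) hr'
    refine ⟨P1 * G + MvPolynomial.C (-divWeight p l) * P2, fun f => ?_, ?_⟩
    · rw [actL_add, actL_mul, actL_mul, LinearMap.add_apply, Module.End.mul_apply,
        Module.End.mul_apply, actL_C, intCoeff_add, hP1, hG, if_pos hd,
        show intCoeff p (-divWeight p l • actL p P2 f) 1 = -divWeight p l * intCoeff p f (r / l)
          from by rw [← coeffLin_apply, map_smul, coeffLin_apply, hP2, smul_eq_mul]]
      ring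
    · rw [map_add, map_mul, map_mul, hE1, hE2, hGE, eisEps, MvPolynomial.aeval_C]
      simp only [algebraMap_int_eq, eq_intCast, Int.cast_id]
      rw [if_pos hd] at hs
      linear_combination -hs
  · refine ⟨P1 * G, fun f => ?_, ?_⟩
    · rw [actL_mul, Module.End.mul_apply, hP1, hG, if_neg hd, add_zero]
    · rw [map_mul, hE1, hGE]
      rw [if_neg hd, add_zero] at hs
      rw [hs, mul_comm]

/-- Congruences with the Eisenstein series propagate along the Hecke algebra. -/
theorem congr_actL {N : ℤ} (P : HeckeAlg) : ∀ (f : ↥(intLattice p 2)) (c : ℤ),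
    (∀ n, n ≠ 0 → N ∣ intCoeff p f n - c * sigmaP p n) →
    ∀ n, n ≠ 0 → N ∣ intCoeff p (actL p P f) n - eisEps p P * c * sigmaP p n := by
  induction P using MvPolynomial.induction_on with
  | C a =>
    intro f c hf n hn
    rw [actL_C, ← coeffLin_apply, map_smul, coeffLin_apply, eisEps, MvPolynomial.aeval_C,
      smul_eq_mul]
    simp only [algebraMap_int_eq, eq_intCast, Int.cast_id]
    exact dvd_of_dvd_of_eq ((hf n hn).mul_left a) (by ring)
  | add P Q hP hQ =>
    intro f c hf n hn
    rw [actL_add, LinearMap.add_apply, intCoeff_add, map_add]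
    exact dvd_of_dvd_of_eq (dvd_add (hP f c hf n hn) (hQ f c hf n hn)) (by ring)
  | mul_X P l hP =>
    intro f c hf n hn
    rw [actL_mul, Module.End.mul_apply, map_mul, eisEps_X]
    have hX : ∀ m, m ≠ 0 → N ∣ intCoeff p (actL p (MvPolynomial.X l) f) m -
        ((1 + divWeight p l) * c) * sigmaP p m := by
      intro m hm
      have hs := sigmaP_mul_prime (p := p) Fact.out l.2 hm
      rw [intCoeff_actL_X]
      by_cases hd : (l : ℕ) ∣ m
      · have hm' : m / l ≠ 0 := Nat.div_ne_zero_iff.mpr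
          ⟨l.2.ne_zero, Nat.le_of_dvd (Nat.pos_of_ne_zero hm) hd⟩
        rw [if_pos hd] at hs ⊢
        have := dvd_add (hf _ (mul_ne_zero hm l.2.ne_zero)) ((hf _ hm').mul_left (divWeight p l))
        exact dvd_of_dvd_of_eq this (by linear_combination c * hs)
      · rw [if_neg hd, add_zero] at hs ⊢
        have := hf _ (mul_ne_zero hm l.2.ne_zero)
        exact dvd_of_dvd_of_eq this (by linear_combination c * hs)
    exact dvd_of_dvd_of_eq (hP _ _ hX n hn) (by ring)

/-- An integral cusp form congruent to a unit multiple of the Eisenstein series bounds the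
Eisenstein quotient from below. -/
theorem dvd_card_of_congruence (f : ↥(intLattice p 2)) {N : ℕ} {u : ℤ}
    (hu : IsCoprime u (N : ℤ)) (hf : ∀ n, n ≠ 0 → (N : ℤ) ∣ intCoeff p f n - u * sigmaP p n) :
    N ∣ Nat.card (↥(heckeLatticeAlgebra p ∅) ⧸ eisIdeal p) := by
  set M := Nat.card (↥(heckeLatticeAlgebra p ∅) ⧸ eisIdeal p)
  have h0 : Ideal.Quotient.mk (eisIdeal p) (heckePsi p (M : HeckeAlg)) = 0 := by
    rw [map_natCast, map_natCast, ← nsmul_one]
    exact card_nsmul_eq_zero'
  rw [Ideal.Quotient.eq_zero_iff_mem, eisIdeal,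
    Ideal.mem_map_iff_of_surjective _ (heckePsi_surjective p)] at h0
  obtain ⟨P, hP, hPM⟩ := h0
  have hε : eisEps p P = 0 := by
    rwa [eisensteinIdeal, mem_eigenIdeal_iff] at hP
  have h := congr_actL p P f u hf 1 one_ne_zero
  rw [hε, zero_mul, zero_mul, sub_zero, actL, hPM, map_natCast] at h
  have hM : (N : ℤ) ∣ (M : ℤ) * intCoeff p f 1 := by
    refine dvd_of_dvd_of_eq h ?_
    rw [← smul_eq_mul, ← coeffLin_apply, ← map_smul, coeffLin_apply]
    congr 1
  have h1 := hf 1 one_ne_zero
  rw [sigmaP_one Fact.out, mul_one] at h1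
  have h2 : (N : ℤ) ∣ u * (M : ℤ) := by
    have := dvd_sub hM (h1.mul_left (M : ℤ))
    exact dvd_of_dvd_of_eq this (by ring)
  exact Int.natCast_dvd_natCast.mp (hu.symm.dvd_of_dvd_mul_left h2)

end Fermat.Agent.Eisenstein
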