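import Fermat.Agent.ModularFunctionField.EtaProduct
import Fermat.Agent.Eisenstein.Forms

/-!
# The mod `ℓ` Sturm bound in level one

A level one form with coefficients in a ring `A` is a combination with coefficients in `A` of
products of `E₄`, `E₆` and `Δ`; so if the first `k / 12 + 1` coefficients die under a ring map
then all do.
-/

noncomputable section

open UpperHalfPlane ModularCurve Function
open scoped MatrixGroups ModularForm ArithmeticFunction.sigma

namespace Fermat.Agent.Eisenstein

/-- The integral series of `E₄`. -/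
def e4Int : PowerSeries ℤ :=
  PowerSeries.mk fun n => if n = 0 then 1 else 240 * (σ 3 n : ℤ)

/-- The integral series of `E₆`. -/
def e6Int : PowerSeries ℤ :=
  PowerSeries.mk fun n => if n = 0 then 1 else -504 * (σ 5 n : ℤ)

/-- `E₄` has an integral `q`-expansion. -/
theorem qExpansion_E4 :
    qExpansion 1 (⇑ModularForm.E₄) = e4Int.map (Int.castRingHom ℂ) := by
  ext n
  rw [show (ModularForm.E₄ : ModularForm 𝒮ℒ 4) = ModularForm.E (by norm_num) from rfl,
    EisensteinSeries.E_qExpansion_coeff (by norm_num) (by decide), PowerSeries.coeff_map, e4Int,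
    PowerSeries.coeff_mk]
  rcases eq_or_ne n 0 with rfl | hn
  · simp
  · rw [if_neg hn, if_neg hn, show bernoulli 4 = -1 / 30 by decide +kernel]
    push_cast [eq_intCast]
    norm_num

theorem qExpansion_E6 :
    qExpansion 1 (⇑ModularForm.E₆) = e6Int.map (Int.castRingHom ℂ) := by
  ext n
  rw [show (ModularForm.E₆ : ModularForm 𝒮ℒ 6) = ModularForm.E (by norm_num) from rfl,
    EisensteinSeries.E_qExpansion_coeff (by norm_num) (by decide), PowerSeries.coeff_map, e6Int,
    PowerSeries.coeff_mk]
  rcases eq_or_ne n 0 with rfl | hn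
  · simp
  · rw [if_neg hn, if_neg hn, show bernoulli 6 = 1 / 42 by decide +kernel]
    push_cast [eq_intCast]
    norm_num

theorem hasQ_eulerFun :
    HasQ 1 (fun τ : ℍ => ModularFunctionField.eulerFun (Periodic.qParam 1 τ))
      (etaProd.map (Int.castRingHom ℂ)) := fun τ => by
  have hq : Periodic.qParam 1 (τ : ℂ) ∈ Metric.ball (0 : ℂ) 1 := by
    simpa using UpperHalfPlane.norm_qParam_lt_one 1 τ
  have h := Complex.hasSum_taylorSeries_on_ball
    (f := ModularFunctionField.eulerFun) ModularForm.differentiableOn_tprod_one_sub_pow hq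
  simp only [Nat.cast_one]
  refine h.congr_fun fun n => ?_
  have : (n.factorial : ℂ) ≠ 0 := by exact_mod_cast n.factorial_ne_zero
  rw [ModularFunctionField.iteratedDeriv_eulerFun_zero, PowerSeries.coeff_map, eq_intCast]
  simp only [smul_eq_mul, sub_zero]
  field_simp

/-- The product expansion of `Δ` as an integral series. -/
theorem qExpansion_discriminant :
    qExpansion 1 ModularForm.discriminant =
      (PowerSeries.X * dedekindEtaUnit).map (Int.castRingHom ℂ) := by
  have hq : HasQ 1 (fun τ : ℍ => Periodic.qParam 1 τ) PowerSeries.X := fun τ => by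
    convert hasSum_ite_eq 1 (Periodic.qParam 1 (τ : ℂ)) using 1
    funext n
    rcases eq_or_ne n 1 with rfl | hn
    · simp
    · simp [PowerSeries.coeff_X, hn]
  have hp : HasQ 1 (∏ _i ∈ Finset.range 24,
      (fun τ : ℍ => ModularFunctionField.eulerFun (Periodic.qParam 1 τ)))
      (∏ _i ∈ Finset.range 24, etaProd.map (Int.castRingHom ℂ)) :=
    HasQ.prod _ fun _ _ => hasQ_eulerFun
  have h := (hq.mul hp).congr (g := ModularForm.discriminant) fun τ => by
    rw [ModularFunctionField.discriminant_eq_qParam_mul, Finset.prod_const, Finset.card_range]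
    rfl
  rw [Finset.prod_const, Finset.card_range] at h
  rw [map_mul, PowerSeries.map_X, dedekindEtaUnit, map_pow]
  simpa using h.qExpansion_eq

theorem exists_four_six (k : ℕ) (hk : 4 ≤ k) (he : Even k) : ∃ a b : ℕ, k = a * 4 + b * 6 := by
  obtain ⟨m, rfl⟩ := he
  rcases Nat.even_or_odd m with ⟨t, rfl⟩ | ⟨t, rfl⟩
  · exact ⟨t, 0, by omega⟩
  · exact ⟨t - 1, 1, by omega⟩

variable {A K : Type*} [CommRing A] [CommRing K]

theorem map_intCast_series (f : A →+* K) (P : PowerSeries ℤ) :
    PowerSeries.map f (PowerSeries.map (Int.castRingHom A) P) =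
      PowerSeries.map (Int.castRingHom K) P := by
  ext n
  simp

theorem qExpansion_const (c : ℂ) :
    qExpansion 1 (fun _ : ℍ => c) = PowerSeries.C c := by
  simpa using (HasQ.const 1 c).qExpansion_eq

/-- The mod `ℓ` Sturm bound in level one. -/
theorem map_eq_zero_of_sturm (ι : A →+* ℂ) (hι : Injective ι) (π : A →+* K) (k : ℕ) :
    ∀ (F : ModularForm 𝒮ℒ (k : ℤ)) (Q : PowerSeries A), Q.map ι = qExpansion 1 (⇑F) →
      (∀ n ≤ k / 12, π (PowerSeries.coeff n Q) = 0) → Q.map π = 0 := by
  induction k using Nat.strong_induction_on with | _ k ih =>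
  intro F Q hQ h
  have zero_case : ∀ R : PowerSeries A, R.map ι = 0 → R = 0 := fun R hR =>
    PowerSeries.map_injective ι hι (by rw [hR, map_zero])
  by_cases hodd : Odd (k : ℤ)
  · rw [ModularForm.levelOne_odd_weight_eq_zero hodd F] at hQ
    rw [zero_case Q (hQ.trans (qExpansion_zero 1)), map_zero]
  have heven : Even k := by
    rwa [Int.odd_coe_nat, Nat.not_odd_iff_even] at hodd
  by_cases hk4 : k < 4
  · interval_cases k
    · obtain ⟨c, hc⟩ := ModularFormClass.levelOne_weight_zero_const F
      rw [hc, show Function.const ℍ c = fun _ => c from rfl, qExpansion_const] at hQ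
      ext n
      rcases eq_or_ne n 0 with rfl | hn
      · rw [PowerSeries.coeff_map, map_zero]; exact h 0 le_rfl
      · have : PowerSeries.coeff n Q = 0 := hι (by
          have := congrArg (PowerSeries.coeff n) hQ
          simpa [PowerSeries.coeff_C, hn] using this)
        simp [this]
    · exact absurd heven (by decide)
    · have : F = 0 := rank_zero_iff_forall_zero.mp ModularForm.levelOne_weight_two_rank_zero F
      rw [this] at hQ
      rw [zero_case Q (hQ.trans (qExpansion_zero 1)), map_zero]
    · exact absurd heven (by decide)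
  obtain ⟨a, b, hab⟩ := exists_four_six k (by omega) heven
  set M : ModularForm 𝒮ℒ (k : ℤ) :=
    ModularForm.mcast (by push_cast [hab]; ring) ((ModularForm.E₄.pow a).mul (ModularForm.E₆.pow b))
    with hMdef
  set QM : PowerSeries A :=
    (e4Int.map (Int.castRingHom A)) ^ a * (e6Int.map (Int.castRingHom A)) ^ b with hQMdef
  have hM : QM.map ι = qExpansion 1 (⇑M) := by
    rw [hMdef, ModularForm.qExpansion_mcast,
      ModularForm.qExpansion_mul one_pos one_mem_strictPeriods_SL,
      ModularForm.qExpansion_pow one_pos one_mem_strictPeriods_SL,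
      ModularForm.qExpansion_pow one_pos one_mem_strictPeriods_SL,
      qExpansion_E4, qExpansion_E6, hQMdef, map_mul, map_pow, map_pow, map_intCast_series,
      map_intCast_series]
  have hQM0 : PowerSeries.constantCoeff QM = 1 := by
    have h4 : PowerSeries.constantCoeff (e4Int.map (Int.castRingHom A)) = 1 := by
      rw [← PowerSeries.coeff_zero_eq_constantCoeff_apply, PowerSeries.coeff_map, e4Int,
        PowerSeries.coeff_mk, if_pos rfl, map_one]
    have h6 : PowerSeries.constantCoeff (e6Int.map (Int.castRingHom A)) = 1 := by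
      rw [← PowerSeries.coeff_zero_eq_constantCoeff_apply, PowerSeries.coeff_map, e6Int,
        PowerSeries.coeff_mk, if_pos rfl, map_one]
    rw [hQMdef, map_mul, map_pow, map_pow, h4, h6, one_pow, one_pow, one_mul]
  set c0 := PowerSeries.constantCoeff Q with hc0
  set F' := F - (ι c0) • M with hF'
  set Q' := Q - PowerSeries.C c0 * QM with hQ'def
  have hQ' : Q'.map ι = qExpansion 1 (⇑F') := by
    rw [hF', FunLike.coe_sub, ModularForm.qExpansion_sub one_pos one_mem_strictPeriods_SL,
      FunLike.coe_smul, ModularForm.qExpansion_smul one_pos one_mem_strictPeriods_SL, ← hQ, ← hM,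
      hQ'def, map_sub, map_mul, PowerSeries.map_C, PowerSeries.smul_eq_C_mul]
  have hQ'0 : PowerSeries.constantCoeff Q' = 0 := by simp [hQ'def, hQM0, hc0]
  have hπc : π c0 = 0 := by
    rw [hc0, ← PowerSeries.coeff_zero_eq_constantCoeff_apply]; exact h 0 (Nat.zero_le _)
  have hπQ : Q.map π = Q'.map π := by
    rw [hQ'def, map_sub, map_mul, PowerSeries.map_C, hπc, map_zero, zero_mul, sub_zero]
  obtain ⟨R, hR⟩ := PowerSeries.X_dvd_iff.mpr hQ'0
  have hF'0 : (qExpansion 1 (⇑F')).coeff 0 = 0 := by
    rw [← hQ', PowerSeries.coeff_map, PowerSeries.coeff_zero_eq_constantCoeff_apply, hQ'0,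
      map_zero]
  set G := CuspForm.discriminantEquiv (ModularForm.toCuspForm F' hF'0) with hG
  set u : PowerSeries A := dedekindEtaUnit.map (Int.castRingHom A)
  set v : PowerSeries A := dedekindEtaUnitInv.map (Int.castRingHom A)
  have huv : u * v = 1 := by rw [← map_mul, dedekindEtaUnit_mul_inv, map_one]
  have hGQ : (v * R).map ι = qExpansion 1 (⇑G) := by
    have h1 := ModularForm.qExpansion_eq_qExpansion_discriminant_mul F' hF'0
    rw [← hG, qExpansion_discriminant, ← hQ', hR, map_mul, map_mul, PowerSeries.map_X,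
      PowerSeries.map_X, ← map_intCast_series ι, mul_assoc] at h1
    have h2 := mul_left_cancel₀ PowerSeries.X_ne_zero h1
    rw [map_mul, h2, ← mul_assoc, ← map_mul, mul_comm v u, huv, map_one, one_mul]
  by_cases hk12 : k < 12
  · have hG0 : G = 0 := rank_zero_iff_forall_zero.mp
      (ModularForm.levelOne_neg_weight_rank_zero (by omega)) G
    rw [hG0] at hGQ
    have hvR : v * R = 0 := zero_case _ (hGQ.trans (qExpansion_zero 1))
    have : R = 0 := by
      calc R = (u * v) * R := by rw [huv, one_mul]
        _ = u * (v * R) := mul_assoc u v R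
        _ = 0 := by rw [hvR, mul_zero]
    rw [hπQ, hR, this, mul_zero, map_zero]
  have hRn : ∀ n ≤ (k - 12) / 12, π (PowerSeries.coeff n R) = 0 := by
    intro n hn
    have := congrArg (PowerSeries.coeff (n + 1)) hπQ
    rw [PowerSeries.coeff_map, PowerSeries.coeff_map, hR, PowerSeries.coeff_succ_X_mul,
      h (n + 1) (by omega)] at this
    exact this.symm
  have hvn : ∀ n ≤ (k - 12) / 12, π (PowerSeries.coeff n (v * R)) = 0 := by
    intro n hn
    rw [PowerSeries.coeff_mul, map_sum]
    refine Finset.sum_eq_zero fun ij hij => ?_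
    rw [map_mul, hRn ij.2 (by have := Finset.HasAntidiagonal.mem_antidiagonal.mp hij; omega),
      mul_zero]
  set G' : ModularForm 𝒮ℒ ((k - 12 : ℕ) : ℤ) := ModularForm.mcast (by omega) G with hG'
  have hIH := ih (k - 12) (by omega) G' (v * R) (by rw [hGQ, hG', ModularForm.qExpansion_mcast]) hvn
  have hπR : R.map π = 0 := by
    calc R.map π = ((u * v) * R).map π := by rw [huv, one_mul]
      _ = u.map π * (v * R).map π := by rw [mul_assoc, map_mul]
      _ = 0 := by rw [hIH, mul_zero]
  rw [hπQ, hR, map_mul, hπR, mul_zero]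

end Fermat.Agent.Eisenstein
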