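import Fermat.Agent.Eisenstein.Theta

/-!
# Existence of the parameters of the quaternary form

For every odd prime `p` there is, by Dirichlet, a prime `q ≡ 3 mod 4` with `-q` a non-square mod
`p`; by reciprocity `-p` is then a square mod `q`, which gives the quaternary form.
-/

noncomputable section

namespace Fermat.Agent.Eisenstein

variable {p : ℕ} [Fact p.Prime]

theorem quadraticChar_neg_eq (x : ZMod p) :
    quadraticChar (ZMod p) (-x) =
      (if p % 4 = 3 then -1 else 1) * quadraticChar (ZMod p) x := by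
  rw [← neg_one_mul x, map_mul]
  congr 1
  have hne : (-1 : ZMod p) ≠ 0 := neg_ne_zero.mpr one_ne_zero
  split_ifs with h
  · exact quadraticChar_neg_one_iff_not_isSquare.mpr fun hs =>
      ZMod.exists_sq_eq_neg_one_iff.mp hs h
  · exact (quadraticChar_one_iff_isSquare hne).mpr (ZMod.exists_sq_eq_neg_one_iff.mpr h)

/-- Quadratic reciprocity in the form needed for the parameters. -/
theorem isSquare_neg_prime_of_nonsquare {q : ℕ} [Fact q.Prime] (hp : p ≠ 2) (hq3 : q % 4 = 3)
    (hpq : p ≠ q) (hns : ¬ IsSquare (-(q : ZMod p))) : IsSquare (-(p : ZMod q)) := by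
  have hq0 : (q : ZMod p) ≠ 0 := fun h => hpq
    ((Nat.prime_dvd_prime_iff_eq (Fact.out : p.Prime) (Fact.out : q.Prime)).mp
      ((ZMod.natCast_eq_zero_iff _ _).mp h))
  have hp0 : (p : ZMod q) ≠ 0 := fun h => hpq
    ((Nat.prime_dvd_prime_iff_eq (Fact.out : q.Prime) (Fact.out : p.Prime)).mp
      ((ZMod.natCast_eq_zero_iff _ _).mp h)).symm
  have hodd : p % 2 = 1 := (Fact.out : p.Prime).eq_two_or_odd.resolve_left hp
  have h1 := quadraticChar_neg_eq (q : ZMod p)
  rw [quadraticChar_neg_one_iff_not_isSquare.mpr hns] at h1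
  have key : ¬ IsSquare (p : ZMod q) := by
    by_cases h3 : p % 4 = 3
    · rw [if_pos h3] at h1
      exact (ZMod.exists_sq_eq_prime_iff_of_mod_four_eq_three h3 hq3 hpq).mp
        ((quadraticChar_one_iff_isSquare hq0).mp (by linarith))
    · rw [if_neg h3, one_mul] at h1
      intro h
      exact quadraticChar_neg_one_iff_not_isSquare.mp h1.symm
        ((ZMod.exists_sq_eq_prime_iff_of_mod_four_eq_one (by omega) (by omega)).mpr h)
  refine (quadraticChar_one_iff_isSquare (neg_ne_zero.mpr hp0)).mp ?_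
  rw [quadraticChar_neg_eq (p := q), if_pos hq3,
    quadraticChar_neg_one_iff_not_isSquare.mpr key]
  norm_num

/-- Parameters exist for every odd prime. -/
theorem exists_thetaData (hp : p ≠ 2) : Nonempty (ThetaData p) := by
  have hpp : p.Prime := Fact.out
  have hF : ringChar (ZMod p) ≠ 2 := by rwa [ZMod.ringChar_zmod_n]
  obtain ⟨c, hc⟩ := FiniteField.exists_nonsquare hF
  have hc0 : c ≠ 0 := fun h => hc (h ▸ IsSquare.zero)
  have hco : Nat.Coprime 4 p := by
    have : Nat.Coprime (2 ^ 2) p :=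
      ((Nat.coprime_primes Nat.prime_two hpp).mpr hp.symm).pow_left 2
    simpa using this
  have : NeZero (4 * p) := ⟨mul_ne_zero (by norm_num) hpp.ne_zero⟩
  have hu : IsUnit ((ZMod.chineseRemainder hco).symm ((3 : ZMod 4), -c)) := by
    refine IsUnit.map _ (Prod.isUnit_iff.mpr ⟨?_, (IsUnit.mk0 c hc0).neg⟩)
    exact ⟨⟨3, 3, by decide, by decide⟩, rfl⟩
  obtain ⟨q, hqgt, hq, hqu⟩ := Nat.forall_exists_prime_gt_and_eq_mod hu p
  have h2 : ((q : ZMod 4), (q : ZMod p)) = ((3 : ZMod 4), -c) := by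
    have := congrArg (ZMod.chineseRemainder hco) hqu
    rw [RingEquiv.apply_symm_apply, map_natCast] at this
    simpa [Prod.ext_iff] using this
  rw [Prod.mk.injEq] at h2
  have hq3 : q % 4 = 3 := by
    have := congrArg ZMod.val h2.1
    rw [ZMod.val_natCast] at this
    exact this.trans (by decide)
  have : Fact q.Prime := ⟨hq⟩
  have hns : ¬ IsSquare (-(q : ZMod p)) := by rw [h2.2, neg_neg]; exact hc
  obtain ⟨s, hs⟩ := isSquare_neg_prime_of_nonsquare hp hq3 (by omega) hns
  obtain ⟨m, hm⟩ : (q : ℤ) ∣ (s.val : ℤ) ^ 2 + p := by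
    rw [← ZMod.intCast_zmod_eq_zero_iff_dvd]
    push_cast [ZMod.natCast_val, ZMod.cast_id', id_eq]
    rw [pow_two, ← hs]
    ring
  exact ⟨⟨q, s.val, m, ((q : ℤ) + 1) / 4, hq, by omega, by omega, hm, hns⟩⟩

end Fermat.Agent.Eisenstein
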