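import Fermat.Agent.Eisenstein.Theta

/-!
# The weight two form given by the quaternary theta series

The theta series of the level sublattice and its translates form a family indexed by the projective
line, so it is a form for `Γ₀(p)`.  Its expansion at `∞` has constant term `1` and all other
coefficients even.
-/

noncomputable section

open UpperHalfPlane Function
open scoped Real MatrixGroups ModularForm

namespace Fermat.Agent.Eisenstein

/-- The quadratic character with complex values. -/
def complexQuadChar (p : ℕ) [Fact p.Prime] : MulChar (ZMod p) ℂ :=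
  (quadraticChar (ZMod p)).ringHomComp (Int.castRingHom ℂ)

namespace ThetaData

variable {p : ℕ} [Fact p.Prime] (D : ThetaData p)

include D in
theorem ringChar_ne_two : ringChar (ZMod p) ≠ 2 := by
  rw [ZMod.ringChar_zmod_n]
  have := D.odd_p
  omega

theorem complexQuadChar_mul_self {c : ZMod p} (hc : c ≠ 0) :
    complexQuadChar p c * complexQuadChar p c = 1 := by
  rw [complexQuadChar, MulChar.ringHomComp_apply, ← map_mul, ← pow_two,
    quadraticChar_sq_one hc, map_one]

include D in
/-- A quadratic exponential sum is a Gauss sum. -/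
theorem sum_stdChar_sq {c : ZMod p} (hc : c ≠ 0) :
    ∑ x, stdChar p (c * x ^ 2) = complexQuadChar p c * gaussSum (complexQuadChar p) (stdChar p) := by
  classical
  rw [← Finset.sum_fiberwise Finset.univ (fun x : ZMod p => x ^ 2)]
  have h1 : ∀ u : ZMod p, ∑ x ∈ Finset.univ.filter (fun x : ZMod p => x ^ 2 = u),
      stdChar p (c * x ^ 2) = complexQuadChar p u * stdChar p (c * u) + stdChar p (u * c) := by
    intro u
    rw [Finset.sum_congr rfl fun x hx => by rw [(Finset.mem_filter.mp hx).2],
      Finset.sum_const, nsmul_eq_mul]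
    have hcard := quadraticChar_card_sqrts D.ringChar_ne_two u
    rw [Set.toFinset_ofPred] at hcard
    have hcard' : ((Finset.univ.filter (fun x : ZMod p => x ^ 2 = u)).card : ℂ) =
        complexQuadChar p u + 1 := by
      rw [complexQuadChar, MulChar.ringHomComp_apply]
      have := congrArg (fun z : ℤ => (z : ℂ)) hcard
      push_cast at this
      simpa using this
    rw [hcard', add_mul, one_mul, mul_comm u c]
  rw [Finset.sum_congr rfl fun u _ => h1 u, Finset.sum_add_distrib, sum_stdChar_mul, if_neg hc,
    add_zero]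
  have h2 := gaussSum_mulShift (complexQuadChar p) (stdChar p) (Units.mk0 c hc)
  rw [Units.val_mk0] at h2
  rw [← h2, ← mul_assoc, complexQuadChar_mul_self hc, one_mul]
  rfl

/-- The Gauss sum of the norm form of the quotient. -/
theorem gauss_normForm {i : ZMod p} (hi : i ≠ 0) :
    ∑ d : ZMod p × ZMod p, stdChar p (i * D.normForm d) = -(p : ℂ) := by
  have h2 := D.two_ne_zero'
  have hq := D.q_cast_ne_zero
  have h4 : (4 : ZMod p) ≠ 0 := by
    rw [show (4 : ZMod p) = 2 * 2 by norm_num]; exact mul_ne_zero h2 h2
  have hA : i / 4 ≠ 0 := div_ne_zero hi h4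
  have hB : i / (4 * D.q) ≠ 0 := div_ne_zero hi (mul_ne_zero h4 hq)
  have hsplit : ∑ d : ZMod p × ZMod p, stdChar p (i * D.normForm d) =
      (∑ x, stdChar p (i / 4 * x ^ 2)) * ∑ y, stdChar p (i / (4 * D.q) * y ^ 2) := by
    rw [Fintype.sum_prod_type, Finset.sum_mul_sum]
    refine Finset.sum_congr rfl fun x _ => Finset.sum_congr rfl fun y _ => ?_
    rw [← AddChar.map_add_eq_mul]
    congr 1
    simp only [normForm]
    ring
  have hg : gaussSum (complexQuadChar p) (stdChar p) ^ 2 = complexQuadChar p (-1) * (p : ℂ) := by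
    have h := gaussSum_sq (χ := complexQuadChar p) (ψ := stdChar p)
      ((MulChar.ringHomComp_ne_one_iff (f := Int.castRingHom ℂ) Int.cast_injective).mpr
        (quadraticChar_ne_one D.ringChar_ne_two)) ((quadraticChar_isQuadratic _).comp _)
      (ZMod.isPrimitive_stdAddChar p)
    rwa [ZMod.card] at h
  have hχ : complexQuadChar p (i / 4) * complexQuadChar p (i / (4 * D.q)) *
      complexQuadChar p (-1) = -1 := by
    rw [show i / 4 = i / (4 * (D.q : ZMod p)) * D.q by field_simp, map_mul]
    have hn : complexQuadChar p (D.q : ZMod p) * complexQuadChar p (-1) = -1 := by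
      rw [← map_mul, mul_neg_one, complexQuadChar, MulChar.ringHomComp_apply,
        quadraticChar_neg_one_iff_not_isSquare.mpr D.hnonsq]
      simp
    linear_combination (complexQuadChar p (D.q : ZMod p) * complexQuadChar p (-1)) *
      complexQuadChar_mul_self hB + hn
  rw [hsplit, D.sum_stdChar_sq hA, D.sum_stdChar_sq hB]
  linear_combination (complexQuadChar p (i / 4) * complexQuadChar p (i / (4 * D.q))) * hg +
    (p : ℂ) * hχ

/-- The weights of the family. -/
def famWeight : Option (ZMod p) → ZMod p × ZMod p → ℂ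
  | none => fun d => if d = 0 then 1 else 0
  | some i => fun d => -(1 / (p : ℂ)) * stdChar p (i * D.normForm d)

theorem bil_zero (d : ZMod p × ZMod p) : D.bil d 0 = 0 := by simp [bil]

theorem normForm_zero : D.normForm 0 = 0 := by simp [normForm]

theorem fourier_none : D.fourier (D.famWeight none) = D.famWeight (some 0) := by
  funext d
  simp [fourier, famWeight, Finset.sum_ite_eq', bil_zero, ite_mul]

theorem sum_bil (d : ZMod p × ZMod p) :
    ∑ e, stdChar p (D.bil d e) = if d = 0 then (p : ℂ) ^ 2 else 0 := by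
  have h2 := D.two_ne_zero'
  have hq := D.q_cast_ne_zero
  have h : ∑ e, stdChar p (D.bil d e) =
      (∑ u, stdChar p (u * (d.1 / 2))) * ∑ v, stdChar p (v * (d.2 / (2 * D.q))) := by
    rw [Fintype.sum_prod_type, Finset.sum_mul_sum]
    refine Finset.sum_congr rfl fun u _ => Finset.sum_congr rfl fun v _ => ?_
    rw [← AddChar.map_add_eq_mul]
    congr 1
    simp only [bil]
    ring
  rw [h, sum_stdChar_mul, sum_stdChar_mul]
  have e1 : d.1 / 2 = 0 ↔ d.1 = 0 := by simp [h2]
  have e2 : d.2 / (2 * D.q) = 0 ↔ d.2 = 0 := by simp [h2, hq]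
  by_cases a : d.1 = 0 <;> by_cases b : d.2 = 0 <;>
    simp [e1, e2, a, b, Prod.ext_iff, pow_two]

theorem fourier_some_zero : D.fourier (D.famWeight (some 0)) = D.famWeight none := by
  funext d
  have hp : (p : ℂ) ≠ 0 := by exact_mod_cast prime_ne_zero (p := p)
  simp only [fourier, famWeight, zero_mul, AddChar.map_zero_eq_one, mul_one]
  rw [← Finset.mul_sum, sum_bil]
  split_ifs
  · field_simp
  · simp

/-- The finite Fourier transform moves the weight at `i` to the one at `-1 / i`. -/
theorem fourier_some {i : ZMod p} (hi : i ≠ 0) :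
    D.fourier (D.famWeight (some i)) = D.famWeight (some (-1 / i)) := by
  funext d
  have hp : (p : ℂ) ≠ 0 := by exact_mod_cast prime_ne_zero (p := p)
  have hid : ∀ e : ZMod p × ZMod p, i * D.normForm e + D.bil d e =
      i * D.normForm (e + (d.1 / i, d.2 / i)) + (-1 / i) * D.normForm d := by
    intro e
    have h2 := D.two_ne_zero'
    have h4 : (4 : ZMod p) ≠ 0 := by
      rw [show (4 : ZMod p) = 2 * 2 by norm_num]; exact mul_ne_zero h2 h2
    have hq := D.q_cast_ne_zero
    simp only [normForm, bil, Prod.fst_add, Prod.snd_add]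
    field_simp
    ring
  simp only [fourier, famWeight, mul_assoc, ← AddChar.map_add_eq_mul, hid]
  simp only [AddChar.map_add_eq_mul, ← mul_assoc, ← Finset.sum_mul, ← Finset.mul_sum]
  have hshift : ∑ e : ZMod p × ZMod p, stdChar p (i * D.normForm (e + (d.1 / i, d.2 / i))) =
      ∑ e : ZMod p × ZMod p, stdChar p (i * D.normForm e) :=
    Equiv.sum_comp (Equiv.addRight (d.1 / i, d.2 / i)) fun e => stdChar p (i * D.normForm e)
  rw [hshift, D.gauss_normForm hi]
  field_simp

/-- The family of theta series. -/
def fam (x : Option (ZMod p)) : ℍ → ℂ := D.theta (D.famWeight x)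

theorem act_S_none : act (none : Option (ZMod p)) ModularGroup.S = some 0 := by
  simp [act, imgC, imgD, toP1, ModularGroup.coe_S]

theorem act_S_some (i : ZMod p) :
    act (some i) ModularGroup.S = if i = 0 then none else some (-1 / i) := by
  simp [act, imgC, imgD, toP1, ModularGroup.coe_S]

theorem act_T_none : act (none : Option (ZMod p)) ModularGroup.T = none := by
  simp [act, imgC, toP1, ModularGroup.coe_T]

theorem act_T_some (i : ZMod p) : act (some i) ModularGroup.T = some (1 + i) := by
  simp [act, imgC, imgD, toP1, ModularGroup.coe_T]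

/-- `S` permutes the family of theta series through its action on the projective line. -/
theorem fam_slash_S (x : Option (ZMod p)) :
    D.fam x ∣[(2 : ℤ)] ModularGroup.S = D.fam (act x ModularGroup.S) := by
  cases x with
  | none => rw [fam, theta_slash_S, fourier_none, act_S_none, fam]
  | some i =>
    rw [fam, theta_slash_S, act_S_some]
    by_cases hi : i = 0
    · rw [if_pos hi, hi, fourier_some_zero, fam]
    · rw [if_neg hi, D.fourier_some hi, fam]

/-- `T` permutes the family of theta series through its action on the projective line. -/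
theorem fam_slash_T (x : Option (ZMod p)) :
    D.fam x ∣[(2 : ℤ)] ModularGroup.T = D.fam (act x ModularGroup.T) := by
  cases x with
  | none =>
    rw [fam, theta_translate, act_T_none, fam]
    congr 1
    funext d
    simp only [famWeight]
    by_cases hd : d = 0 <;> simp [hd, normForm_zero]
  | some i =>
    rw [fam, theta_translate, act_T_some, fam]
    congr 1
    funext d
    simp only [famWeight]
    rw [add_mul, one_mul, AddChar.map_add_eq_mul]
    ring

/-- The theta series are permuted like the projective line. -/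
theorem isP1Family_fam : IsP1Family 2 D.fam := by
  intro γ
  have hγ : γ ∈ Subgroup.closure {ModularGroup.S, ModularGroup.T} := by
    simp [SpecialLinearGroup.SL2Z_generators]
  induction hγ using Subgroup.closure_induction with
  | mem g hg =>
    simp only [Set.mem_insert_iff, Set.mem_singleton_iff] at hg
    rcases hg with rfl | rfl
    · exact D.fam_slash_S
    · exact D.fam_slash_T
  | one => intro x; rw [SlashAction.slash_one, act_one]
  | mul g h _ _ ihg ihh => intro x; rw [SlashAction.slash_mul, ihg, ihh, act_mul]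
  | inv g _ ih =>
    intro x
    have h1 := ih (act x g⁻¹)
    rw [← act_mul, inv_mul_cancel, act_one] at h1
    rw [← h1, ← SlashAction.slash_mul, mul_inv_cancel, SlashAction.slash_one]

omit [Fact p.Prime] in
theorem quad_nonneg (x : V4) : 0 ≤ D.quad x := by
  have h : 0 ≤ 4 * (D.q : ℤ) * D.quad x := by rw [D.four_q_quad]; positivity
  exact nonneg_of_mul_nonneg_right h (by have := D.hq.pos; positivity)

/-- The value of the form as a natural number. -/
def natQuad (x : V4) : ℕ := (D.quad x).toNat

omit [Fact p.Prime] in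
theorem natQuad_cast (x : V4) : (D.natQuad x : ℤ) = D.quad x := Int.toNat_of_nonneg (D.quad_nonneg x)

/-- The form takes each value finitely often. -/
theorem fibre_finite (n : ℕ) : (D.natQuad ⁻¹' {n}).Finite := by
  set K : ℤ := 4 * (D.q : ℤ) * n
  have hbox := (Set.finite_Icc (-K) K).prod ((Set.finite_Icc (-K) K).prod
    ((Set.finite_Icc (-K) K).prod (Set.finite_Icc (-K) K)))
  refine (hbox.preimage D.coords_injective.injOn).subset fun x hx => ?_
  have hn : D.quad x = n := by rw [← D.natQuad_cast, (hx : D.natQuad x = n)]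
  have h := D.four_q_quad x
  rw [hn] at h
  have hp : (1 : ℤ) ≤ p := by exact_mod_cast (Fact.out : p.Prime).pos
  have hq : (1 : ℤ) ≤ D.q := by exact_mod_cast D.hq.pos
  set y := D.coords x with hy
  have a0 : y.1 ^ 2 ≤ (D.q : ℤ) * y.1 ^ 2 := le_mul_of_one_le_left (sq_nonneg _) hq
  have a2 : y.2.2.1 ^ 2 ≤ (p : ℤ) * D.q * y.2.2.1 ^ 2 :=
    le_mul_of_one_le_left (sq_nonneg _) (one_le_mul_of_one_le_of_one_le hp hq)
  have a3 : y.2.2.2 ^ 2 ≤ (p : ℤ) * y.2.2.2 ^ 2 := le_mul_of_one_le_left (sq_nonneg _) hp
  have b0 := sq_nonneg y.1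
  have b1 := sq_nonneg y.2.1
  have b2 := sq_nonneg y.2.2.1
  have b3 := sq_nonneg y.2.2.2
  simp only [Set.mem_preimage, Set.mem_prod, Set.mem_Icc, ← hy]
  have bd : ∀ z : ℤ, z ^ 2 ≤ K → -K ≤ z ∧ z ≤ K := fun z hz =>
    ⟨by have := Int.le_self_sq (-z); rw [neg_sq] at this; linarith,
      le_trans (Int.le_self_sq z) hz⟩
  exact ⟨bd _ (by linarith), bd _ (by linarith), bd _ (by linarith), bd _ (by linarith)⟩

/-- The series of a weighted theta function. -/
def thetaSeries (ψ : ZMod p × ZMod p → ℂ) : PowerSeries ℂ :=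
  PowerSeries.mk fun n => ∑' x : (D.natQuad ⁻¹' {n} : Set V4), ψ (D.rho x)

/-- The expansion of a weighted theta series. -/
theorem hasQ_theta (ψ : ZMod p × ZMod p → ℂ) : HasQ p (D.theta ψ) (D.thetaSeries ψ) := fun τ => by
  have h := (D.summable_weighted ψ τ.im_pos).hasSum.tsum_fiberwise D.natQuad
  refine h.congr_fun fun n => ?_
  rw [thetaSeries, PowerSeries.coeff_mk, ← tsum_mul_right]
  refine tsum_congr fun x => ?_
  have hx : D.quad x = n := by rw [← D.natQuad_cast, (x.2 : D.natQuad x = n)]
  rw [term, hx, Periodic.qParam, ← Complex.exp_nat_mul]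
  congr 2
  push_cast
  ring

theorem rho_neg (x : V4) : D.rho (-x) = -D.rho x := by
  simp only [rho, coords, Prod.fst_neg, Prod.snd_neg, Prod.neg_mk]
  push_cast
  ext <;> simp <;> ring

omit [Fact p.Prime] in
theorem natQuad_neg (x : V4) : D.natQuad (-x) = D.natQuad x := by
  simp only [natQuad, quad, Prod.fst_neg, Prod.snd_neg]
  ring_nf

/-- The vectors of the level sublattice with value `p m`. -/
def reps (m : ℕ) : Finset V4 := (D.fibre_finite (p * m)).toFinset.filter fun x => D.rho x = 0

theorem mem_reps {m : ℕ} {x : V4} : x ∈ D.reps m ↔ D.natQuad x = p * m ∧ D.rho x = 0 := by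
  simp [reps]

theorem neg_mem_reps {m : ℕ} {x : V4} (hx : x ∈ D.reps m) : -x ∈ D.reps m := by
  simp only [mem_reps] at hx ⊢
  rw [D.natQuad_neg, D.rho_neg, hx.2, neg_zero]
  exact ⟨hx.1, rfl⟩

theorem rho_zero : D.rho 0 = 0 := by simp [rho, coords]

theorem reps_zero : D.reps 0 = {0} := by
  ext x
  rw [mem_reps, Finset.mem_singleton, mul_zero]
  constructor
  · rintro ⟨hx, -⟩
    have hn : D.quad x = 0 := by rw [← D.natQuad_cast, hx]; rfl
    have h := D.four_q_quad x
    rw [hn, mul_zero] at h
    have hp : (0 : ℤ) < p := by exact_mod_cast (Fact.out : p.Prime).pos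
    have hq : (0 : ℤ) < D.q := by exact_mod_cast D.hq.pos
    refine D.coords_injective ?_
    have h0 : D.coords 0 = 0 := by simp [coords]
    rw [h0]
    set y := D.coords x
    have a0 : (0 : ℤ) ≤ D.q * y.1 ^ 2 := by positivity
    have a1 : (0 : ℤ) ≤ y.2.1 ^ 2 := by positivity
    have a2 : (0 : ℤ) ≤ p * D.q * y.2.2.1 ^ 2 := by positivity
    have a3 : (0 : ℤ) ≤ p * y.2.2.2 ^ 2 := by positivity
    have e0 : (D.q : ℤ) * y.1 ^ 2 = 0 := by linarith
    have e1 : y.2.1 ^ 2 = 0 := by linarith
    have e2 : (p : ℤ) * D.q * y.2.2.1 ^ 2 = 0 := by linarith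
    have e3 : (p : ℤ) * y.2.2.2 ^ 2 = 0 := by linarith
    simp [prime_ne_zero (p := p), D.hq.ne_zero] at e0 e1 e2 e3
    simp [Prod.ext_iff, e0, e1, e2, e3]
  · rintro rfl
    exact ⟨by simp [natQuad, quad], D.rho_zero⟩

/-- Nonzero numbers are represented an even number of times. -/
theorem even_card_reps {m : ℕ} (hm : m ≠ 0) : Even (D.reps m).card := by
  rw [← ZMod.natCast_eq_zero_iff_even, Finset.card_eq_sum_ones, Nat.cast_sum]
  refine Finset.sum_involution (fun x _ => -x) (fun _ _ => by decide) (fun x hx _ he => ?_)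
    (fun x hx => D.neg_mem_reps hx) (fun x _ => neg_neg x)
  have hx0 : x = 0 := by
    simp only [Prod.ext_iff, Prod.fst_neg, Prod.snd_neg, Prod.fst_zero, Prod.snd_zero] at he ⊢
    omega
  have hh := (D.mem_reps.mp hx).1
  rw [hx0] at hh
  exact hm (by simpa [natQuad, quad, prime_ne_zero] using hh.symm)

/-- The coefficient of index `p * m` counts the representations in `reps`. -/
theorem coeff_thetaSeries_none (m : ℕ) :
    PowerSeries.coeff (p * m) (D.thetaSeries (D.famWeight none)) = (D.reps m).card := by
  rw [thetaSeries, PowerSeries.coeff_mk,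
    tsum_subtype (D.natQuad ⁻¹' {p * m}) (fun x => D.famWeight none (D.rho x)),
    tsum_eq_sum (s := D.reps m)]
  · rw [Finset.card_eq_sum_ones, Nat.cast_sum]
    refine Finset.sum_congr rfl fun x hx => ?_
    rw [mem_reps] at hx
    rw [Set.indicator_of_mem (by simpa using hx.1)]
    simp [famWeight, hx.2]
  · intro x hx
    rw [mem_reps] at hx
    by_cases h : x ∈ D.natQuad ⁻¹' {p * m}
    · rw [Set.indicator_of_mem h]
      exact if_neg fun h' => hx ⟨h, h'⟩
    · exact Set.indicator_of_notMem h _

/-- The theta series of the level sublattice as a modular form. -/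
def thetaForm : ModularForm (CongruenceSubgroup.Gamma0 p) 2 :=
  have : NeZero p := ⟨prime_ne_zero⟩
  formOfFamily D.isP1Family_fam (L := p) fun x => D.hasQ_theta (D.famWeight x)

/-- The coefficients of the theta form are representation numbers. -/
theorem coeffInfty_thetaForm (m : ℕ) : coeffInfty D.thetaForm m = ((D.reps m).card : ℂ) := by
  have : NeZero p := ⟨prime_ne_zero⟩
  have h1 := (hasQ_qExpansion_Gamma0 D.thetaForm).scale (prime_ne_zero (p := p))
  rw [one_mul] at h1
  have h2 := congrArg (PowerSeries.coeff (p * m)) (h1.unique (D.hasQ_theta (D.famWeight none)))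
  rw [PowerSeries.coeff_expand_mul, coeff_thetaSeries_none] at h2
  exact h2

/-- The theta form has constant term `1`. -/
theorem coeffInfty_thetaForm_zero : coeffInfty D.thetaForm 0 = 1 := by
  rw [coeffInfty_thetaForm, reps_zero, Finset.card_singleton, Nat.cast_one]

/-- The other coefficients of the theta form are even. -/
theorem coeffInfty_thetaForm_even {m : ℕ} (hm : m ≠ 0) :
    ∃ e : ℤ, coeffInfty D.thetaForm m = 2 * (e : ℂ) := by
  obtain ⟨k, hk⟩ := D.even_card_reps hm
  exact ⟨k, by rw [coeffInfty_thetaForm, hk]; push_cast; ring⟩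

end ThetaData

end Fermat.Agent.Eisenstein
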