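import Fermat.Agent.Eisenstein.WeightTwo
import Fermat.Agent.Eisenstein.EisensteinP
import Fermat.Agent.Eisenstein.LevelOne
import Fermat.Agent.Eisenstein.AlgInt

/-!
# The norm argument for primes dividing `p + 1`

For an auxiliary prime `q ∈ {2, 3}` the product over all translates of `(c U - g) / s`, with `U`
the Eisenstein series of level `q`, is a level one form whose reduction has order `p + 1`, more
than a twelfth of its weight.
-/

noncomputable section

open UpperHalfPlane CongruenceSubgroup Function
open scoped MatrixGroups ModularForm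

namespace Fermat.Agent.Eisenstein

variable {p q : ℕ} [Fact p.Prime] [Fact q.Prime]

/-- The roots of unity as algebraic integers. -/
def zetaInt (i : ZMod p) : AlgInt := rootAlgInt (zetaPow i) prime_ne_zero (zetaPow_pow_self i)

theorem algIntVal_zetaInt (i : ZMod p) : algIntVal (zetaInt i) = zetaPow i := rfl

theorem map_rescale {R S : Type*} [CommRing R] [CommRing S] (f : R →+* S) (a : R)
    (P : PowerSeries R) :
    (PowerSeries.rescale a P).map f = PowerSeries.rescale (f a) (P.map f) := by
  ext n
  simp [PowerSeries.coeff_rescale]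

/-- Auxiliary coefficients of the Eisenstein series: `σ'(n)` with no constant term. -/
def sigmaSeries (q : ℕ) : PowerSeries AlgInt :=
  PowerSeries.mk fun n => if n = 0 then 0 else ((sigmaP q n : ℤ) : AlgInt)

/-- The non-constant part of the translates of the auxiliary Eisenstein series. -/
def auxU (p q : ℕ) [Fact p.Prime] [Fact q.Prime] : Option (ZMod q) → PowerSeries AlgInt
  | none => PowerSeries.expand (q * p) (mul_ne_zero prime_ne_zero prime_ne_zero) (sigmaSeries q)
  | some j => PowerSeries.expand p prime_ne_zero (PowerSeries.rescale (zetaInt j) (sigmaSeries q))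

/-- The multiplier of `U` at a cusp. -/
def multU (q : ℕ) : Option (ZMod q) → ℤ
  | none => q
  | some _ => -1

/-- The non-constant part of the translates of `g`, divided by `D`. -/
def auxG (p q : ℕ) [Fact p.Prime] [Fact q.Prime] (b : ℕ → ℤ) :
    Option (ZMod p) → PowerSeries AlgInt
  | none => (p : PowerSeries AlgInt) * PowerSeries.expand (q * p)
      (mul_ne_zero prime_ne_zero prime_ne_zero)
      (PowerSeries.mk fun n => if n = 0 then 0 else ((b n : ℤ) : AlgInt))
  | some i => -PowerSeries.expand q prime_ne_zero (PowerSeries.rescale (zetaInt i)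
      (PowerSeries.mk fun n => if n = 0 then 0 else ((b (p * n) : ℤ) : AlgInt)))

/-- Constants of the translates of `g`. -/
def multG (p : ℕ) : Option (ZMod p) → ℤ
  | none => p
  | some _ => -1

/-- The normalised translates of the auxiliary Eisenstein series have integral expansions. -/
theorem series_U (x : Option (ZMod q)) {D : ℤ} (hD : D * ((q : ℤ) - 1) = 24) :
    (q : ℂ) • PowerSeries.expand p prime_ne_zero ((D : ℂ) • formSeries (eisForm q) x) =
      (PowerSeries.C ((multU q x : ℤ) : AlgInt) +
        PowerSeries.C (((D * multU q x : ℤ)) : AlgInt) * auxU p q x).map algIntVal := by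
  have hq : (q : ℂ) ≠ 0 := by exact_mod_cast prime_ne_zero (p := q)
  have hDC : (D : ℂ) * (((q : ℂ) - 1) / 24) = 1 := by
    have : (D : ℂ) * ((q : ℂ) - 1) = 24 := by exact_mod_cast hD
    linear_combination this / 24
  have hA : ((D : ℂ) • qExpansion 1 (⇑(eisForm q))) =
      (PowerSeries.C (1 : AlgInt) + PowerSeries.C (D : AlgInt) * sigmaSeries q).map algIntVal := by
    ext n
    rw [PowerSeries.coeff_smul, PowerSeries.coeff_map, map_add, PowerSeries.coeff_C_mul,
      PowerSeries.coeff_C, sigmaSeries, PowerSeries.coeff_mk,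
      show PowerSeries.coeff n (qExpansion 1 (⇑(eisForm q))) = _ from coeffInfty_eisForm q n]
    rcases eq_or_ne n 0 with rfl | hn
    · simpa using hDC
    · simp [hn]
  cases x with
  | none =>
    rw [formSeries, translateSeries,
      ← map_smul (PowerSeries.expand q prime_ne_zero) (D : ℂ), hA, ← PowerSeries.expand_mul, auxU]
    simp only [show p * q = q * p from mul_comm p q, multU, map_add, map_mul,
      map_one, PowerSeries.map_expand, map_intCast, map_natCast,
      Int.cast_mul, Int.cast_natCast]
    rw [PowerSeries.smul_eq_C_mul, map_natCast]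
    ring
  | some j =>
    ext n
    simp only [formSeries, translateSeries, multU, auxU, map_add, map_mul, PowerSeries.map_C,
      PowerSeries.map_expand, map_rescale, algIntVal_zetaInt, PowerSeries.coeff_smul, smul_eq_mul,
      PowerSeries.coeff_expand, PowerSeries.coeff_C_mul, PowerSeries.coeff_C,
      PowerSeries.coeff_rescale, seriesZero, PowerSeries.coeff_mk, coeffInfty_eisForm]
    rcases eq_or_ne n 0 with rfl | hn
    · simp [sigmaSeries]
      field_simp
      linear_combination (-24 : ℂ) * hDC
    · simp only [hn, if_false, mul_eq_zero, prime_ne_zero (p := q), false_or]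
      split_ifs with hd h0
      · exact absurd h0 (Nat.div_ne_zero_iff.mpr ⟨prime_ne_zero,
          Nat.le_of_dvd (Nat.pos_of_ne_zero hn) hd⟩)
      · rw [sigmaSeries, PowerSeries.coeff_map, PowerSeries.coeff_mk, if_neg h0,
          mul_comm q (n / p), sigmaP_mul_self Fact.out]
        simp
        field_simp
      · simp

/-- The normalised translates of a form congruent to a constant, as integral expansions. -/
theorem series_G (g : ModularForm (Gamma0 p) 2) (c : ℤ) (b : ℕ → ℤ) (D : ℤ)
    (h0 : coeffInfty g 0 = c) (hb : ∀ n, n ≠ 0 → coeffInfty g n = ((D * b n : ℤ) : ℂ))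
    (y : Option (ZMod p)) :
    (p : ℂ) • PowerSeries.expand q prime_ne_zero (formSeries g y) =
      (PowerSeries.C ((c * multG p y : ℤ) : AlgInt) +
        PowerSeries.C ((D : ℤ) : AlgInt) * auxG p q b y).map algIntVal := by
  have hp : (p : ℂ) ≠ 0 := by exact_mod_cast prime_ne_zero (p := p)
  have hA : qExpansion 1 (⇑g) = (PowerSeries.C (c : AlgInt) + PowerSeries.C (D : AlgInt) *
      (PowerSeries.mk fun n => if n = 0 then 0 else ((b n : ℤ) : AlgInt))).map algIntVal := by
    ext n
    rw [PowerSeries.coeff_map, map_add, PowerSeries.coeff_C_mul, PowerSeries.coeff_C,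
      PowerSeries.coeff_mk]
    rcases eq_or_ne n 0 with rfl | hn
    · rw [show PowerSeries.coeff 0 (qExpansion 1 (⇑g)) = (c : ℂ) from h0]
      simp
    · simpa [hn] using! hb n hn
  cases y with
  | none =>
    rw [formSeries, translateSeries, hA, ← PowerSeries.expand_mul, auxG]
    simp only [multG, map_add, map_mul, map_natCast, PowerSeries.map_expand,
      map_intCast, Int.cast_mul, Int.cast_natCast]
    rw [PowerSeries.smul_eq_C_mul, map_natCast]
    ring
  | some i =>
    ext n
    simp only [formSeries, translateSeries, multG, auxG, map_add, map_mul, map_neg,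
      PowerSeries.map_C, PowerSeries.map_expand, map_rescale, algIntVal_zetaInt,
      PowerSeries.coeff_smul, smul_eq_mul, PowerSeries.coeff_expand, PowerSeries.coeff_C_mul,
      PowerSeries.coeff_C, PowerSeries.coeff_rescale, seriesZero, PowerSeries.coeff_mk, mul_neg]
    rcases eq_or_ne n 0 with rfl | hn
    · simp [h0]
      field_simp
    · simp only [hn, if_false]
      split_ifs with hd
      · have h' : n / q ≠ 0 := Nat.div_ne_zero_iff.mpr ⟨prime_ne_zero,
          Nat.le_of_dvd (Nat.pos_of_ne_zero hn) hd⟩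
        rw [hb _ (mul_ne_zero prime_ne_zero h'), PowerSeries.coeff_map, PowerSeries.coeff_mk,
          if_neg h']
        simp
        field_simp
      · simp

/-- Constant terms of the translates of `(c₁ U - c₂ g)`, as integers. -/
def combConst (p q : ℕ) (κ k e l : ℤ) : Option (ZMod q) → Option (ZMod p) → ℤ
  | none, none => 0
  | none, some _ => (q : ℤ) * κ * l * k
  | some _, none => -(p : ℤ) * κ * e
  | some _, some _ => κ * (e - l * k)

/-- Integral expansions of the translates of `(c₁ U - c₂ g)`. -/
def combSeries (p q : ℕ) [Fact p.Prime] [Fact q.Prime] (κ k e l d : ℤ) (B : ℕ → ℤ)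
    (xy : Option (ZMod q) × Option (ZMod p)) : PowerSeries AlgInt :=
  PowerSeries.C ((combConst p q κ k e l xy.1 xy.2 : ℤ) : AlgInt) +
    PowerSeries.C (((p : ℤ) * κ * d * multU q xy.1 : ℤ) : AlgInt) * auxU p q xy.1 -
    PowerSeries.C (((q : ℤ) * l : ℤ) : AlgInt) * auxG p q B xy.2

omit [Fact p.Prime] [Fact q.Prime] in
/-- `combConst` is the constant term of the combination, cleared of the denominator `s`. -/
theorem mul_combConst {κ k e l s : ℤ} (hk : (p : ℤ) + 1 = s * l * k) (hqe : (q : ℤ) + 1 = s * e)
    (x : Option (ZMod q)) (y : Option (ZMod p)) :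
    s * combConst p q κ k e l x y =
      (p : ℤ) * κ * multU q x - (q : ℤ) * (κ * multG p y) := by
  cases x <;> cases y <;> simp only [combConst, multU, multG]
  · ring
  · linear_combination -((q : ℤ) * κ) * hk
  · linear_combination ((p : ℤ) * κ) * hqe
  · linear_combination -κ * hqe + κ * hk

/-- The translates of the combination have the expansions `combSeries`. -/
theorem hasQ_combination (g : ModularForm (Gamma0 p) 2) {κ k e l d s D : ℤ} {B : ℕ → ℤ}
    (hs : s ≠ 0) (hk : (p : ℤ) + 1 = s * l * k) (hqe : (q : ℤ) + 1 = s * e)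
    (hD : D * ((q : ℤ) - 1) = 24) (hDs : D = s * d) (h0 : coeffInfty g 0 = κ)
    (hB : ∀ n, n ≠ 0 → coeffInfty g n = ((s * l * B n : ℤ) : ℂ))
    (xy : Option (ZMod q) × Option (ZMod p)) :
    HasQ (q * p) (((p : ℂ) * κ * q * D / s) • translates 2 (⇑(eisForm q)) xy.1 -
        ((q : ℂ) * p / s) • translates 2 (⇑g) xy.2)
      ((combSeries p q κ k e l d B xy).map algIntVal) := by
  obtain ⟨x, y⟩ := xy
  have : NeZero (q * p) := ⟨mul_ne_zero prime_ne_zero prime_ne_zero⟩
  set c1 : ℂ := (p : ℂ) * κ * q * D / s with hc1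
  set c2 : ℂ := (q : ℂ) * p / s with hc2
  have hsC : (s : ℂ) ≠ 0 := by exact_mod_cast hs
  have h1 := (hasQ_formSeries (eisForm q) x).scale (m := p) prime_ne_zero
  have h2 := (hasQ_formSeries g y).scale (m := q) prime_ne_zero
  rw [mul_comm p q] at h2
  have h := (h1.smul c1).sub (h2.smul c2)
  have hU := series_U (p := p) x hD
  have hG := series_G (q := q) g κ B (s * l) h0 hB y
  convert h using 1
  have e1 : c1 • PowerSeries.expand p prime_ne_zero (formSeries (eisForm q) x) =
      (((p : ℂ) * κ / s) • ((q : ℂ) • PowerSeries.expand p prime_ne_zero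
        ((D : ℂ) • formSeries (eisForm q) x))) := by
    rw [map_smul, smul_smul, smul_smul]
    congr 1
    rw [hc1]; ring
  have e2 : c2 • PowerSeries.expand q prime_ne_zero (formSeries g y) =
      (((q : ℂ) / s) • ((p : ℂ) • PowerSeries.expand q prime_ne_zero (formSeries g y))) := by
    rw [smul_smul]
    congr 1
    rw [hc2]; ring
  rw [e1, e2, hU, hG]
  ext n
  have hEx : (s : ℂ) * (combConst p q κ k e l x y : ℂ) =
      (p : ℂ) * κ * (multU q x : ℂ) - (q : ℂ) * (κ * (multG p y : ℂ)) := by
    exact_mod_cast mul_combConst hk hqe x y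
  simp only [combSeries, map_add, map_sub, map_mul, PowerSeries.coeff_smul,
    smul_eq_mul, map_intCast, map_natCast, Int.cast_mul,
    Int.cast_natCast, hDs]
  simp only [← map_intCast (PowerSeries.C (R := ℂ)), ← map_natCast (PowerSeries.C (R := ℂ)),
    ← map_mul, PowerSeries.coeff_C_mul, PowerSeries.coeff_C]
  split_ifs with hn <;> field_simp
  · linear_combination hEx
  · ring

/-- The translates of a combination of two invariant forms are permuted by `SL(2, ℤ)`. -/
theorem isPermutedFamily_combination (g : ModularForm (Gamma0 p) 2) (c1 c2 : ℂ) :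
    IsPermutedFamily 2 fun xy : Option (ZMod q) × Option (ZMod p) =>
      c1 • translates 2 (⇑(eisForm q)) xy.1 - c2 • translates 2 (⇑g) xy.2 := by
  intro γ
  refine ⟨(actPerm γ).prodCongr (actPerm γ), fun xy => ?_⟩
  simp only [sub_eq_add_neg, SlashAction.add_slash, SlashAction.neg_slash,
    ModularForm.SL_smul_slash, Equiv.prodCongr_apply, Prod.map_fst, Prod.map_snd]
  rw [isP1Family_translates (p := q) (slash_eq_self (eisForm q)) γ xy.1,
    isP1Family_translates (p := p) (slash_eq_self g) γ xy.2]
  rfl

variable {K : Type*} [CommRing K] {π : AlgInt →+* K}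

/-- Modulo `l` the part coming from `g` drops out. -/
theorem map_combSeries {κ k e l d : ℤ} {B : ℕ → ℤ} (hl : π (l : AlgInt) = 0)
    (xy : Option (ZMod q) × Option (ZMod p)) :
    (combSeries p q κ k e l d B xy).map π =
      PowerSeries.C (π ((combConst p q κ k e l xy.1 xy.2 : ℤ) : AlgInt)) +
        PowerSeries.C (π (((p : ℤ) * κ * d * multU q xy.1 : ℤ) : AlgInt)) *
          (auxU p q xy.1).map π := by
  have : π (((q : ℤ) * l : ℤ) : AlgInt) = 0 := by
    rw [Int.cast_mul, map_mul, hl, mul_zero]
  simp only [combSeries, map_add, map_sub, map_mul, PowerSeries.map_C, this, map_zero, zero_mul,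
    sub_zero]

/-- In a row `∞` the reduction has order exactly `q p`. -/
theorem exists_map_combSeries_none {κ k e l d : ℤ} {B : ℕ → ℤ} (hl : π (l : AlgInt) = 0)
    (y : Option (ZMod p)) :
    ∃ u : PowerSeries K,
      PowerSeries.constantCoeff u = π (((p : ℤ) * κ * d * q : ℤ) : AlgInt) ∧
      (combSeries p q κ k e l d B (none, y)).map π = PowerSeries.X ^ (q * p) * u := by
  have : NeZero (q * p) := ⟨mul_ne_zero prime_ne_zero prime_ne_zero⟩
  set S1 : PowerSeries K := PowerSeries.mk fun n => π ((sigmaP q (n + 1) : ℤ) : AlgInt) with hS1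
  have hX : (sigmaSeries q).map π = PowerSeries.X * S1 := by
    ext n
    cases n with
    | zero => simp [sigmaSeries]
    | succ n => simp [sigmaSeries, hS1]
  refine ⟨PowerSeries.C (π (((p : ℤ) * κ * d * (q : ℤ) : ℤ) : AlgInt)) *
    PowerSeries.expand (q * p) (NeZero.ne _) S1, ?_, ?_⟩
  · rw [map_mul, PowerSeries.constantCoeff_C, PowerSeries.constantCoeff_expand]
    simp [hS1, sigmaP_one (p := q) Fact.out,
      ← PowerSeries.coeff_zero_eq_constantCoeff_apply, -PowerSeries.coeff_zero_eq_constantCoeff]
  · have hE0 : π ((combConst p q κ k e l none y : ℤ) : AlgInt) = 0 := by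
      cases y with
      | none => simp [combConst]
      | some i => simp only [combConst, Int.cast_mul, map_mul, hl, mul_zero, zero_mul]
    rw [map_combSeries hl, hE0, map_zero, zero_add, auxU, PowerSeries.map_expand, hX, map_mul,
      PowerSeries.expand_X]
    simp only [multU]
    ring

/-- In the other rows the reduction has constant term `combConst`. -/
theorem constantCoeff_map_combSeries_some {κ k e l d : ℤ} {B : ℕ → ℤ} (hl : π (l : AlgInt) = 0)
    (j : ZMod q) (y : Option (ZMod p)) :
    PowerSeries.constantCoeff ((combSeries p q κ k e l d B (some j, y)).map π) =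
      π ((combConst p q κ k e l (some j) y : ℤ) : AlgInt) := by
  have h0 : PowerSeries.constantCoeff ((auxU p q (some j)).map π) = 0 := by
    rw [auxU, PowerSeries.map_expand, PowerSeries.constantCoeff_expand, map_rescale,
      ← PowerSeries.coeff_zero_eq_constantCoeff_apply, PowerSeries.coeff_rescale]
    simp [sigmaSeries]
  rw [map_combSeries hl, map_add, map_mul, PowerSeries.constantCoeff_C,
    PowerSeries.constantCoeff_C, h0, mul_zero, add_zero]

/-- A permuted family of weight two forms indexed by pairs of cusps of levels `q ≤ 3` and `p` cannot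
have a product of reduced order exactly `q p (p + 1)`, more than a twelfth of its weight. -/
theorem false_of_prod_order {K : Type*} [Field K] {π : AlgInt →+* K} (hq : q ≤ 3)
    {R : Option (ZMod q) × Option (ZMod p) → ℍ → ℂ} (hfam : IsPermutedFamily 2 R)
    {P : Option (ZMod q) × Option (ZMod p) → PowerSeries AlgInt}
    (hRP : ∀ xy, HasQ (q * p) (R xy) ((P xy).map algIntVal)) {U : PowerSeries K}
    (hU : PowerSeries.constantCoeff U ≠ 0)
    (hprod : (∏ xy, P xy).map π = PowerSeries.X ^ (q * p * (p + 1)) * U) : False := by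
  have : NeZero (q * p) := ⟨mul_ne_zero prime_ne_zero prime_ne_zero⟩
  set w : ℕ := 2 * Fintype.card (Option (ZMod q) × Option (ZMod p)) with hw
  have hinv : ∀ γ : SL(2, ℤ), (∏ xy, R xy) ∣[(w : ℤ)] γ = ∏ xy, R xy := by
    intro γ
    have := hfam.prod_slash γ
    rwa [hw, Nat.cast_mul, Nat.cast_ofNat]
  have hq' : HasQ (q * p) (∏ xy, R xy) ((∏ xy, P xy).map algIntVal) := by
    rw [map_prod]
    exact HasQ.prod _ fun xy _ => hRP xy
  set F := levelOneForm (w : ℤ) _ hinv hq'
  have hexp := expand_qExpansion_levelOneForm (w : ℤ) _ hinv hq'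
  set Q : PowerSeries AlgInt := PowerSeries.mk fun n =>
    PowerSeries.coeff ((q * p) * n) (∏ xy, P xy) with hQ
  have hQF : Q.map algIntVal = qExpansion 1 (⇑F) := by
    ext n
    rw [PowerSeries.coeff_map, hQ, PowerSeries.coeff_mk, ← PowerSeries.coeff_map, hexp,
      PowerSeries.coeff_expand_mul]
  have hπQ : ∀ n, π (PowerSeries.coeff n Q) =
      PowerSeries.coeff (q * p * n) ((∏ xy, P xy).map π) := fun n => by
    rw [hQ, PowerSeries.coeff_mk, PowerSeries.coeff_map]
  have hsturm := map_eq_zero_of_sturm algIntVal algIntVal_injective π w F Q hQF fun n hn => by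
    rw [hπQ, hprod, PowerSeries.coeff_X_pow_mul', if_neg]
    intro hle
    have h1 : p + 1 ≤ n := Nat.le_of_mul_le_mul_left hle (Nat.pos_of_ne_zero (NeZero.ne (q * p)))
    have h2 : w = 2 * ((q + 1) * (p + 1)) := by
      simp [hw, Fintype.card_prod, Fintype.card_option]
    have h3 : (q + 1) * (p + 1) ≤ 4 * (p + 1) := Nat.mul_le_mul_right _ (by omega)
    have h4 : n * 12 ≤ w := (Nat.le_div_iff_mul_le (by norm_num)).mp hn
    omega
  have := congrArg (PowerSeries.coeff (p + 1)) hsturm
  rw [PowerSeries.coeff_map, hπQ, hprod, PowerSeries.coeff_X_pow_mul', if_pos le_rfl, Nat.sub_self,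
    PowerSeries.coeff_zero_eq_constantCoeff_apply, map_zero] at this
  exact hU this

/-- No weight two form of level `p ≡ -1` is congruent to a nonzero constant. -/
theorem norm_contradiction (g : ModularForm (Gamma0 p) 2) (a : ℕ → ℤ)
    (ha : ∀ n, coeffInfty g n = a n) {l : ℕ} (hl : l.Prime) {s d e D : ℤ}
    (hs : s ≠ 0) (hdvd : ∀ n, n ≠ 0 → s * l ∣ a n) (ha0 : ¬ (l : ℤ) ∣ a 0)
    (hD : D * ((q : ℤ) - 1) = 24) (hDs : D = s * d) (hd : ¬ (l : ℤ) ∣ d)
    (hqe : (q : ℤ) + 1 = s * e) (he : ¬ (l : ℤ) ∣ e) (hq : q ≤ 3) (hlq : ¬ (l : ℤ) ∣ q)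
    (hpl : s * l ∣ (p : ℤ) + 1) : False := by
  obtain ⟨K, _, π, hπ⟩ := exists_residue hl
  obtain ⟨k, hk⟩ := hpl
  have hlp : ¬ (l : ℤ) ∣ p := fun h => by
    have h1 : (l : ℤ) ∣ 1 := by
      have : (l : ℤ) ∣ (p : ℤ) + 1 := ⟨s * k, by rw [hk]; ring⟩
      simpa using dvd_sub this h
    exact hl.ne_one (Nat.dvd_one.mp (Int.natCast_dvd_natCast.mp (by simpa using h1)))
  choose b hb using hdvd
  set B : ℕ → ℤ := fun n => if hn : n = 0 then 0 else b n hn with hB
  have hbB : ∀ n, n ≠ 0 → coeffInfty g n = ((s * l * B n : ℤ) : ℂ) := fun n hn => by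
    rw [ha, hB]; simp only [dif_neg hn]; rw [← hb n hn]
  set κ := a 0 with hκ
  have hl0 : π ((l : ℤ) : AlgInt) = 0 := (hπ l).mpr dvd_rfl
  have hnz : ∀ z : ℤ, ¬ (l : ℤ) ∣ z → π (z : AlgInt) ≠ 0 := fun z hz h => hz ((hπ z).mp h)
  have hlprime : Prime (l : ℤ) := Nat.prime_iff_prime_int.mp hl
  have hother : ∀ (j : ZMod q) (y : Option (ZMod p)),
      ¬ (l : ℤ) ∣ combConst p q κ k e l (some j) y := by
    intro j y h
    cases y with
    | none =>
      simp only [combConst, neg_mul, dvd_neg] at h
      rcases hlprime.dvd_or_dvd h with h | h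
      · rcases hlprime.dvd_or_dvd h with h | h
        · exact hlp h
        · exact ha0 h
      · exact he h
    | some i =>
      simp only [combConst] at h
      rcases hlprime.dvd_or_dvd h with h | h
      · exact ha0 h
      · exact he (by simpa using dvd_add h (dvd_mul_right (l : ℤ) k))
  have hrow : ¬ (l : ℤ) ∣ (p : ℤ) * κ * d * q := fun h => by
    rcases hlprime.dvd_or_dvd h with h | h
    · rcases hlprime.dvd_or_dvd h with h | h
      · rcases hlprime.dvd_or_dvd h with h | h
        · exact hlp h
        · exact ha0 h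
      · exact hd h
    · exact hlq h
  choose u hu0 hu using
    exists_map_combSeries_none (p := p) (q := q) (κ := κ) (k := k) (e := e) (d := d) (B := B) hl0
  refine false_of_prod_order (π := π) hq (isPermutedFamily_combination (q := q) g _ _)
    (hasQ_combination g hs hk hqe hD hDs (ha 0) hbB) (U := (∏ y, u y) *
      ∏ j : ZMod q, ∏ y, (combSeries p q κ k e l d B (some j, y)).map π) ?_ ?_
  · simp only [map_mul, map_prod, hu0, constantCoeff_map_combSeries_some hl0]
    exact mul_ne_zero (Finset.prod_ne_zero_iff.mpr fun y _ => hnz _ hrow)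
      (Finset.prod_ne_zero_iff.mpr fun j _ => Finset.prod_ne_zero_iff.mpr fun y _ =>
        hnz _ (hother j y))
  · rw [map_prod, Fintype.prod_prod_type, Fintype.prod_option,
      Finset.prod_congr rfl fun y _ => hu y, Finset.prod_mul_distrib, Finset.prod_const,
      Finset.card_univ, Fintype.card_option, ZMod.card, ← pow_mul, mul_assoc]

end Fermat.Agent.Eisenstein
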