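import Fermat.Agent.Eisenstein.WeightTwo
import Fermat.Agent.Eisenstein.LevelOne

/-!
# The trace of a product of two weight two forms

The trace to level one of a product of two weight two forms of prime level is a multiple of `E₄`;
comparing the first two coefficients gives an identity between the coefficients of the factors.
-/

noncomputable section

open UpperHalfPlane CongruenceSubgroup Function
open scoped MatrixGroups ModularForm ArithmeticFunction.sigma

namespace Fermat.Agent.Eisenstein

variable {p : ℕ} [Fact p.Prime]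

/-- The trace of a product of two weight two forms is a multiple of `E₄`. -/
theorem exists_trace_eq (g h : ModularForm (Gamma0 p) 2) : ∃ t : ℂ, ∀ n,
    PowerSeries.coeff n (qExpansion 1 (⇑g) * qExpansion 1 (⇑h)) +
      p * PowerSeries.coeff (p * n) (seriesZero g * seriesZero h) =
      t * ((PowerSeries.coeff n e4Int : ℤ) : ℂ) := by
  have : NeZero p := ⟨prime_ne_zero⟩
  have hR := (isP1Family_translates (p := p) (slash_eq_self g)).mul
    (isP1Family_translates (p := p) (slash_eq_self h))
  have hinv : ∀ γ : SL(2, ℤ),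
      (∑ x, translates 2 (⇑g) x * translates (p := p) 2 (⇑h) x) ∣[(4 : ℤ)] γ =
        ∑ x, translates 2 (⇑g) x * translates (p := p) 2 (⇑h) x :=
    fun γ => hR.permuted.sum_slash γ
  have hq := HasQ.sum (L := p) (Finset.univ : Finset (Option (ZMod p)))
    fun x _ => (hasQ_formSeries g x).mul (hasQ_formSeries h x)
  obtain ⟨t, ht⟩ := (finrank_eq_one_iff_of_nonzero' ModularForm.E₄
    (EisensteinSeries.E_ne_zero _ ⟨2, rfl⟩)).mp
    (Module.rank_eq_one_iff_finrank_eq_one.mp ModularForm.levelOne_weight_four_rank_one)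
    (levelOneForm 4 _ hinv hq)
  refine ⟨t, fun n => ?_⟩
  have h1 := congrArg (PowerSeries.coeff (p * n)) (expand_qExpansion_levelOneForm 4 _ hinv hq)
  rw [← ht, FunLike.coe_smul, ModularForm.qExpansion_smul one_pos one_mem_strictPeriods_SL,
    qExpansion_E4, PowerSeries.coeff_expand_mul, PowerSeries.coeff_smul, PowerSeries.coeff_map,
    map_sum, sum_option_zmod] at h1
  simp only [formSeries, translateSeries, ← map_mul, PowerSeries.coeff_expand_mul,
    PowerSeries.coeff_rescale, pow_mul, zetaPow_pow_self, one_pow, one_mul, Finset.sum_const,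
    Finset.card_univ, ZMod.card, nsmul_eq_mul, smul_eq_mul, eq_intCast] at h1
  exact h1

/-- The first coefficient of the trace, in integral form. -/
theorem trace_identity (g h : ModularForm (Gamma0 p) 2) (a b : ℕ → ℤ)
    (ha : ∀ n, coeffInfty g n = a n) (hb : ∀ n, coeffInfty h n = b n) :
    ((p : ℤ) + 1) * (240 * a 0 * b 0 - a 0 * b 1 - a 1 * b 0) =
      ∑ i ∈ Finset.Ico 1 p, a (p * i) * b (p * (p - i)) := by
  have hp : (p : ℂ) ≠ 0 := by exact_mod_cast prime_ne_zero (p := p)
  obtain ⟨t, ht⟩ := exists_trace_eq g h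
  have hapn : a (p * p) = a 1 := by
    have := coeffInfty_mul_mul g 1
    rw [mul_one, ha, ha] at this
    exact_mod_cast this
  have hbpn : b (p * p) = b 1 := by
    have := coeffInfty_mul_mul h 1
    rw [mul_one, hb, hb] at this
    exact_mod_cast this
  have hga : ∀ n, PowerSeries.coeff n (qExpansion 1 (⇑g)) = (a n : ℂ) := fun n => ha n
  have hhb : ∀ n, PowerSeries.coeff n (qExpansion 1 (⇑h)) = (b n : ℂ) := fun n => hb n
  have h0 := ht 0
  have h1 := ht 1
  rw [mul_zero] at h0
  rw [mul_one] at h1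
  rw [PowerSeries.coeff_mul, PowerSeries.coeff_mul, Finset.Nat.sum_antidiagonal_eq_sum_range_succ
      (fun i j => PowerSeries.coeff i (qExpansion 1 (⇑g)) * PowerSeries.coeff j (qExpansion 1 (⇑h))),
    Finset.Nat.sum_antidiagonal_eq_sum_range_succ
      (fun i j => PowerSeries.coeff i (seriesZero g) * PowerSeries.coeff j (seriesZero h))] at h0 h1
  simp only [hga, hhb, seriesZero, PowerSeries.coeff_mk, ha, hb] at h0 h1
  have hsplit : ∑ i ∈ Finset.range (p + 1), a (p * i) * b (p * (p - i)) =
      a 0 * b 1 + a 1 * b 0 + ∑ i ∈ Finset.Ico 1 p, a (p * i) * b (p * (p - i)) := by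
    rw [Finset.sum_range_succ, Finset.range_eq_Ico,
      Finset.sum_eq_sum_Ico_succ_bot (Fact.out : p.Prime).pos]
    simp only [mul_zero, Nat.sub_zero, Nat.sub_self, hbpn, hapn]
    ring
  have e0 : (e4Int.coeff 0 : ℤ) = 1 := by simp [e4Int]
  have e1 : (e4Int.coeff 1 : ℤ) = 240 := by simp [e4Int]
  rw [e0] at h0
  rw [e1] at h1
  simp only [Finset.sum_range_succ, Finset.sum_range_zero, zero_add, mul_zero,
    Nat.sub_self, Int.cast_one, mul_one] at h0
  have hB : ∑ i ∈ Finset.range (p + 1), -((a (p * i) : ℤ) : ℂ) / p * (-(b (p * (p - i)) : ℂ) / p) =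
      ((∑ i ∈ Finset.range (p + 1), a (p * i) * b (p * (p - i)) : ℤ) : ℂ) / (p : ℂ) ^ 2 := by
    rw [Int.cast_sum, Finset.sum_div]
    refine Finset.sum_congr rfl fun i _ => ?_
    push_cast; ring
  rw [Nat.succ_eq_add_one, Nat.succ_eq_add_one, hB, hsplit] at h1
  simp only [Finset.sum_range_succ, Finset.sum_range_zero, zero_add, Nat.sub_zero, Nat.sub_self,
    Int.cast_add, Int.cast_mul, Int.cast_ofNat] at h1
  field_simp at h0 h1
  have key : (((p : ℤ) + 1) * (240 * a 0 * b 0 - a 0 * b 1 - a 1 * b 0) : ℤ) =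
      (((∑ i ∈ Finset.Ico 1 p, a (p * i) * b (p * (p - i))) : ℤ) : ℂ) := by
    push_cast at h1 ⊢
    linear_combination 240 * h0 - h1
  exact_mod_cast key

end Fermat.Agent.Eisenstein
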