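import Fermat.Prelude.Def_ModularCurve_ModularUnit
import Fermat.Agent.Eisenstein.Duality
import Fermat.Agent.Eisenstein.Trace
import Fermat.Agent.Eisenstein.NormArgument

/-!
# The upper bound for the Eisenstein quotient

A prime power dividing the index of the Eisenstein ideal gives a cusp form congruent to the
Eisenstein series; the trace identities and, for primes dividing `p + 1`, the norm argument show
that it divides the numerator of `(p - 1) / 12`.
-/

noncomputable section

open CuspForm ModularCurve CongruenceSubgroup ModularFormClass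
open scoped ArithmeticFunction.sigma

namespace Fermat.Agent.Eisenstein

variable {p : ℕ} [Fact p.Prime]

omit [Fact p.Prime] in
/-- Coefficients at `∞` are compatible with scalars. -/
theorem coeffInfty_smul (c : ℂ) (F : ModularForm (Gamma0 p) 2) (n : ℕ) :
    coeffInfty (c • F) n = c * coeffInfty F n := by
  rw [coeffInfty, coeffInfty, FunLike.coe_smul,
    ModularForm.qExpansion_smul one_pos (one_mem_strictPeriods_Gamma0 p) c F,
    PowerSeries.coeff_smul, smul_eq_mul]

omit [Fact p.Prime] in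
/-- Coefficients at `∞` are compatible with subtraction. -/
theorem coeffInfty_sub (F G : ModularForm (Gamma0 p) 2) (n : ℕ) :
    coeffInfty (F - G) n = coeffInfty F n - coeffInfty G n := by
  rw [coeffInfty, coeffInfty, coeffInfty, FunLike.coe_sub,
    ModularForm.qExpansion_sub one_pos (one_mem_strictPeriods_Gamma0 p) F G, map_sub]

omit [Fact p.Prime] in
theorem coeffInfty_toModularForm (f : CuspForm (Gamma0 p) 2) (n : ℕ) :
    coeffInfty (HeckeLift.toModularForm f) n = qCoeff (⇑f) n := rfl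

/-- The form `24 u E - 24 f`, congruent to a constant. -/
def constForm (f : ↥(intLattice p 2)) : ModularForm (Gamma0 p) 2 :=
  (24 * (intCoeff p f 1 : ℂ)) • eisForm p - (24 : ℂ) • HeckeLift.toModularForm f.1

/-- Its coefficients. -/
def constFormCoeff (f : ↥(intLattice p 2)) (n : ℕ) : ℤ :=
  if n = 0 then ((p : ℤ) - 1) * intCoeff p f 1
  else 24 * (intCoeff p f 1 * sigmaP p n - intCoeff p f n)

theorem coeffInfty_constForm (f : ↥(intLattice p 2)) (n : ℕ) :
    coeffInfty (constForm f) n = constFormCoeff f n := by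
  rw [constForm, coeffInfty_sub, coeffInfty_smul, coeffInfty_smul, coeffInfty_toModularForm,
    coeffInfty_eisForm, qCoeff_eq_intCoeff, constFormCoeff]
  rcases eq_or_ne n 0 with rfl | hn
  · simp [intCoeff_zero_index]
    ring
  · simp [hn]
    ring

/-- The coefficients of `24 E`. -/
def eisCoeff24 (p n : ℕ) : ℤ := if n = 0 then (p : ℤ) - 1 else 24 * sigmaP p n

theorem coeffInfty_eis24 (n : ℕ) :
    coeffInfty ((24 : ℂ) • eisForm p) n = eisCoeff24 p n := by
  rw [coeffInfty_smul, coeffInfty_eisForm, eisCoeff24]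
  rcases eq_or_ne n 0 with rfl | hn
  · simp; ring
  · simp [hn]

variable {f : ↥(intLattice p 2)} {D : ℤ}

theorem constFormCoeff_one (f : ↥(intLattice p 2)) : constFormCoeff f 1 = 0 := by
  simp [constFormCoeff, sigmaP_one (p := p) Fact.out]

theorem dvd_constFormCoeff (hf : ∀ n, n ≠ 0 → D ∣ intCoeff p f n - sigmaP p n) {n : ℕ}
    (hn : n ≠ 0) : 24 * D ∣ constFormCoeff f n := by
  rw [constFormCoeff, if_neg hn]
  refine mul_dvd_mul_left 24 ?_
  have h1 := hf 1 one_ne_zero
  rw [sigmaP_one (p := p) Fact.out] at h1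
  exact dvd_of_dvd_of_eq (dvd_sub (h1.mul_right (sigmaP p n)) (hf n hn)) (by ring)

/-- First congruence on `p`, from the product with the Eisenstein series. -/
theorem trace_bound_one (hf : ∀ n, n ≠ 0 → D ∣ intCoeff p f n - sigmaP p n) :
    24 * D ∣ ((p : ℤ) + 1) * ((p : ℤ) - 1) * intCoeff p f 1 * (10 * ((p : ℤ) - 1) - 1) := by
  have h := trace_identity (constForm f) ((24 : ℂ) • eisForm p) (constFormCoeff f) (eisCoeff24 p)
    (coeffInfty_constForm f) coeffInfty_eis24
  rw [constFormCoeff_one] at h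
  have hr : 24 * (24 * D) ∣ ∑ i ∈ Finset.Ico 1 p,
      constFormCoeff f (p * i) * eisCoeff24 p (p * (p - i)) := by
    refine Finset.dvd_sum fun i hi => ?_
    rw [Finset.mem_Ico] at hi
    have h1 : p * i ≠ 0 := mul_ne_zero prime_ne_zero (by omega)
    have h2 : p * (p - i) ≠ 0 := mul_ne_zero prime_ne_zero (by omega)
    rw [mul_comm (24 : ℤ) (24 * D)]
    refine mul_dvd_mul (dvd_constFormCoeff hf h1) ?_
    rw [eisCoeff24, if_neg h2]
    exact dvd_mul_right 24 _
  rw [← h] at hr
  refine (mul_dvd_mul_iff_left (a := (24 : ℤ)) (by norm_num)).mp (dvd_of_dvd_of_eq hr ?_)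
  simp only [constFormCoeff, eisCoeff24, if_pos, one_ne_zero, if_false,
    sigmaP_one (p := p) Fact.out]
  ring

/-- Second congruence on `p`, from the square. -/
theorem trace_bound_two (hf : ∀ n, n ≠ 0 → D ∣ intCoeff p f n - sigmaP p n) :
    (24 * D) * (24 * D) ∣ 240 * ((p : ℤ) - 1) ^ 2 * ((p : ℤ) + 1) * intCoeff p f 1 ^ 2 := by
  have h := trace_identity (constForm f) (constForm f) (constFormCoeff f) (constFormCoeff f)
    (coeffInfty_constForm f) (coeffInfty_constForm f)
  rw [constFormCoeff_one] at h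
  have hr : (24 * D) * (24 * D) ∣ ∑ i ∈ Finset.Ico 1 p,
      constFormCoeff f (p * i) * constFormCoeff f (p * (p - i)) := by
    refine Finset.dvd_sum fun i hi => ?_
    rw [Finset.mem_Ico] at hi
    exact mul_dvd_mul (dvd_constFormCoeff hf (mul_ne_zero prime_ne_zero (by omega)))
      (dvd_constFormCoeff hf (mul_ne_zero prime_ne_zero (by omega)))
  rw [← h] at hr
  refine dvd_of_dvd_of_eq hr ?_
  simp only [constFormCoeff, if_pos]
  ring

theorem coprime_of_not_dvd {l : ℕ} (hl : l.Prime) {x : ℤ} (h : ¬ (l : ℤ) ∣ x) (k : ℕ) :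
    IsCoprime ((l : ℤ) ^ k) x :=
  ((Nat.prime_iff_prime_int.mp hl).coprime_iff_not_dvd.mpr h).pow_left

section Cases

variable {l m : ℕ} (hl : l.Prime) (hm : 1 ≤ m)
  (hf : ∀ n, n ≠ 0 → (l : ℤ) ^ m ∣ intCoeff p f n - sigmaP p n)

include hl hm hf

/-- The first coefficient of a congruent form is prime to `l`. -/
theorem not_dvd_intCoeff_one : ¬ (l : ℤ) ∣ intCoeff p f 1 := by
  intro h
  have h1 := (dvd_pow_self (l : ℤ) (by omega : m ≠ 0)).trans (hf 1 one_ne_zero)
  rw [sigmaP_one (p := p) Fact.out] at h1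
  have : (l : ℤ) ∣ 1 := by simpa using dvd_sub h h1
  exact hl.ne_one (Nat.dvd_one.mp (Int.natCast_dvd_natCast.mp (by simpa using this)))

/-- The `l`-part of the first congruence. -/
theorem bound_one {v : ℕ} (hv : (l : ℤ) ^ v ∣ 24) :
    (l : ℤ) ^ (v + m) ∣ ((p : ℤ) + 1) * ((p : ℤ) - 1) * (10 * ((p : ℤ) - 1) - 1) := by
  have h := (mul_dvd_mul hv (dvd_refl ((l : ℤ) ^ m))).trans (trace_bound_one hf)
  rw [← pow_add] at h
  refine (coprime_of_not_dvd hl (not_dvd_intCoeff_one hl hm hf) _).dvd_of_dvd_mul_right ?_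
  exact dvd_of_dvd_of_eq h (by ring)

/-- The `l`-part of the second congruence. -/
theorem bound_two {v : ℕ} (hv : (l : ℤ) ^ v ∣ 24) :
    (l : ℤ) ^ (2 * (v + m)) ∣ 240 * ((p : ℤ) - 1) ^ 2 * ((p : ℤ) + 1) := by
  have h := (mul_dvd_mul (mul_dvd_mul hv (dvd_refl ((l : ℤ) ^ m)))
    (mul_dvd_mul hv (dvd_refl ((l : ℤ) ^ m)))).trans (trace_bound_two hf)
  rw [← pow_add, ← pow_add, ← two_mul] at h
  exact ((coprime_of_not_dvd hl (not_dvd_intCoeff_one hl hm hf) _).pow_right).dvd_of_dvd_mul_right h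

/-- No congruence modulo a prime `l ≥ 5` dividing `p + 1`. -/
theorem no_congruence_large (h5 : 5 ≤ l) (hlp : (l : ℤ) ∣ (p : ℤ) + 1) : False := by
  have : Fact (Nat.Prime 2) := ⟨Nat.prime_two⟩
  have hlp1 : ¬ (l : ℤ) ∣ (p : ℤ) - 1 := fun h => by
    have h2 : (l : ℤ) ∣ 2 := dvd_of_dvd_of_eq (dvd_sub hlp h) (by ring)
    have := Int.le_of_dvd (by norm_num) h2
    omega
  refine norm_contradiction (q := 2) (constForm f) (constFormCoeff f) (coeffInfty_constForm f) hl
    (s := 1) (d := 24) (e := 3) (D := 24) one_ne_zero (fun n hn => ?_) ?_ (by norm_num)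
    (by norm_num) ?_ (by norm_num) ?_ (by norm_num) ?_ (by simpa using hlp)
  · rw [one_mul]
    exact (dvd_pow_self _ (by omega : m ≠ 0)).trans
      ((dvd_mul_left _ 24).trans (dvd_constFormCoeff hf hn))
  · rw [constFormCoeff, if_pos rfl]
    exact fun h => ((Nat.prime_iff_prime_int.mp hl).dvd_or_dvd h).elim hlp1
      (not_dvd_intCoeff_one hl hm hf)
  · intro h
    have h' : l ∣ 2 ^ 3 * 3 := by exact_mod_cast h
    rcases hl.dvd_mul.mp h' with h' | h'
    · have := Nat.le_of_dvd (by norm_num) (hl.dvd_of_dvd_pow h'); omega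
    · have := Nat.le_of_dvd (by norm_num) h'; omega
  · intro h; have := Int.le_of_dvd (by norm_num) h; omega
  · intro h; have := Int.le_of_dvd (by norm_num) h; omega

end Cases

/-- No congruence modulo `3` if `p ≡ -1 mod 9`. -/
theorem no_congruence_three {m : ℕ} (hm : 1 ≤ m) (h9 : p % 9 = 8)
    (hf : ∀ n, n ≠ 0 → ((3 : ℕ) : ℤ) ^ m ∣ intCoeff p f n - sigmaP p n) : False := by
  have : Fact (Nat.Prime 2) := ⟨Nat.prime_two⟩
  refine norm_contradiction (q := 2) (constForm f) (constFormCoeff f) (coeffInfty_constForm f)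
    Nat.prime_three (s := 3) (d := 8) (e := 1) (D := 24) (by norm_num) (fun n hn => ?_) ?_
    (by norm_num) (by norm_num) (by norm_num) (by norm_num) (by norm_num) (by norm_num)
    (by norm_num) ?_
  · refine dvd_trans ?_ (dvd_constFormCoeff hf hn)
    exact mul_dvd_mul (by norm_num) (dvd_pow_self _ (by omega : m ≠ 0))
  · rw [constFormCoeff, if_pos rfl]
    exact fun h => ((Nat.prime_iff_prime_int.mp Nat.prime_three).dvd_or_dvd h).elim (by omega)
      (not_dvd_intCoeff_one Nat.prime_three hm hf)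
  · norm_num; omega

/-- No congruence modulo `2` if `p ≡ -1 mod 8`. -/
theorem no_congruence_two {m : ℕ} (hm : 1 ≤ m) (h8 : p % 8 = 7)
    (hf : ∀ n, n ≠ 0 → ((2 : ℕ) : ℤ) ^ m ∣ intCoeff p f n - sigmaP p n) : False := by
  have : Fact (Nat.Prime 3) := ⟨Nat.prime_three⟩
  obtain ⟨w, hw⟩ : ∃ w : ℤ, (p : ℤ) - 1 = 2 * w := ⟨((p : ℤ) - 1) / 2, by omega⟩
  set a : ℕ → ℤ := fun n => if n = 0 then w * intCoeff p f 1
    else 12 * (intCoeff p f 1 * sigmaP p n - intCoeff p f n) with ha
  have h2a : ∀ n, 2 * a n = constFormCoeff f n := by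
    intro n
    simp only [ha, constFormCoeff]
    split_ifs
    · rw [hw]; ring
    · ring
  refine norm_contradiction (q := 3) ((1 / 2 : ℂ) • constForm f) a (fun n => ?_)
    Nat.prime_two (s := 4) (d := 3) (e := 1) (D := 12) (by norm_num) (fun n hn => ?_) ?_
    (by norm_num) (by norm_num) (by norm_num) (by norm_num) (by norm_num) (by norm_num)
    (by norm_num) ?_
  · rw [coeffInfty_smul, coeffInfty_constForm, ← h2a]; push_cast; ring
  · have h1 := dvd_constFormCoeff hf hn
    rw [← h2a] at h1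
    have h2 : (2 : ℤ) * (12 * 2) ∣ 2 * a n := by
      refine dvd_trans ?_ h1
      rw [show (2 : ℤ) * (12 * 2) = 24 * 2 by norm_num]
      exact mul_dvd_mul_left 24 (by simpa using dvd_pow_self ((2 : ℕ) : ℤ) (by omega : m ≠ 0))
    refine dvd_trans ?_ ((mul_dvd_mul_iff_left (by norm_num : (2 : ℤ) ≠ 0)).mp h2)
    norm_num
  · simp only [ha, if_pos]
    exact fun h => ((Nat.prime_iff_prime_int.mp Nat.prime_two).dvd_or_dvd h).elim (by omega)
      (not_dvd_intCoeff_one Nat.prime_two hm hf)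
  · norm_num; omega

/-- The Eisenstein numerator times `gcd (p - 1, 12)` is `p - 1`. -/
theorem eisensteinNumerator_mul_gcd (p : ℕ) :
    eisensteinNumerator p * Nat.gcd (p - 1) 12 = p - 1 :=
  Nat.div_mul_cancel (Nat.gcd_dvd_left _ _)

/-- Prime powers dividing the Eisenstein index divide the numerator. -/
theorem primePow_dvd_numerator (hp : 5 ≤ p) {l m : ℕ} (hl : l.Prime)
    (hcard : l ^ m ∣ Nat.card (↥(heckeLatticeAlgebra p ∅) ⧸ eisIdeal p)) :
    l ^ m ∣ eisensteinNumerator p := by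
  rcases Nat.eq_zero_or_pos m with rfl | hm
  · simp
  obtain ⟨f, hf⟩ := exists_congruence_of_dvd_card p hcard
  have hf' : ∀ n, n ≠ 0 → (l : ℤ) ^ m ∣ intCoeff p f n - sigmaP p n := fun n hn => by
    have := hf n hn; push_cast at this; exact this
  have hpp : p.Prime := Fact.out
  have hlZ := Nat.prime_iff_prime_int.mp hl
  have hpred : (((p - 1 : ℕ) : ℕ) : ℤ) = (p : ℤ) - 1 := by omega
  set g := Nat.gcd (p - 1) 12 with hg
  have hng := eisensteinNumerator_mul_gcd p
  have hg12 : g ∣ 12 := Nat.gcd_dvd_right _ _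
  rw [← hg] at hng
  by_cases h5 : 5 ≤ l
  · have hl24 : (l : ℤ) ^ 0 ∣ 24 := by simp
    have hsmall : ∀ z : ℤ, 0 < z → z < 5 → ¬ (l : ℤ) ∣ z := fun z hz0 hz hd => by
      have := Int.le_of_dvd hz0 hd; omega
    by_cases h1 : (l : ℤ) ∣ (p : ℤ) - 1
    · have hA : ¬ (l : ℤ) ∣ (p : ℤ) + 1 := fun h =>
        hsmall 2 (by norm_num) (by norm_num) (dvd_of_dvd_of_eq (dvd_sub h h1) (by ring))
      have hB : ¬ (l : ℤ) ∣ 10 * ((p : ℤ) - 1) - 1 := fun h =>
        hsmall 1 one_pos (by norm_num) (dvd_of_dvd_of_eq (dvd_sub (h1.mul_left 10) h) (by ring))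
      have h := bound_one hl hm hf' hl24
      rw [zero_add] at h
      have h' := (coprime_of_not_dvd hl hA m).dvd_of_dvd_mul_left
        ((coprime_of_not_dvd hl hB m).dvd_of_dvd_mul_right h)
      rw [← hpred, ← Nat.cast_pow, Int.natCast_dvd_natCast, ← hng] at h'
      refine (Nat.Coprime.pow_left m ?_).dvd_of_dvd_mul_right h'
      refine hl.coprime_iff_not_dvd.mpr fun hd => ?_
      have h12 : l ∣ 2 * 2 * 3 := hd.trans hg12
      rcases hl.dvd_mul.mp h12 with h' | h'
      · rcases hl.dvd_mul.mp h' with h'' | h'' <;>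
          (have := Nat.le_of_dvd (by norm_num) h''; omega)
      · have := Nat.le_of_dvd (by norm_num) h'; omega
    by_cases h2 : (l : ℤ) ∣ (p : ℤ) + 1
    · exact (no_congruence_large hl hm hf' h5 h2).elim
    · exfalso
      have h := bound_two hl hm hf' hl24
      have h' := ((coprime_of_not_dvd hl h1 _).pow_right (n := 2)).dvd_of_dvd_mul_right
        ((coprime_of_not_dvd hl h2 _).dvd_of_dvd_mul_right h)
      have h'' : l ^ 2 ∣ 240 := by
        have := (pow_dvd_pow (l : ℤ) (by omega : 2 ≤ 2 * (0 + m))).trans h'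
        exact_mod_cast this
      have hle := Nat.le_of_dvd (by norm_num) h''
      have h15 : l < 16 := by
        by_contra hh
        have : 16 * 16 ≤ l ^ 2 := by rw [sq]; exact Nat.mul_le_mul (by omega) (by omega)
        omega
      interval_cases l <;> (revert h'' hl; norm_num)
  have hl23 : l = 2 ∨ l = 3 := by
    have := hl.two_le
    interval_cases l <;> norm_num at hl <;> simp
  rcases hl23 with rfl | rfl
  · have hodd : p % 2 = 1 := hpp.eq_two_or_odd.resolve_left (by omega)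
    have hB : ¬ ((2 : ℕ) : ℤ) ∣ 10 * ((p : ℤ) - 1) - 1 := by omega
    have h := (coprime_of_not_dvd Nat.prime_two hB _).dvd_of_dvd_mul_right
      (bound_one Nat.prime_two hm hf' (v := 3) (by norm_num))
    by_cases h4 : p % 4 = 1
    · obtain ⟨w, hw⟩ : ∃ w : ℤ, (p : ℤ) + 1 = 2 * w := ⟨((p : ℤ) + 1) / 2, by omega⟩
      rw [hw, show 3 + m = (2 + m) + 1 by omega, pow_succ', mul_assoc] at h
      have h' : ((2 : ℕ) : ℤ) ^ (2 + m) ∣ w * ((p : ℤ) - 1) :=
        (mul_dvd_mul_iff_left (by norm_num : ((2 : ℕ) : ℤ) ≠ 0)).mp h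
      have hwo : ¬ ((2 : ℕ) : ℤ) ∣ w := by omega
      have h'' := (coprime_of_not_dvd Nat.prime_two hwo _).dvd_of_dvd_mul_left h'
      rw [← hpred, ← Nat.cast_pow, Int.natCast_dvd_natCast, ← hng, pow_add] at h''
      obtain ⟨g', hg'⟩ : 4 ∣ g := Nat.dvd_gcd (by omega) (by norm_num)
      have hg'3 : g' ∣ 3 := by
        have : 4 * g' ∣ 4 * 3 := by rw [← hg']; exact hg12
        exact Nat.dvd_of_mul_dvd_mul_left (by norm_num) this
      have h4' : 2 ^ m ∣ eisensteinNumerator p * g' := by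
        refine Nat.dvd_of_mul_dvd_mul_left (k := 4) (by norm_num) ?_
        rw [show 4 * (eisensteinNumerator p * g') = eisensteinNumerator p * g by rw [hg']; ring]
        simpa using h''
      refine (Nat.Coprime.pow_left m ?_).dvd_of_dvd_mul_right h4'
      exact Nat.Coprime.coprime_dvd_right hg'3 (by norm_num)
    · exfalso
      by_cases h8 : p % 8 = 7
      · exact no_congruence_two hm h8 hf'
      · have h16 : ((2 : ℕ) : ℤ) ^ 4 ∣ ((p : ℤ) + 1) * ((p : ℤ) - 1) :=
          (pow_dvd_pow _ (by omega : 4 ≤ 3 + m)).trans h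
        obtain ⟨w, hw⟩ : ∃ w : ℤ, (p : ℤ) + 1 = 4 * w := ⟨((p : ℤ) + 1) / 4, by omega⟩
        obtain ⟨w', hw'⟩ : ∃ w' : ℤ, (p : ℤ) - 1 = 2 * w' := ⟨((p : ℤ) - 1) / 2, by omega⟩
        rw [hw, hw'] at h16
        obtain ⟨r, hr⟩ := h16
        have h2ww : ((2 : ℕ) : ℤ) ∣ w * w' := ⟨r, by push_cast at hr ⊢; linarith⟩
        rcases (Nat.prime_iff_prime_int.mp Nat.prime_two).dvd_or_dvd h2ww with h' | h' <;>
          push_cast at h' <;> omega
  · have h3p : p % 3 ≠ 0 := fun h => by
      have := (Nat.prime_dvd_prime_iff_eq Nat.prime_three hpp).mp (Nat.dvd_of_mod_eq_zero h)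
      omega
    by_cases h1 : p % 3 = 1
    · have hA : ¬ ((3 : ℕ) : ℤ) ∣ (p : ℤ) + 1 := by omega
      have hB : ¬ ((3 : ℕ) : ℤ) ∣ 10 * ((p : ℤ) - 1) - 1 := by omega
      have h := (coprime_of_not_dvd Nat.prime_three hA _).dvd_of_dvd_mul_left
        ((coprime_of_not_dvd Nat.prime_three hB _).dvd_of_dvd_mul_right
          (bound_one Nat.prime_three hm hf' (v := 1) (by norm_num)))
      rw [← hpred, ← Nat.cast_pow, Int.natCast_dvd_natCast, ← hng, pow_add, pow_one] at h
      obtain ⟨g', hg'⟩ : 3 ∣ g := Nat.dvd_gcd (by omega) (by norm_num)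
      have hg'4 : g' ∣ 4 := by
        have : 3 * g' ∣ 3 * 4 := by rw [← hg']; exact hg12
        exact Nat.dvd_of_mul_dvd_mul_left (by norm_num) this
      have h' : 3 ^ m ∣ eisensteinNumerator p * g' := by
        refine Nat.dvd_of_mul_dvd_mul_left (k := 3) (by norm_num) ?_
        rw [show 3 * (eisensteinNumerator p * g') = eisensteinNumerator p * g by rw [hg']; ring]
        exact h
      refine (Nat.Coprime.pow_left m ?_).dvd_of_dvd_mul_right h'
      exact Nat.Coprime.coprime_dvd_right hg'4 (by norm_num)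
    · exfalso
      by_cases h9 : p % 9 = 8
      · exact no_congruence_three hm h9 hf'
      · have h : ((3 : ℕ) : ℤ) ^ 4 ∣ 240 * ((p : ℤ) - 1) ^ 2 * ((p : ℤ) + 1) :=
          (pow_dvd_pow _ (by omega : 4 ≤ 2 * (1 + m))).trans
            (bound_two Nat.prime_three hm hf' (v := 1) (by norm_num))
        have hC : ¬ ((3 : ℕ) : ℤ) ∣ (p : ℤ) - 1 := by omega
        have h' := ((coprime_of_not_dvd Nat.prime_three hC 4).pow_right (n := 2)).dvd_of_dvd_mul_left
          (dvd_of_dvd_of_eq h (show ((p : ℤ) - 1) ^ 2 * (240 * ((p : ℤ) + 1)) = _ by ring))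
        push_cast at h'
        omega

end Fermat.Agent.Eisenstein
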