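import Fermat.Agent.Eisenstein.Hecke
import Fermat.Agent.Eisenstein.Upper
import Fermat.Agent.Eisenstein.ThetaForm
import Fermat.Agent.Eisenstein.ThetaExists

/-!
# The lower bound for the Eisenstein quotient

A combination of the Eisenstein series and the quaternary theta series is an integral cusp form
congruent to a unit multiple of the Eisenstein series modulo the numerator of `(p - 1) / 12`; so
the numerator divides the index of the Eisenstein ideal.
-/

noncomputable section

open CuspForm ModularCurve CongruenceSubgroup ModularFormClass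

namespace Fermat.Agent.Eisenstein

variable {p : ℕ} [Fact p.Prime]

/-- The form whose coefficients are congruent to a multiple of the Eisenstein series. -/
def lowerForm (D : ThetaData p) : ModularForm (Gamma0 p) 2 :=
  (((12 / Nat.gcd (p - 1) 12 : ℕ) : ℂ)) • eisForm p -
    ((eisensteinNumerator p : ℂ) / 2) • D.thetaForm

/-- `lowerForm` has vanishing constant term. -/
theorem coeffInfty_lowerForm_zero (D : ThetaData p) : coeffInfty (lowerForm D) 0 = 0 := by
  rw [lowerForm, coeffInfty_sub, coeffInfty_smul, coeffInfty_smul, coeffInfty_eisForm, if_pos rfl,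
    D.coeffInfty_thetaForm_zero]
  have hg : ((Nat.gcd (p - 1) 12 : ℕ) : ℂ) * ((12 / Nat.gcd (p - 1) 12 : ℕ) : ℂ) = 12 := by
    have := Nat.mul_div_cancel' (Nat.gcd_dvd_right (p - 1) 12)
    exact_mod_cast this
  have hn : (eisensteinNumerator p : ℂ) * ((Nat.gcd (p - 1) 12 : ℕ) : ℂ) = (p : ℂ) - 1 := by
    rw [← Nat.cast_mul, eisensteinNumerator_mul_gcd, Nat.cast_sub (Fact.out : p.Prime).one_le,
      Nat.cast_one]
  linear_combination -(((12 / Nat.gcd (p - 1) 12 : ℕ) : ℂ) / 24) * hn +
    ((eisensteinNumerator p : ℂ) / 24) * hg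

/-- The numerator divides the index of the Eisenstein ideal. -/
theorem numerator_dvd_card (hp : p ≠ 2) :
    eisensteinNumerator p ∣ Nat.card (↥(heckeLatticeAlgebra p ∅) ⧸ eisIdeal p) := by
  obtain ⟨D⟩ := exists_thetaData hp
  set k : ℕ := 12 / Nat.gcd (p - 1) 12 with hk
  have h0 := coeffInfty_lowerForm_zero D
  have hq : ∀ n, qCoeff (⇑(toCusp (lowerForm D) h0)) n = coeffInfty (lowerForm D) n := fun n => rfl
  have hcoeff : ∀ n, n ≠ 0 → ∃ e : ℤ, coeffInfty (lowerForm D) n =
      (((k : ℤ) * sigmaP p n - (eisensteinNumerator p : ℤ) * e : ℤ) : ℂ) := by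
    intro n hn
    obtain ⟨e, he⟩ := D.coeffInfty_thetaForm_even hn
    refine ⟨e, ?_⟩
    rw [lowerForm, coeffInfty_sub, coeffInfty_smul, coeffInfty_smul, coeffInfty_eisForm,
      if_neg hn, he, ← hk]
    push_cast
    ring
  have hmem : toCusp (lowerForm D) h0 ∈ intLattice p 2 := by
    refine HeckeLift.mem_intLattice_of_int_qCoeff fun n => ?_
    rcases eq_or_ne n 0 with rfl | hn
    · exact ⟨0, by rw [hq, h0, Int.cast_zero]⟩
    · obtain ⟨e, he⟩ := hcoeff n hn
      exact ⟨_, (hq n).trans he⟩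
  refine dvd_card_of_congruence p ⟨_, hmem⟩ (u := (k : ℤ)) ?_ fun n hn => ?_
  · rw [Int.isCoprime_iff_nat_coprime]
    exact (Nat.coprime_div_gcd_div_gcd (Nat.gcd_pos_of_pos_right _ (by norm_num))).symm
  · obtain ⟨e, he⟩ := hcoeff n hn
    rw [(intCoeff_eq_iff p ⟨_, hmem⟩ n _).mpr ((hq n).trans he)]
    exact ⟨-e, by ring⟩

end Fermat.Agent.Eisenstein
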