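import Fermat.Prelude.Def_ModularCurve_ModularUnit
import Fermat.Agent.Eisenstein.Hecke
import Fermat.Agent.Eisenstein.P1Family
import Fermat.Agent.SmallLevel.Vanishing

/-!
# The levels two and three

For `p ≤ 3` there is no weight two cusp form of level `p`, so the Eisenstein quotient is trivial
and the numerator of `(p - 1) / 12` is `1`.
-/

noncomputable section

open CuspForm ModularCurve CongruenceSubgroup

namespace Fermat.Agent.Eisenstein

variable {p : ℕ} [Fact p.Prime]

/-- `Γ₀(p)` has index at most `p + 1`. -/
theorem index_Gamma0_le_succ : (Gamma0 p).index ≤ p + 1 := by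
  have key : ∀ a b : Matrix.SpecialLinearGroup (Fin 2) ℤ,
      act (none : Option (ZMod p)) a⁻¹ = act none b⁻¹ ↔ a⁻¹ * b ∈ Gamma0 p := by
    intro a b
    rw [← act_none_eq_none_iff, act_mul]
    refine ⟨fun h => by rw [h, ← act_mul, inv_mul_cancel, act_one], fun h => ?_⟩
    have h' := congrArg (fun y => act y b⁻¹) h
    simp only [← act_mul, mul_inv_cancel_right] at h'
    exact h'
  let φ : Matrix.SpecialLinearGroup (Fin 2) ℤ ⧸ Gamma0 p → Option (ZMod p) :=
    Quotient.lift (fun a => act (none : Option (ZMod p)) a⁻¹)
      fun a b hab => (key a b).mpr (QuotientGroup.leftRel_apply.mp hab)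
  have hφ : Function.Injective φ := by
    intro x y hxy
    induction x using Quotient.inductionOn with
    | h a =>
      induction y using Quotient.inductionOn with
      | h b => exact QuotientGroup.eq.mpr ((key a b).mp hxy)
  have := Nat.card_le_card_of_injective φ hφ
  simpa [Subgroup.index_eq_card, Nat.card_eq_fintype_card] using this

/-- There is no weight two cusp form of level two or three. -/
theorem cuspForm_eq_zero_of_le_three (hp : p ≤ 3) (f : CuspForm (Gamma0 p) 2) : f = 0 := by
  have : NeZero p := ⟨(Fact.out : p.Prime).ne_zero⟩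
  exact SmallLevel.cuspForm_eq_zero_of_index_lt (N := p) (k := 2) (SmallLevel.Gamma_le_Gamma0 p)
    (by have := index_Gamma0_le_succ (p := p); omega) f

/-- The Eisenstein quotient is trivial for `p ≤ 3`. -/
theorem card_eq_one_of_le_three (hp : p ≤ 3) :
    Nat.card (↥(heckeLatticeAlgebra p ∅) ⧸ eisIdeal p) = 1 := by
  have : Subsingleton ↥(intLattice p 2) := ⟨fun f g => Subtype.ext
    ((cuspForm_eq_zero_of_le_three hp f.1).trans (cuspForm_eq_zero_of_le_three hp g.1).symm)⟩
  have : Subsingleton ↥(heckeLatticeAlgebra p ∅) :=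
    ⟨fun a b => Subtype.ext (LinearMap.ext fun x => Subsingleton.elim _ _)⟩
  have : Subsingleton (↥(heckeLatticeAlgebra p ∅) ⧸ eisIdeal p) :=
    Ideal.Quotient.mk_surjective.subsingleton
  exact Nat.card_unique

/-- The Eisenstein numerator is `1` for `p ≤ 3`. -/
theorem numerator_eq_one_of_le_three (hp : p ≤ 3) : eisensteinNumerator p = 1 := by
  have := (Fact.out : p.Prime).two_le
  interval_cases p <;> decide

end Fermat.Agent.Eisenstein
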