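import Fermat.Prelude.Def_ModularForm_HeckeOperator
import Fermat.Agent.Eisenstein.QSeries
import Fermat.Agent.Eisenstein.P1Family
import Fermat.Agent.Eisenstein.Forms

/-!
# Weight two forms of prime level

The expansion of a weight two form of prime level `p` at the cusp `0` is determined by its
expansion at `∞`, because the trace to level one vanishes.
-/

noncomputable section

open UpperHalfPlane CongruenceSubgroup Matrix.SpecialLinearGroup Function
open scoped MatrixGroups ModularForm Manifold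

namespace Fermat.Agent.Eisenstein

variable {p : ℕ} [Fact p.Prime]

/-- A prime is nonzero. -/
theorem prime_ne_zero : p ≠ 0 := (Fact.out : p.Prime).ne_zero

/-- A sum over the projective line splits off the point `∞`. -/
theorem sum_option_zmod {M : Type*} [AddCommMonoid M] (f : Option (ZMod p) → M) :
    ∑ x, f x = f none + ∑ i : ZMod p, f (some i) := Fintype.sum_option _

/-- The root of unity `exp (2 π i j / p)`. -/
def zetaPow (i : ZMod p) : ℂ := Periodic.qParam (p : ℝ) ((i.val : ℤ) : ℂ)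

/-- `zetaPow i` is a `p`-th root of unity. -/
theorem zetaPow_pow_self (i : ZMod p) : zetaPow i ^ p = 1 := by
  rw [zetaPow, Periodic.qParam, ← Complex.exp_nat_mul]
  have hp : (p : ℂ) ≠ 0 := by exact_mod_cast prime_ne_zero (p := p)
  rw [← Complex.exp_int_mul_two_pi_mul_I (i.val : ℤ)]
  congr 1
  push_cast
  field_simp

/-- The series of the translates, from the series at `∞` and at `0`. -/
def translateSeries (A B : PowerSeries ℂ) : Option (ZMod p) → PowerSeries ℂ
  | none => PowerSeries.expand p prime_ne_zero A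
  | some i => PowerSeries.rescale (zetaPow i) B

/-- The expansions of all translates from those at `∞` and at `0`. -/
theorem hasQ_translates {k : ℤ} {F : ℍ → ℂ} {A B : PowerSeries ℂ} (hA : HasQ 1 F A)
    (hB : HasQ p (F ∣[k] ModularGroup.S) B) (x : Option (ZMod p)) :
    HasQ p (translates k F x) (translateSeries A B x) := by
  cases x with
  | none =>
    have := hA.scale (prime_ne_zero (p := p))
    rw [one_mul] at this
    simpa [translateSeries] using this
  | some i => exact (hB.translate (i.val : ℤ)).congr fun τ => translates_some_apply k F i τ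

/-- Vanishing of the trace to level one. -/
theorem coeff_add_mul_coeff_eq_zero {F : ℍ → ℂ} {A B : PowerSeries ℂ}
    (hF : ∀ γ : SL(2, ℤ), γ ∈ Gamma0 p → F ∣[(2 : ℤ)] γ = F)
    (hA : HasQ 1 F A) (hB : HasQ p (F ∣[(2 : ℤ)] ModularGroup.S) B) (n : ℕ) :
    PowerSeries.coeff n A + p * PowerSeries.coeff (p * n) B = 0 := by
  have : NeZero p := ⟨prime_ne_zero⟩
  have hR := isP1Family_translates (p := p) hF
  have hq := HasQ.sum (L := p) Finset.univ fun x _ => hasQ_translates hA hB x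
  have h0 := levelOne_weight_two_eq_zero _ hR.permuted.sum_slash hq
  rw [h0] at hq
  have h1 := congrArg (PowerSeries.coeff (p * n)) ((HasQ.zero p).unique hq)
  rw [map_zero, map_sum, sum_option_zmod] at h1
  simp only [translateSeries, PowerSeries.coeff_expand_mul, PowerSeries.coeff_rescale, pow_mul,
    zetaPow_pow_self, one_pow, one_mul, Finset.sum_const, Finset.card_univ, ZMod.card,
    nsmul_eq_mul] at h1
  exact h1.symm

/-- The slash action of `S`. -/
theorem slash_S_apply (k : ℤ) (f : ℍ → ℂ) (τ : ℍ) :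
    (f ∣[k] ModularGroup.S) τ = f (ModularGroup.S • τ) * (τ : ℂ) ^ (-k) := by
  rw [ModularForm.SL_slash_apply, ModularGroup.denom_apply]
  simp [ModularGroup.coe_S]

/-- `S` is `τ ↦ -1 / τ`. -/
theorem coe_S_smul (τ : ℍ) : ((ModularGroup.S • τ : ℍ) : ℂ) = -1 / (τ : ℂ) := by
  rw [modular_S_smul]
  simp [neg_div, inv_neg]

/-- The matrix `D γ D⁻¹` for `D = diag(p, 1)`, when `p` divides the lower left entry. -/
def conjDiag (γ : SL(2, ℤ)) (hγ : γ ∈ Gamma0 p) : SL(2, ℤ) :=
  ⟨!![γ 0 0, (p : ℤ) * γ 0 1; γ 1 0 / p, γ 1 1], by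
    have hd : (p : ℤ) ∣ γ 1 0 := (ZMod.intCast_zmod_eq_zero_iff_dvd _ _).mp (Gamma0_mem.mp hγ)
    have h := γ.det_coe
    rw [Matrix.det_fin_two] at h
    rw [Matrix.det_fin_two_of]
    linear_combination h - γ 0 1 * Int.mul_ediv_cancel' hd⟩

omit [Fact p.Prime] in
/-- The matrix of `conjDiag`. -/
theorem coe_conjDiag (γ : SL(2, ℤ)) (hγ : γ ∈ Gamma0 p) :
    ((conjDiag γ hγ : SL(2, ℤ)) : Matrix (Fin 2) (Fin 2) ℤ) =
      !![γ 0 0, (p : ℤ) * γ 0 1; γ 1 0 / p, γ 1 1] := rfl

/-- Conjugation by the diagonal matrix of `p` is `conjDiag`. -/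
theorem heckeDiag_mul (γ : SL(2, ℤ)) (hγ : γ ∈ Gamma0 p) :
    ModularForm.heckeDiagMatrix p * (mapGL ℝ γ) =
      (mapGL ℝ (conjDiag γ hγ)) * ModularForm.heckeDiagMatrix p := by
  have hd : (p : ℤ) ∣ γ 1 0 := (ZMod.intCast_zmod_eq_zero_iff_dvd _ _).mp (Gamma0_mem.mp hγ)
  have h' : ((γ 1 0 / p : ℤ) : ℝ) * (p : ℝ) = ((γ 1 0 : ℤ) : ℝ) := by
    exact_mod_cast Int.ediv_mul_cancel hd
  apply Units.ext
  rw [Units.val_mul, Units.val_mul, ModularForm.val_heckeDiagMatrix prime_ne_zero,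
    mapGL_coe_matrix, mapGL_coe_matrix]
  ext i j
  fin_cases i <;> fin_cases j <;>
    simp [coe_conjDiag, Matrix.mul_apply, Fin.sum_univ_two, h', mul_comm]

theorem S_conjDiag_mem (γ : SL(2, ℤ)) (hγ : γ ∈ Gamma0 p) :
    ModularGroup.S * conjDiag γ hγ * ModularGroup.S⁻¹ ∈ Gamma0 p := by
  rw [Gamma0_mem, coe_mul, coe_mul, coe_inv]
  simp [coe_conjDiag, ModularGroup.coe_S, Matrix.adjugate_fin_two, Matrix.mul_apply,
    Fin.sum_univ_two]

/-- The Fricke transform of a weight two function. -/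
def fricke (p : ℕ) (F : ℍ → ℂ) : ℍ → ℂ :=
  (F ∣[(2 : ℤ)] ModularGroup.S) ∣[(2 : ℤ)] ModularForm.heckeDiagMatrix p

/-- The Fricke transform is again invariant. -/
theorem fricke_invariant {F : ℍ → ℂ}
    (hF : ∀ γ : SL(2, ℤ), γ ∈ Gamma0 p → F ∣[(2 : ℤ)] γ = F) (γ : SL(2, ℤ))
    (hγ : γ ∈ Gamma0 p) : fricke p F ∣[(2 : ℤ)] γ = fricke p F := by
  unfold fricke
  change ((F ∣[(2 : ℤ)] ModularGroup.S) ∣[(2 : ℤ)] ModularForm.heckeDiagMatrix p)
      ∣[(2 : ℤ)] (mapGL ℝ γ) = _
  rw [← SlashAction.slash_mul, heckeDiag_mul γ hγ, SlashAction.slash_mul]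
  congr 1
  change (F ∣[(2 : ℤ)] ModularGroup.S) ∣[(2 : ℤ)] (conjDiag γ hγ) = _
  rw [← SlashAction.slash_mul]
  conv_lhs => rw [← inv_mul_cancel_right (ModularGroup.S * conjDiag γ hγ) ModularGroup.S]
  rw [SlashAction.slash_mul, hF _ (S_conjDiag_mem γ hγ)]

/-- The Fricke operator in terms of the `S`-translate. -/
theorem fricke_apply (F : ℍ → ℂ) (τ σ : ℍ) (h : (σ : ℂ) = (p : ℂ) * τ) :
    fricke p F τ = (p : ℂ) * (F ∣[(2 : ℤ)] ModularGroup.S) σ := by
  rw [fricke, ModularForm.slash_heckeDiagMatrix_apply 2 prime_ne_zero,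
    show ModularForm.heckeDiagMatrix p • τ = σ from UpperHalfPlane.ext
      (by rw [ModularForm.coe_heckeDiagMatrix_smul prime_ne_zero, h])]
  norm_num

theorem fricke_slash_S_apply (F : ℍ → ℂ) (τ σ : ℍ) (h : (σ : ℂ) = (τ : ℂ) / p) :
    (fricke p F ∣[(2 : ℤ)] ModularGroup.S) τ = (p : ℂ)⁻¹ * F σ := by
  have hp : (p : ℂ) ≠ 0 := by exact_mod_cast prime_ne_zero (p := p)
  have ht : (τ : ℂ) ≠ 0 := ne_zero τ
  rw [slash_S_apply, fricke, ModularForm.slash_heckeDiagMatrix_apply 2 prime_ne_zero,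
    slash_S_apply]
  have hc : ((ModularForm.heckeDiagMatrix p • (ModularGroup.S • τ) : ℍ) : ℂ) =
      (p : ℂ) * (-1 / τ) := by
    rw [ModularForm.coe_heckeDiagMatrix_smul prime_ne_zero, coe_S_smul]
  have hs : ModularGroup.S • (ModularForm.heckeDiagMatrix p • (ModularGroup.S • τ)) = σ := by
    apply UpperHalfPlane.ext
    rw [coe_S_smul, hc, h]
    field_simp
  rw [hs, hc]
  field_simp
  simp [mul_comm]

variable (F : ModularForm (Gamma0 p) 2)

omit [Fact p.Prime] in
/-- The form is invariant under `Γ₀(p)`. -/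
theorem slash_eq_self (γ : SL(2, ℤ)) (hγ : γ ∈ Gamma0 p) : ⇑F ∣[(2 : ℤ)] γ = ⇑F :=
  slash_eq_of_mem F hγ

theorem isBoundedAtImInfty_slash (γ : SL(2, ℤ)) :
    IsBoundedAtImInfty (⇑F ∣[(2 : ℤ)] γ) := by
  have : NeZero p := ⟨prime_ne_zero⟩
  have hc : IsCusp (mapGL ℝ γ • OnePoint.infty) 𝒮ℒ := isCusp_SL2Z_iff'.mpr ⟨γ, rfl⟩
  exact (OnePoint.isBoundedAt_iff_forall_SL2Z hc).mp
    (ModularFormClass.bdd_at_cusps F
      ((Subgroup.IsArithmetic.isCusp_iff_isCusp_SL2Z _).mpr hc)) γ rfl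

theorem S_T_pow_mem :
    ModularGroup.S * ModularGroup.T ^ (p : ℤ) * ModularGroup.S⁻¹ ∈ Gamma0 p := by
  rw [Gamma0_mem]
  simp [-zpow_natCast, coe_mul, ModularGroup.coe_S, ModularGroup.coe_T_zpow,
    Matrix.adjugate_fin_two, Matrix.mul_apply, Fin.sum_univ_two]

theorem slash_S_periodic : Periodic ((⇑F ∣[(2 : ℤ)] ModularGroup.S) ∘ ofComplex) (p : ℝ) := by
  set G := ⇑F ∣[(2 : ℤ)] ModularGroup.S with hG
  have h : G ∣[(2 : ℤ)] (ModularGroup.T ^ (p : ℤ)) = G := by
    rw [hG, ← SlashAction.slash_mul]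
    conv_lhs =>
      rw [← inv_mul_cancel_right (ModularGroup.S * ModularGroup.T ^ (p : ℤ)) ModularGroup.S]
    rw [SlashAction.slash_mul, slash_eq_self F _ S_T_pow_mem]
  intro w
  by_cases hw : 0 < w.im
  · have hw' : 0 < (w + ((p : ℝ) : ℂ)).im := by simpa using hw
    simp only [comp_apply, ofComplex_apply_of_im_pos hw', ofComplex_apply_of_im_pos hw]
    have := congrFun h ⟨w, hw⟩
    rw [slash_T_zpow_apply] at this
    convert this using 2
    ext
    simp [add_comm]
  · have hw' : (w + ((p : ℝ) : ℂ)).im ≤ 0 := by simpa using not_lt.mp hw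
    simp only [comp_apply]
    rw [ofComplex_apply_of_im_nonpos hw', ofComplex_apply_of_im_nonpos (not_lt.mp hw)]

/-- The `q`-expansion at `∞`. -/
def coeffInfty (n : ℕ) : ℂ := PowerSeries.coeff n (qExpansion 1 (⇑F))

/-- The `q`-expansion at `0`. -/
def seriesZero : PowerSeries ℂ :=
  PowerSeries.mk fun n => -(coeffInfty F (p * n)) / p

/-- The expansion at `0` is read off from the expansion at `∞`. -/
theorem hasQ_slash_S : HasQ p (⇑F ∣[(2 : ℤ)] ModularGroup.S) (seriesZero F) := by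
  have : NeZero p := ⟨prime_ne_zero⟩
  have hp : (p : ℂ) ≠ 0 := by exact_mod_cast prime_ne_zero (p := p)
  set G := ⇑F ∣[(2 : ℤ)] ModularGroup.S with hG
  set B := qExpansion (p : ℝ) G
  have hholo : MDifferentiable 𝓘(ℂ) 𝓘(ℂ) G := (ModularFormClass.holo F).slash 2 _
  have hB : HasQ p G B := fun τ => by
    simpa using UpperHalfPlane.hasSum_qExpansion (Nat.cast_pos.mpr (Fact.out : p.Prime).pos)
      (slash_S_periodic F) hholo (isBoundedAtImInfty_slash F _) τ
  have hA := hasQ_qExpansion_Gamma0 F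
  have hW1 : HasQ 1 (fricke p (⇑F)) ((p : ℂ) • B) := by
    have hm : 0 < p := (Fact.out : p.Prime).pos
    refine HasQ.comp_mul_descend (L := 1) (f := (p : ℂ) • G) (by rw [one_mul]; exact hB.smul _)
      hm.ne' fun τ σ h => ?_
    rw [fricke_apply (⇑F) τ σ h, Pi.smul_apply, smul_eq_mul]
  have hW2 : HasQ p (fricke p (⇑F) ∣[(2 : ℤ)] ModularGroup.S)
      ((p : ℂ)⁻¹ • qExpansion 1 (⇑F)) := by
    have := HasQ.comp_div (hA.smul ((p : ℂ)⁻¹)) (prime_ne_zero (p := p))
      (g := fricke p (⇑F) ∣[(2 : ℤ)] ModularGroup.S) fun τ σ h => by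
        rw [fricke_slash_S_apply (⇑F) τ σ h, Pi.smul_apply, smul_eq_mul]
    rwa [one_mul] at this
  have key := coeff_add_mul_coeff_eq_zero (fricke_invariant (slash_eq_self F)) hW1 hW2
  suffices B = seriesZero F by rwa [← this]
  ext n
  have := key n
  simp only [PowerSeries.coeff_smul, smul_eq_mul, mul_inv_cancel_left₀ hp] at this
  rw [seriesZero, PowerSeries.coeff_mk, coeffInfty, eq_div_iff hp]
  linear_combination this

/-- The coefficients at `n` and `p² n` agree. -/
theorem coeffInfty_mul_mul (n : ℕ) : coeffInfty F (p * (p * n)) = coeffInfty F n := by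
  have : NeZero p := ⟨prime_ne_zero⟩
  have h := coeff_add_mul_coeff_eq_zero (slash_eq_self F) (hasQ_qExpansion_Gamma0 F)
    (hasQ_slash_S F) n
  have hp : (p : ℂ) ≠ 0 := by exact_mod_cast prime_ne_zero (p := p)
  rw [seriesZero, PowerSeries.coeff_mk, mul_div_cancel₀ _ hp] at h
  exact (sub_eq_zero.mp (by rwa [← sub_eq_add_neg] at h)).symm

/-- The series of all the translates of a weight two form. -/
def formSeries (x : Option (ZMod p)) : PowerSeries ℂ :=
  translateSeries (qExpansion 1 (⇑F)) (seriesZero F) x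

/-- Every translate of the form has `q`-expansion `formSeries` in width `p`. -/
theorem hasQ_formSeries (x : Option (ZMod p)) :
    HasQ p (translates 2 (⇑F) x) (formSeries F x) :=
  have : NeZero p := ⟨prime_ne_zero⟩
  hasQ_translates (hasQ_qExpansion_Gamma0 F) (hasQ_slash_S F) x

theorem constantCoeff_formSeries_eq_zero (h0 : coeffInfty F 0 = 0) (x : Option (ZMod p)) :
    PowerSeries.constantCoeff (formSeries F x) = 0 := by
  rw [← PowerSeries.coeff_zero_eq_constantCoeff_apply]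
  cases x with
  | none =>
    rw [formSeries, translateSeries, show (0 : ℕ) = p * 0 by simp, PowerSeries.coeff_expand_mul]
    exact h0
  | some i => simp [formSeries, translateSeries, seriesZero, h0]

/-- A form with vanishing constant term at `∞` vanishes at every cusp. -/
theorem isZeroAtImInfty_slash (h0 : coeffInfty F 0 = 0) (γ : SL(2, ℤ)) :
    IsZeroAtImInfty (⇑F ∣[(2 : ℤ)] γ) := by
  have : NeZero p := ⟨prime_ne_zero⟩
  have h := isP1Family_translates (p := p) (slash_eq_self F) γ none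
  rw [translates_none] at h
  rw [h]
  exact (hasQ_formSeries F _).isZeroAtImInfty (constantCoeff_formSeries_eq_zero F h0 _)

/-- The cusp form given by a weight two form with vanishing constant term. -/
def toCusp (h0 : coeffInfty F 0 = 0) : CuspForm (Gamma0 p) 2 :=
  have : NeZero p := ⟨prime_ne_zero⟩
  cuspOfForm p F (isZeroAtImInfty_slash F h0)

@[simp] theorem coe_toCusp (h0 : coeffInfty F 0 = 0) : ⇑(toCusp F h0) = ⇑F := rfl

end Fermat.Agent.Eisenstein
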