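import Fermat.Agent.Eisenstein.P1Family
import Fermat.Agent.Eisenstein.Forms
import Fermat.Agent.Eisenstein.WeightTwo
import Fermat.Agent.Eisenstein.GaussianSum

/-!
# Theta series of a quaternary form of level `p` and discriminant `p²`

The form is `x₀² + x₀x₁ + r x₁² + a x₁x₃ + m x₃² + p r x₂² + p x₂x₃` with `4 r = q + 1` and
`a² + p = q m`.  Theta series weighted by functions on the two-dimensional quotient by the level
sublattice are stable under `S` and `T`.
-/

noncomputable section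

open UpperHalfPlane Function
open scoped Real MatrixGroups ModularForm

namespace Fermat.Agent.Eisenstein

/-- The parameters of the quaternary form. -/
structure ThetaData (p : ℕ) where
  /-- auxiliary prime -/
  q : ℕ
  /-- square root of `-p` modulo `q` -/
  a : ℤ
  /-- `(a² + p) / q` -/
  m : ℤ
  /-- `(q + 1) / 4` -/
  r : ℤ
  hq : q.Prime
  hqp : q ≠ p
  hr : 4 * r = (q : ℤ) + 1
  hm : a ^ 2 + (p : ℤ) = q * m
  hnonsq : ¬ IsSquare (-(q : ZMod p))

namespace ThetaData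

variable {p : ℕ} [Fact p.Prime] (D : ThetaData p)

instance factPrimeQ : Fact D.q.Prime := ⟨D.hq⟩

instance neZeroQ : NeZero D.q := ⟨D.hq.ne_zero⟩

omit [Fact p.Prime] in
theorem odd_q : D.q % 2 = 1 := by
  have := D.hr; omega

/-- `q` is nonzero modulo `p`. -/
theorem q_cast_ne_zero : (D.q : ZMod p) ≠ 0 := fun h =>
  D.hqp ((Nat.prime_dvd_prime_iff_eq (Fact.out : p.Prime) D.hq).mp
    ((ZMod.natCast_eq_zero_iff _ _).mp h)).symm

include D in
/-- `p` is odd. -/
theorem odd_p : p % 2 = 1 := by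
  rcases (Fact.out : p.Prime).eq_two_or_odd with h | h
  · subst h
    exact absurd (⟨-(D.q : ZMod 2), (ZMod.pow_card _).symm.trans (pow_two _)⟩ :
      IsSquare (-(D.q : ZMod 2))) D.hnonsq
  · exact h

include D in
/-- Two is invertible modulo `p`. -/
theorem two_ne_zero' : (2 : ZMod p) ≠ 0 := fun h => by
  have h2 : ((2 : ℕ) : ZMod p) = 0 := by exact_mod_cast h
  rw [ZMod.natCast_eq_zero_iff] at h2
  have := Nat.le_of_dvd two_pos h2
  have := (Fact.out : p.Prime).two_le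
  have := D.odd_p
  omega

theorem a_cast_ne_zero : (D.a : ZMod D.q) ≠ 0 := fun h => by
  have hm := congrArg (fun z : ℤ => (z : ZMod D.q)) D.hm
  simp only [Int.cast_add, Int.cast_pow, h, Int.cast_natCast, Int.cast_mul, CharP.cast_eq_zero,
    zero_mul, zero_pow (two_ne_zero), zero_add] at hm
  exact D.hqp ((Nat.prime_dvd_prime_iff_eq D.hq (Fact.out : p.Prime)).mp
    ((ZMod.natCast_eq_zero_iff _ _).mp hm))

/-- The quadratic form. -/
def quad (x : V4) : ℤ :=
  x.1 ^ 2 + x.1 * x.2.1 + D.r * x.2.1 ^ 2 + D.a * x.2.1 * x.2.2.2 + D.m * x.2.2.2 ^ 2 +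
    (p : ℤ) * D.r * x.2.2.1 ^ 2 + (p : ℤ) * x.2.2.1 * x.2.2.2

/-- Doubled orthogonal coordinates. -/
def coords (x : V4) : V4 :=
  (2 * x.1 + x.2.1, (D.q : ℤ) * x.2.1 + 2 * D.a * x.2.2.2, x.2.2.1,
    (D.q : ℤ) * x.2.2.1 + 2 * x.2.2.2)

omit [Fact p.Prime] in
/-- The quadratic form in diagonal coordinates. -/
theorem four_q_quad (x : V4) :
    4 * (D.q : ℤ) * D.quad x = (D.q : ℤ) * (D.coords x).1 ^ 2 + (D.coords x).2.1 ^ 2 +
      (p : ℤ) * D.q * (D.coords x).2.2.1 ^ 2 + (p : ℤ) * (D.coords x).2.2.2 ^ 2 := by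
  simp only [quad, coords]
  linear_combination ((D.q : ℤ) * x.2.1 ^ 2 + (D.q : ℤ) * p * x.2.2.1 ^ 2) * D.hr -
    4 * x.2.2.2 ^ 2 * D.hm

omit [Fact p.Prime] in
/-- The change of coordinates is injective. -/
theorem coords_injective : Injective D.coords := by
  rintro ⟨x0, x1, x2, x3⟩ ⟨y0, y1, y2, y3⟩ h
  simp only [coords, Prod.mk.injEq] at h
  obtain ⟨h0, h1, rfl, h3⟩ := h
  have e3 : x3 = y3 := by linarith
  subst e3
  have e1 : x1 = y1 := mul_left_cancel₀ (by exact_mod_cast D.hq.ne_zero : (D.q : ℤ) ≠ 0)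
    (by linarith)
  subst e1
  simp only [Prod.mk.injEq, and_true]
  linarith

/-- The class of a vector in the two-dimensional quotient. -/
def rho (x : V4) : ZMod p × ZMod p := (((D.coords x).1 : ZMod p), ((D.coords x).2.1 : ZMod p))

/-- The quadratic form on the quotient. -/
def normForm (d : ZMod p × ZMod p) : ZMod p := d.1 ^ 2 / 4 + d.2 ^ 2 / (4 * D.q)

/-- The bilinear form on the quotient. -/
def bil (d e : ZMod p × ZMod p) : ZMod p := d.1 * e.1 / 2 + d.2 * e.2 / (2 * D.q)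

theorem normForm_rho (x : V4) : D.normForm (D.rho x) = (D.quad x : ZMod p) := by
  have h := congrArg (fun z : ℤ => (z : ZMod p)) (D.four_q_quad x)
  simp only [Int.cast_mul, Int.cast_add, Int.cast_pow, Int.cast_natCast, Int.cast_ofNat,
    CharP.cast_eq_zero, zero_mul, add_zero] at h
  have h2 := D.two_ne_zero'
  have hq := D.q_cast_ne_zero
  have h4 : (4 : ZMod p) ≠ 0 := by
    have : (4 : ZMod p) = 2 * 2 := by norm_num
    rw [this]; exact mul_ne_zero h2 h2
  simp only [normForm, rho]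
  field_simp
  linear_combination -h

/-- The summand. -/
def term (τ : ℂ) (x : V4) : ℂ := Complex.exp (2 * π * Complex.I * τ * ((D.quad x : ℂ) / p))

/-- The weights in orthogonal coordinates. -/
def weight : ℝ × ℝ × ℝ × ℝ :=
  (1 / (4 * (p : ℝ)), 1 / (4 * ((D.q : ℝ) * p)), 1 / 4, 1 / (4 * (D.q : ℝ)))

theorem posWeight : PosWeight D.weight := by
  have hp : (0 : ℝ) < p := Nat.cast_pos.mpr (Fact.out : p.Prime).pos
  have hq : (0 : ℝ) < D.q := Nat.cast_pos.mpr D.hq.pos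
  refine ⟨?_, ?_, ?_, ?_⟩ <;> simp only [weight] <;> positivity

theorem gauss4_coords (τ : ℂ) (x : V4) :
    gauss4 D.weight τ (castV4 (D.coords x)) = D.term τ x := by
  have hp : (p : ℂ) ≠ 0 := by exact_mod_cast prime_ne_zero (p := p)
  have hq : (D.q : ℂ) ≠ 0 := by exact_mod_cast D.hq.ne_zero
  have h := congrArg (fun z : ℤ => (z : ℂ)) (D.four_q_quad x)
  push_cast at h
  simp only [gauss4, gauss1, term, castV4, weight, ← Complex.exp_add]
  congr 1
  push_cast
  field_simp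
  linear_combination -τ * h

theorem summable_term {τ : ℂ} (hτ : 0 < τ.im) : Summable fun x => ‖D.term τ x‖ := by
  simp only [← D.gauss4_coords]
  exact (summable_norm_gauss4 D.posWeight hτ).comp_injective D.coords_injective

/-- The weighted theta series converges. -/
theorem summable_weighted (ψ : ZMod p × ZMod p → ℂ) {τ : ℂ} (hτ : 0 < τ.im) :
    Summable fun x => ψ (D.rho x) * D.term τ x := by
  refine Summable.of_norm_bounded ((D.summable_term hτ).mul_left (∑ d, ‖ψ d‖)) fun x => ?_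
  rw [norm_mul]
  exact mul_le_mul_of_nonneg_right
    (Finset.single_le_sum (f := fun d => ‖ψ d‖) (fun d _ => norm_nonneg _) (Finset.mem_univ _))
    (norm_nonneg _)

/-- The weighted theta series. -/
def theta (ψ : ZMod p × ZMod p → ℂ) (τ : ℍ) : ℂ := ∑' x : V4, ψ (D.rho x) * D.term τ x

/-- The standard character of `ZMod N`. -/
abbrev stdChar (N : ℕ) [NeZero N] : AddChar (ZMod N) ℂ := ZMod.stdAddChar

/-- The indices of the character expansion. -/
abbrev Index : Type := ZMod 2 × ZMod 2 × ZMod D.q × (ZMod p × ZMod p)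

/-- The frequencies. -/
def freq (j : D.Index) : ℝ × ℝ × ℝ × ℝ :=
  ((j.1.val : ℝ) / 2 + (j.2.2.2.1.val : ℝ) / p,
    (j.1.val : ℝ) / 2 + (j.2.2.1.val : ℝ) / D.q + (j.2.2.2.2.val : ℝ) / p,
    (j.2.1.val : ℝ) / 2, (j.2.1.val : ℝ) / 2 - (D.a : ℝ) * (j.2.2.1.val : ℝ) / D.q)

/-- The phase as a product of characters. -/
def phase (j : D.Index) (k : V4) : ℂ :=
  stdChar 2 (j.1 * ((k.1 + k.2.1 : ℤ) : ZMod 2)) *
    stdChar 2 (j.2.1 * ((k.2.2.1 + k.2.2.2 : ℤ) : ZMod 2)) *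
    stdChar D.q (j.2.2.1 * ((k.2.1 - D.a * k.2.2.2 : ℤ) : ZMod D.q)) *
    stdChar p (j.2.2.2.1 * (k.1 : ZMod p) + j.2.2.2.2 * (k.2.1 : ZMod p))

theorem stdChar_val {N : ℕ} [NeZero N] (t : ZMod N) (z : ℤ) :
    stdChar N (t * (z : ZMod N)) = Complex.exp (2 * π * Complex.I * ((t.val : ℂ) * z) / N) := by
  have h : t * (z : ZMod N) = (((t.val : ℤ) * z : ℤ) : ZMod N) := by
    push_cast [ZMod.natCast_val, ZMod.cast_id', id_eq]; rfl
  rw [h, ZMod.stdAddChar_coe]
  push_cast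
  rfl

theorem phase_eq (j : D.Index) (k : V4) : D.phase j k = phase4 (D.freq j) k := by
  have hp : (p : ℂ) ≠ 0 := by exact_mod_cast prime_ne_zero (p := p)
  have hq : (D.q : ℂ) ≠ 0 := by exact_mod_cast D.hq.ne_zero
  rw [phase, AddChar.map_add_eq_mul, stdChar_val, stdChar_val, stdChar_val, stdChar_val,
    stdChar_val]
  simp only [phase4, freq, ← Complex.exp_add]
  congr 1
  push_cast
  field_simp
  ring

/-- The finite Fourier coefficients of a weight function. -/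
def hat (ψ : ZMod p × ZMod p → ℂ) (c : ZMod p × ZMod p) : ℂ :=
  ∑ d, ψ d * stdChar p (-(c.1 * d.1 + c.2 * d.2))

/-- The expansion coefficients. -/
def amp (ψ : ZMod p × ZMod p → ℂ) (j : D.Index) : ℂ :=
  hat ψ j.2.2.2 / (4 * (D.q : ℂ) * (p : ℂ) ^ 2)

/-- Orthogonality of the additive characters modulo `N`. -/
theorem sum_stdChar_mul {N : ℕ} [NeZero N] (b : ZMod N) :
    ∑ x, stdChar N (x * b) = if b = 0 then (N : ℂ) else 0 := by
  rw [AddChar.sum_mulShift b (ZMod.isPrimitive_stdAddChar N)]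
  split_ifs <;> simp [ZMod.card]

theorem sum_hat (ψ : ZMod p × ZMod p → ℂ) (k : ZMod p × ZMod p) :
    ∑ c, hat ψ c * stdChar p (c.1 * k.1 + c.2 * k.2) = (p : ℂ) ^ 2 * ψ k := by
  simp only [hat, Finset.sum_mul]
  rw [Finset.sum_comm]
  have h : ∀ d : ZMod p × ZMod p, ∑ c : ZMod p × ZMod p,
      ψ d * stdChar p (-(c.1 * d.1 + c.2 * d.2)) * stdChar p (c.1 * k.1 + c.2 * k.2) =
      ψ d * ((∑ u, stdChar p (u * (k.1 - d.1))) * ∑ v, stdChar p (v * (k.2 - d.2))) := by
    intro d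
    rw [Fintype.sum_prod_type, Finset.sum_mul_sum, Finset.mul_sum]
    refine Finset.sum_congr rfl fun u _ => ?_
    rw [Finset.mul_sum]
    refine Finset.sum_congr rfl fun v _ => ?_
    rw [mul_assoc, ← AddChar.map_add_eq_mul, ← AddChar.map_add_eq_mul]
    congr 2
    ring
  rw [Finset.sum_congr rfl fun d _ => h d, Finset.sum_eq_single k]
  · rw [sum_stdChar_mul, sum_stdChar_mul, sub_self, sub_self, if_pos rfl]
    ring
  · intro d _ hd
    rw [sum_stdChar_mul, sum_stdChar_mul]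
    by_cases h1 : k.1 = d.1
    · have h2 : k.2 - d.2 ≠ 0 := sub_ne_zero.mpr fun h2 => hd (Prod.ext h1.symm h2.symm)
      rw [if_neg h2, mul_zero, mul_zero]
    · rw [if_neg (sub_ne_zero.mpr h1), zero_mul, mul_zero]
  · simp

/-- The amplitudes and phases sum to the weight on the congruence sublattice, and to zero
off it. -/
theorem sum_amp_phase (ψ : ZMod p × ZMod p → ℂ) (k : V4) :
    ∑ j, D.amp ψ j * D.phase j k =
      if ((k.1 + k.2.1 : ℤ) : ZMod 2) = 0 ∧ ((k.2.2.1 + k.2.2.2 : ℤ) : ZMod 2) = 0 ∧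
        ((k.2.1 - D.a * k.2.2.2 : ℤ) : ZMod D.q) = 0
      then ψ ((k.1 : ZMod p), (k.2.1 : ZMod p)) else 0 := by
  have hp : (p : ℂ) ≠ 0 := by exact_mod_cast prime_ne_zero (p := p)
  have hq : (D.q : ℂ) ≠ 0 := by exact_mod_cast D.hq.ne_zero
  have h : ∑ j, D.amp ψ j * D.phase j k =
      (∑ e : ZMod 2, stdChar 2 (e * ((k.1 + k.2.1 : ℤ) : ZMod 2))) *
        ((∑ e : ZMod 2, stdChar 2 (e * ((k.2.2.1 + k.2.2.2 : ℤ) : ZMod 2))) *
        ((∑ t, stdChar D.q (t * ((k.2.1 - D.a * k.2.2.2 : ℤ) : ZMod D.q))) *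
        (∑ c, hat ψ c * stdChar p (c.1 * (k.1 : ZMod p) + c.2 * (k.2.1 : ZMod p))))) /
          (4 * (D.q : ℂ) * (p : ℂ) ^ 2) := by
    rw [Fintype.sum_prod_type, Finset.sum_mul, Finset.sum_div]
    refine Finset.sum_congr rfl fun e _ => ?_
    rw [Fintype.sum_prod_type, Finset.sum_mul, Finset.mul_sum, Finset.sum_div]
    refine Finset.sum_congr rfl fun e' _ => ?_
    rw [Fintype.sum_prod_type, Finset.sum_mul, Finset.mul_sum, Finset.mul_sum, Finset.sum_div]
    refine Finset.sum_congr rfl fun t _ => ?_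
    rw [Finset.mul_sum, Finset.mul_sum, Finset.mul_sum, Finset.sum_div]
    refine Finset.sum_congr rfl fun c _ => ?_
    simp only [amp, phase]
    ring
  rw [h, sum_hat ψ ((k.1 : ZMod p), (k.2.1 : ZMod p)), sum_stdChar_mul, sum_stdChar_mul, sum_stdChar_mul]
  split_ifs <;> simp_all
  field_simp
  ring

omit [Fact p.Prime] in
theorem exists_coords_iff (k : V4) :
    (∃ x, D.coords x = k) ↔ ((k.1 + k.2.1 : ℤ) : ZMod 2) = 0 ∧
      ((k.2.2.1 + k.2.2.2 : ℤ) : ZMod 2) = 0 ∧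
      ((k.2.1 - D.a * k.2.2.2 : ℤ) : ZMod D.q) = 0 := by
  obtain ⟨w, hw⟩ : ∃ w : ℤ, (D.q : ℤ) = 2 * w + 1 := ⟨(D.q : ℤ) / 2, by have := D.odd_q; omega⟩
  constructor
  · rintro ⟨x, rfl⟩
    refine ⟨?_, ?_, ?_⟩
    · rw [ZMod.intCast_zmod_eq_zero_iff_dvd]
      exact ⟨x.1 + (w + 1) * x.2.1 + D.a * x.2.2.2, by simp only [coords, hw]; push_cast; ring⟩
    · rw [ZMod.intCast_zmod_eq_zero_iff_dvd]
      exact ⟨(w + 1) * x.2.2.1 + x.2.2.2, by simp only [coords, hw]; push_cast; ring⟩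
    · rw [ZMod.intCast_zmod_eq_zero_iff_dvd]
      exact ⟨x.2.1 - D.a * x.2.2.1, by simp only [coords]; ring⟩
  · rintro ⟨h1, h2, h3⟩
    rw [ZMod.intCast_zmod_eq_zero_iff_dvd] at h1 h2 h3
    obtain ⟨k0, k1, k2, k3⟩ := k
    simp only at h1 h2 h3
    obtain ⟨u, hu⟩ := h2
    obtain ⟨v, hv⟩ := h3
    obtain ⟨s, hs⟩ := h1
    push_cast at hu hs
    -- `x₂ = k₂`, `x₃ = (k₃ - q k₂) / 2`
    set x3 : ℤ := u - (w + 1) * k2 with hx3
    have hk3 : k3 = (D.q : ℤ) * k2 + 2 * x3 := by rw [hx3, hw]; linear_combination hu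
    set x1 : ℤ := v + D.a * k2 with hx1
    have hk1 : k1 = (D.q : ℤ) * x1 + 2 * D.a * x3 := by
      rw [hx1]; rw [hk3] at hv; linear_combination hv
    refine ⟨(s - D.a * x3 - (w + 1) * x1, x1, k2, x3), ?_⟩
    simp only [coords, Prod.mk.injEq, true_and]
    refine ⟨?_, hk1.symm, hk3.symm⟩
    rw [hw] at hk1
    linear_combination -hs + hk1

theorem weight_product :
    16 * (D.weight.1 * D.weight.2.1 * D.weight.2.2.1 * D.weight.2.2.2) =
      1 / (4 * (p : ℝ) * D.q) ^ 2 := by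
  have hp : (p : ℝ) ≠ 0 := by exact_mod_cast prime_ne_zero (p := p)
  have hq : (D.q : ℝ) ≠ 0 := by exact_mod_cast D.hq.ne_zero
  simp only [weight]
  field_simp
  ring

/-- The bijection used to reassemble the dual sums. -/
def glue (jn : D.Index × V4) : V4 :=
  let j := jn.1
  let n := jn.2
  ((p : ℤ) * n.1 - j.2.2.2.1.val - (p : ℤ) * n.2.1 + j.2.2.2.2.val + D.m * j.2.2.1.val +
      D.a * (n.2.2.2 - n.2.2.1),
    2 * (p : ℤ) * n.2.1 - (p : ℤ) * j.1.val - 2 * j.2.2.2.2.val - 2 * D.m * j.2.2.1.val -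
      2 * D.a * (n.2.2.2 - n.2.2.1),
    2 * n.2.2.1 - j.2.1.val,
    (D.q : ℤ) * (n.2.2.2 - n.2.2.1) + D.a * j.2.2.1.val)

omit [Fact p.Prime] in
theorem coords_glue (j : D.Index) (n : V4) :
    D.coords (D.glue (j, n)) =
      (2 * (p : ℤ) * n.1 - (p : ℤ) * j.1.val - 2 * j.2.2.2.1.val,
        2 * (D.q : ℤ) * p * n.2.1 - (D.q : ℤ) * p * j.1.val - 2 * (p : ℤ) * j.2.2.1.val -
          2 * (D.q : ℤ) * j.2.2.2.2.val,
        2 * n.2.2.1 - j.2.1.val,
        2 * (D.q : ℤ) * n.2.2.2 - (D.q : ℤ) * j.2.1.val + 2 * D.a * j.2.2.1.val) := by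
  simp only [coords, glue, Prod.mk.injEq, true_and]
  refine ⟨by ring, ?_, by ring⟩
  linear_combination (2 * (j.2.2.1.val : ℤ)) * D.hm

theorem val_eq_of_dvd {N : ℕ} [NeZero N] {x y : ZMod N} (h : (N : ℤ) ∣ (x.val : ℤ) - y.val) :
    x = y := by
  rw [← ZMod.intCast_zmod_eq_zero_iff_dvd, Int.cast_sub, Int.cast_natCast, Int.cast_natCast,
    ZMod.natCast_val, ZMod.natCast_val, ZMod.cast_id, ZMod.cast_id, sub_eq_zero] at h
  exact h

theorem glue_injective : Injective D.glue := by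
  have : NeZero p := ⟨prime_ne_zero⟩
  rintro ⟨j, n⟩ ⟨j', n'⟩ h
  have hc := congrArg D.coords h
  rw [coords_glue, coords_glue] at hc
  obtain ⟨e1, e2, t, c0, c1⟩ := j
  obtain ⟨e1', e2', t', c0', c1'⟩ := j'
  obtain ⟨n0, n1, n2, n3⟩ := n
  obtain ⟨m0, m1, m2, m3⟩ := n'
  simp only [glue, Prod.mk.injEq] at h hc
  obtain ⟨-, -, h2, h3⟩ := h
  obtain ⟨hk0, hk1, -, -⟩ := hc
  have hb2 := ZMod.val_lt e2
  have hb2' := ZMod.val_lt e2'
  have he2 : e2.val = e2'.val := by omega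
  have hn2 : n2 = m2 := by omega
  obtain rfl := ZMod.val_injective 2 he2
  subst hn2
  have ht : t = t' := by
    have h0 : (D.a : ZMod D.q) * t = (D.a : ZMod D.q) * t' := by
      have := congrArg (fun z : ℤ => (z : ZMod D.q)) h3
      simpa [ZMod.natCast_val] using this
    exact mul_left_cancel₀ D.a_cast_ne_zero h0
  subst ht
  have hn3 : n3 = m3 := by
    have : (D.q : ℤ) * (n3 - n2) = (D.q : ℤ) * (m3 - n2) := by linarith
    have := mul_left_cancel₀ (by exact_mod_cast D.hq.ne_zero : (D.q : ℤ) ≠ 0) this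
    linarith
  subst hn3
  have hpco : IsCoprime (p : ℤ) 2 := by
    rw [Int.isCoprime_iff_nat_coprime]
    exact ((Fact.out : p.Prime).coprime_iff_not_dvd.mpr fun hd => by
      have := Nat.le_of_dvd two_pos hd
      have := (Fact.out : p.Prime).two_le
      have := D.odd_p
      omega)
  have hc0 : c0 = c0' := val_eq_of_dvd (hpco.dvd_of_dvd_mul_left
    ⟨2 * n0 - e1.val - 2 * m0 + e1'.val, by linear_combination -hk0⟩)
  subst hc0
  have hpz : (p : ℤ) ≠ 0 := by exact_mod_cast prime_ne_zero (p := p)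
  have he : (2 * n0 - (e1.val : ℤ)) = 2 * m0 - e1'.val :=
    mul_left_cancel₀ hpz (by linarith)
  have hb1 := ZMod.val_lt e1
  have hb1' := ZMod.val_lt e1'
  have he1 : e1.val = e1'.val := by omega
  have hn0 : n0 = m0 := by omega
  obtain rfl := ZMod.val_injective 2 he1
  subst hn0
  have hqz : (D.q : ℤ) ≠ 0 := by exact_mod_cast D.hq.ne_zero
  have hk1' : 2 * (p : ℤ) * n1 - 2 * c1.val = 2 * (p : ℤ) * m1 - 2 * c1'.val :=
    mul_left_cancel₀ hqz (by linear_combination hk1)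
  have hc1 : c1 = c1' := val_eq_of_dvd ⟨n1 - m1, by linarith⟩
  subst hc1
  have hn1 : n1 = m1 := mul_left_cancel₀ hpz (by linarith)
  subst hn1
  rfl

theorem exists_val_add {N : ℕ} [NeZero N] (z : ℤ) : ∃ c : ZMod N, ∃ w : ℤ, z + c.val = N * w := by
  refine ⟨-(z : ZMod N), ?_⟩
  have : ((z + (-(z : ZMod N)).val : ℤ) : ZMod N) = 0 := by
    push_cast [ZMod.natCast_val, ZMod.cast_id', id_eq]
    simp
  rw [ZMod.intCast_zmod_eq_zero_iff_dvd] at this
  exact this

theorem exists_parity (z : ℤ) : ∃ e : ZMod 2, ∃ w : ℤ, z = 2 * w - e.val := by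
  obtain ⟨e, w, hw⟩ := exists_val_add (N := 2) z
  exact ⟨e, w, by push_cast at hw; linarith⟩

/-- Every lattice vector is in the image of `glue`. -/
theorem glue_surjective : Surjective D.glue := by
  have : NeZero p := ⟨prime_ne_zero⟩
  rintro ⟨x0, x1, x2, x3⟩
  obtain ⟨e2, n2, hn2⟩ := exists_parity x2
  obtain ⟨t, d, hd⟩ : ∃ t : ZMod D.q, ∃ d : ℤ, x3 = (D.q : ℤ) * d + D.a * t.val := by
    refine ⟨(x3 : ZMod D.q) / (D.a : ZMod D.q), ?_⟩
    have h0 : ((x3 - D.a * ((x3 : ZMod D.q) / (D.a : ZMod D.q)).val : ℤ) : ZMod D.q) = 0 := by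
      push_cast [ZMod.natCast_val, ZMod.cast_id', id_eq]
      rw [mul_div_cancel₀ _ D.a_cast_ne_zero, sub_self]
    rw [ZMod.intCast_zmod_eq_zero_iff_dvd] at h0
    obtain ⟨d, hd⟩ := h0
    exact ⟨d, by linarith⟩
  -- `k₀ + 2 c₀` is divisible by `p`
  obtain ⟨c, s, hs⟩ : ∃ c : ZMod p, ∃ s : ℤ, 2 * x0 + x1 + 2 * (c.val : ℤ) = (p : ℤ) * s := by
    refine ⟨-((2 * x0 + x1 : ℤ) : ZMod p) / 2, ?_⟩
    have h0 : ((2 * x0 + x1 + 2 * ((-((2 * x0 + x1 : ℤ) : ZMod p) / 2).val : ℤ) : ℤ) : ZMod p) =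
        0 := by
      push_cast [ZMod.natCast_val, ZMod.cast_id', id_eq]
      rw [mul_div_cancel₀ _ D.two_ne_zero']
      ring
    rw [ZMod.intCast_zmod_eq_zero_iff_dvd] at h0
    exact h0
  obtain ⟨e1, n0, hn0⟩ := exists_parity s
  obtain ⟨w, hw⟩ : ∃ w : ℤ, (p : ℤ) = 2 * w + 1 := ⟨(p : ℤ) / 2, by have := D.odd_p; omega⟩
  obtain ⟨R, hR⟩ : ∃ R : ℤ, x1 + (p : ℤ) * e1.val + 2 * D.m * t.val + 2 * D.a * d = 2 * R :=
    ⟨(p : ℤ) * n0 - x0 - c.val + D.m * t.val + D.a * d, by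
      rw [hn0] at hs
      linear_combination hs⟩
  obtain ⟨c1, n1, hn1⟩ := exists_val_add (N := p) R
  refine ⟨((e1, e2, t, c, c1), (n0, n1, n2, n2 + d)), ?_⟩
  simp only [glue, Prod.mk.injEq]
  refine ⟨?_, ?_, hn2.symm, ?_⟩
  · rw [hn0] at hs
    have : 2 * x0 = 2 * ((p : ℤ) * n0 - c.val - (p : ℤ) * n1 + c1.val + D.m * t.val +
        D.a * (n2 + d - n2)) := by linear_combination hs - hR - 2 * hn1
    linarith
  · linear_combination -hR - 2 * hn1
  · rw [hd]; ring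

/-- The equivalence underlying `glue`. -/
def glueEquiv : D.Index × V4 ≃ V4 := Equiv.ofBijective D.glue ⟨D.glue_injective, D.glue_surjective⟩

theorem gauss4_dual (j : D.Index) (n : V4) (τ : ℂ) :
    gauss4 (dualWeight D.weight) τ (shiftV4 (D.freq j) n) = D.term τ (D.glue (j, n)) := by
  have hp : (p : ℂ) ≠ 0 := by exact_mod_cast prime_ne_zero (p := p)
  have hq : (D.q : ℂ) ≠ 0 := by exact_mod_cast D.hq.ne_zero
  have h := congrArg (fun z : ℤ => (z : ℂ)) (D.four_q_quad (D.glue (j, n)))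
  rw [coords_glue] at h
  push_cast at h
  simp only [gauss4, gauss1, term, dualWeight, weight, shiftV4, freq, ← Complex.exp_add]
  congr 1
  push_cast
  field_simp
  linear_combination -τ * h

/-- The transform attached to `S`. -/
def fourier (ψ : ZMod p × ZMod p → ℂ) (d : ZMod p × ZMod p) : ℂ :=
  -(1 / (p : ℂ)) * ∑ e, ψ e * stdChar p (D.bil d e)

theorem amp_eq (ψ : ZMod p × ZMod p → ℂ) (j : D.Index) (n : V4) :
    -((4 * (p : ℂ) * D.q)) * D.amp ψ j = D.fourier ψ (D.rho (D.glue (j, n))) := by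
  have : NeZero p := ⟨prime_ne_zero⟩
  have hp : (p : ℂ) ≠ 0 := by exact_mod_cast prime_ne_zero (p := p)
  have hq : (D.q : ℂ) ≠ 0 := by exact_mod_cast D.hq.ne_zero
  have hq' := D.q_cast_ne_zero
  have h2 := D.two_ne_zero'
  have hsum : hat ψ j.2.2.2 = ∑ e, ψ e * stdChar p (D.bil (D.rho (D.glue (j, n))) e) := by
    refine Finset.sum_congr rfl fun e _ => ?_
    congr 2
    simp only [bil, rho, coords_glue]
    push_cast [ZMod.natCast_val, ZMod.cast_id', id_eq, CharP.cast_eq_zero]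
    field_simp
    ring
  rw [fourier, amp, ← hsum]
  field_simp

/-- The theta series transforms under `S` by the finite Fourier transform of its weight. -/
theorem theta_slash_S (ψ : ZMod p × ZMod p → ℂ) :
    D.theta ψ ∣[(2 : ℤ)] ModularGroup.S = D.theta (D.fourier ψ) := by
  have : NeZero p := ⟨prime_ne_zero⟩
  funext τ
  have hτ : 0 < (τ : ℂ).im := τ.im_pos
  have hσ := neg_inv_im_pos hτ
  rw [slash_S_apply, theta, coe_S_smul]
  -- as a sum over all integer quadruples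
  have hstep : ∑' x : V4, ψ (D.rho x) * D.term (-1 / (τ : ℂ)) x =
      ∑' k : V4, ∑ j, D.amp ψ j * (D.phase j k * gauss4 D.weight (-1 / (τ : ℂ)) (castV4 k)) := by
    rw [← D.coords_injective.tsum_eq (f := fun k : V4 =>
      ∑ j, D.amp ψ j * (D.phase j k * gauss4 D.weight (-1 / (τ : ℂ)) (castV4 k)))]
    · refine tsum_congr fun x => ?_
      simp only [← mul_assoc]
      rw [← Finset.sum_mul, sum_amp_phase, if_pos ((D.exists_coords_iff _).mp ⟨x, rfl⟩),
        gauss4_coords]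
      rfl
    · intro k hk
      rw [Function.mem_support] at hk
      by_contra hno
      apply hk
      simp only [← mul_assoc]
      rw [← Finset.sum_mul, sum_amp_phase, if_neg fun h => hno ((D.exists_coords_iff k).mpr h),
        zero_mul]
  have hsj : ∀ j : D.Index, Summable fun k : V4 =>
      D.amp ψ j * (D.phase j k * gauss4 D.weight (-1 / (τ : ℂ)) (castV4 k)) := fun j => by
    simp only [phase_eq]
    exact (summable_norm_phase_gauss4 D.posWeight _ hσ).of_norm.mul_left _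
  rw [hstep, Summable.tsum_finsetSum fun j _ => hsj j]
  have hpq : (0 : ℝ) < 4 * (p : ℝ) * D.q := by
    have := (Fact.out : p.Prime).pos
    have := D.hq.pos
    positivity
  have hinv : ∀ j : D.Index,
      ∑' k : V4, D.amp ψ j * (D.phase j k * gauss4 D.weight (-1 / (τ : ℂ)) (castV4 k)) =
        (τ : ℂ) ^ 2 * ∑' n : V4, D.fourier ψ (D.rho (D.glue (j, n))) *
          D.term (τ : ℂ) (D.glue (j, n)) := by
    intro j
    simp only [phase_eq]
    rw [tsum_mul_left, tsum_gauss4_inversion D.posWeight hpq D.weight_product _ hτ]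
    simp only [gauss4_dual, ← tsum_mul_left]
    refine tsum_congr fun n => ?_
    rw [← amp_eq]
    push_cast
    ring
  rw [Finset.sum_congr rfl fun j _ => hinv j, ← Finset.mul_sum, theta,
    ← D.glueEquiv.tsum_eq (fun x => D.fourier ψ (D.rho x) * D.term (τ : ℂ) x)]
  have hsum : Summable fun jn : D.Index × V4 =>
      D.fourier ψ (D.rho (D.glueEquiv jn)) * D.term (τ : ℂ) (D.glueEquiv jn) :=
    D.glueEquiv.summable_iff.mpr (D.summable_weighted (D.fourier ψ) hτ)
  rw [hsum.tsum_prod, tsum_fintype]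
  rw [mul_comm, ← mul_assoc, zpow_neg, zpow_ofNat,
    inv_mul_cancel₀ (pow_ne_zero 2 (ne_zero τ)), one_mul]
  rfl

/-- The theta series transforms under `T` by the character of the norm form. -/
theorem theta_translate (ψ : ZMod p × ZMod p → ℂ) :
    D.theta ψ ∣[(2 : ℤ)] ModularGroup.T =
      D.theta (fun d => stdChar p (D.normForm d) * ψ d) := by
  have : NeZero p := ⟨prime_ne_zero⟩
  funext τ
  rw [← zpow_one ModularGroup.T, slash_T_zpow_apply, theta, theta]
  refine tsum_congr fun x => ?_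
  rw [mul_comm (stdChar p _) (ψ _), mul_assoc, normForm_rho, stdChar, ZMod.stdAddChar_coe]
  congr 1
  simp only [term, UpperHalfPlane.coe_vadd, ← Complex.exp_add]
  congr 1
  push_cast
  ring

end ThetaData

end Fermat.Agent.Eisenstein
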